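/-
S25lib / Krich / Filt  (helper3)  --  Project L (S25), brick (I2): the filtered target of the
two-chart complex.

`IsFilt R L b`: an exhaustive increasing `ℤ`-filtration `L` of an `R`-module `V` (in the application
`V = Γ(U₁₂ × R, M)`, `L n = z⁻ⁿ Γ(U₂ × R, M)`) whose graded pieces are free of rank one on the classes of
the `b n` (`b n = z⁻ⁿ σ`, `σ` a lift of the rigidification).  Consequences: the leading coefficient
`lc n : L n → R`, and `V ⧸ L n` is free on the classes of the `b j`, `j > n`.
-/
import Mathlib

set_option autoImplicit false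

namespace Fermat.Agent.S25lib.Krich

open Submodule

variable {R : Type*} [CommRing R] {V : Type*} [AddCommGroup V] [Module R V]

/-- an exhaustive increasing filtration with free rank-one graded pieces -/
structure IsFilt (R : Type*) [CommRing R] {V : Type*} [AddCommGroup V] [Module R V]
    (L : ℤ → Submodule R V) (b : ℤ → V) : Prop where
  succ : ∀ n, L (n + 1) = L n ⊔ span R {b (n + 1)}
  free : ∀ n (r : R), r • b (n + 1) ∈ L n → r = 0
  exhaust : ∀ v, ∃ n, v ∈ L n

namespace IsFilt

variable {L : ℤ → Submodule R V} {b : ℤ → V} (h : IsFilt R L b)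

include h

theorem le_succ (n : ℤ) : L n ≤ L (n + 1) := by
  rw [h.succ]; exact le_sup_left

theorem mono : Monotone L := monotone_int_of_le_succ h.le_succ

theorem b_mem (n : ℤ) : b n ∈ L n := by
  have := h.succ (n - 1)
  rw [sub_add_cancel] at this
  rw [this]
  exact mem_sup_right (subset_span rfl)

theorem free' (n : ℤ) (r : R) (hr : r • b n ∈ L (n - 1)) : r = 0 := by
  have := h.free (n - 1) r
  rw [sub_add_cancel] at this
  exact this hr

/-- decomposition of an element of `L n` -/
theorem exists_coeff (n : ℤ) {v : V} (hv : v ∈ L n) : ∃ r : R, v - r • b n ∈ L (n - 1) := by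
  have := h.succ (n - 1)
  rw [sub_add_cancel] at this
  rw [this] at hv
  obtain ⟨l, hl, y, hy, rfl⟩ := mem_sup.mp hv
  obtain ⟨r, rfl⟩ := mem_span_singleton.mp hy
  exact ⟨r, by rwa [add_sub_cancel_right]⟩

theorem coeff_unique (n : ℤ) {v : V} {r r' : R} (hr : v - r • b n ∈ L (n - 1))
    (hr' : v - r' • b n ∈ L (n - 1)) : r = r' := by
  have : (r - r') • b n ∈ L (n - 1) := by
    have := (L (n - 1)).sub_mem hr' hr
    rwa [sub_sub_sub_cancel_left, ← sub_smul] at this
  exact sub_eq_zero.mp (h.free' n _ this)

/-- **the leading coefficient** of an element of `L n` -/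
noncomputable def lc (n : ℤ) : L n →ₗ[R] R where
  toFun v := (h.exists_coeff n v.2).choose
  map_add' v w := by
    refine h.coeff_unique n (h.exists_coeff n (v + w).2).choose_spec ?_
    have hv := (h.exists_coeff n v.2).choose_spec
    have hw := (h.exists_coeff n w.2).choose_spec
    have := (L (n - 1)).add_mem hv hw
    rw [add_smul]
    convert this using 1
    push_cast
    abel
  map_smul' c v := by
    refine h.coeff_unique n (h.exists_coeff n (c • v).2).choose_spec ?_
    have hv := (h.exists_coeff n v.2).choose_spec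
    have := (L (n - 1)).smul_mem c hv
    rw [RingHom.id_apply, smul_eq_mul, mul_smul]
    convert this using 1
    push_cast
    rw [smul_sub]

theorem lc_spec (n : ℤ) (v : L n) : (v : V) - h.lc n v • b n ∈ L (n - 1) :=
  (h.exists_coeff n v.2).choose_spec

theorem lc_eq (n : ℤ) (v : L n) {r : R} (hr : (v : V) - r • b n ∈ L (n - 1)) : h.lc n v = r :=
  h.coeff_unique n (h.lc_spec n v) hr

theorem lc_b (n : ℤ) : h.lc n ⟨b n, h.b_mem n⟩ = 1 :=
  h.lc_eq n _ (by simp)

theorem lc_eq_zero_iff (n : ℤ) (v : L n) : h.lc n v = 0 ↔ (v : V) ∈ L (n - 1) := by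
  constructor
  · intro h0
    have := h.lc_spec n v
    rwa [h0, zero_smul, sub_zero] at this
  · intro hv
    exact h.lc_eq n v (by rwa [zero_smul, sub_zero])

theorem lc_surjective (n : ℤ) : Function.Surjective (h.lc n) := fun r =>
  ⟨r • ⟨b n, h.b_mem n⟩, by rw [map_smul, h.lc_b, smul_eq_mul, mul_one]⟩

/-- **linear independence of the `b j`, `j > n`, modulo `L n`** -/
theorem coeff_eq_zero (n : ℤ) (g : ℤ →₀ R) (hg : ∀ j ∈ g.support, n < j)
    (hsum : (g.sum fun j r => r • b j) ∈ L n) : g = 0 := by
  classical
  by_contra hne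
  have hne' : g.support.Nonempty := Finsupp.support_nonempty_iff.mpr hne
  set m := g.support.max' hne' with hm
  have hmem : m ∈ g.support := Finset.max'_mem _ _
  have hnm : n < m := hg m hmem
  -- split off the top term
  have hsplit : (g.sum fun j r => r • b j) =
      g m • b m + ∑ j ∈ g.support.erase m, g j • b j := by
    rw [Finsupp.sum, ← Finset.add_sum_erase _ _ hmem]
  have hrest : ∑ j ∈ g.support.erase m, g j • b j ∈ L (m - 1) := by
    refine Submodule.sum_mem _ fun j hj => ?_
    have hjm : j ≤ m - 1 := by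
      have h1 : j ≤ m := Finset.le_max' _ _ (Finset.mem_of_mem_erase hj)
      have h2 : j ≠ m := Finset.ne_of_mem_erase hj
      omega
    exact (L (m - 1)).smul_mem _ (h.mono hjm (h.b_mem j))
  have htop : g m • b m ∈ L (m - 1) := by
    have h1 : (g.sum fun j r => r • b j) ∈ L (m - 1) := h.mono (by omega) hsum
    rw [hsplit] at h1
    exact (Submodule.add_mem_iff_left _ hrest).mp h1
  exact (Finsupp.mem_support_iff.mp hmem) (h.free' m _ htop)

/-- **the `b j`, `n < j ≤ N`, span `L N` modulo `L n`** -/
theorem exists_sum_of_mem (n : ℤ) {N : ℤ} {v : V} (hv : v ∈ L N) :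
    ∃ g : ℤ →₀ R, (∀ j ∈ g.support, n < j ∧ j ≤ N) ∧ v - (g.sum fun j r => r • b j) ∈ L n := by
  classical
  -- induction on `N - n`
  obtain ⟨k, hk⟩ : ∃ k : ℕ, N ≤ n + k := ⟨(N - n).toNat, by omega⟩
  induction k generalizing N v with
  | zero =>
    refine ⟨0, by simp, ?_⟩
    rw [Finsupp.sum_zero_index, sub_zero]
    exact h.mono (by simpa using hk) hv
  | succ k ih =>
    by_cases hNn : N ≤ n + k
    · exact ih hv hNn
    · have hN : N = n + k + 1 := by push_cast at hk; omega
      obtain ⟨r, hr⟩ := h.exists_coeff N hv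
      obtain ⟨g, hg, hgv⟩ := ih hr (by omega)
      refine ⟨g + Finsupp.single N r, ?_, ?_⟩
      · intro j hj
        rcases Finset.mem_union.mp (Finsupp.support_add hj) with hj | hj
        · have := hg j hj
          omega
        · have : j = N := by
            have := Finsupp.support_single_subset hj
            simpa using this
          omega
      · rw [Finsupp.sum_add_index' (by simp) (by intros; rw [add_smul]),
          Finsupp.sum_single_index (by simp)]
        have : v - ((g.sum fun j r => r • b j) + r • b N) =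
            v - r • b N - (g.sum fun j r => r • b j) := by abel
        rw [this]
        exact hgv

theorem exists_sum (n : ℤ) (v : V) :
    ∃ g : ℤ →₀ R, (∀ j ∈ g.support, n < j) ∧ v - (g.sum fun j r => r • b j) ∈ L n := by
  obtain ⟨N, hN⟩ := h.exhaust v
  obtain ⟨g, hg, hgv⟩ := h.exists_sum_of_mem n hN
  exact ⟨g, fun j hj => (hg j hj).1, hgv⟩

/-- the classes of the `b j`, `j > n`, in `V ⧸ L n` -/
def qb (_ : IsFilt R L b) (n : ℤ) (j : {j : ℤ // n < j}) : V ⧸ L n := (L n).mkQ (b j.1)

theorem linearIndependent_qb (n : ℤ) : LinearIndependent R (h.qb n) := by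
  classical
  rw [linearIndependent_iff]
  intro l hl
  -- transport to a finitely supported function on `ℤ`
  set g : ℤ →₀ R := Finsupp.mapDomain Subtype.val l with hg
  have hsum : (g.sum fun j r => r • b j) = l.sum fun j r => r • b j.1 := by
    rw [hg, Finsupp.sum_mapDomain_index_inj Subtype.val_injective]
  have hmem : (g.sum fun j r => r • b j) ∈ L n := by
    rw [hsum]
    have : (L n).mkQ (l.sum fun j r => r • b j.1) = 0 := by
      rw [← hl, Finsupp.linearCombination_apply, map_finsuppSum]
      simp only [map_smul]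
      rfl
    rwa [Submodule.mkQ_apply, Submodule.Quotient.mk_eq_zero] at this
  have hsupp : ∀ j ∈ g.support, n < j := by
    intro j hj
    have := Finsupp.mapDomain_support hj
    obtain ⟨i, _, rfl⟩ := Finset.mem_image.mp this
    exact i.2
  have hg0 := h.coeff_eq_zero n g hsupp hmem
  rw [hg] at hg0
  exact Finsupp.mapDomain_injective Subtype.val_injective (by rw [hg0, Finsupp.mapDomain_zero])

theorem span_qb (n : ℤ) : ⊤ ≤ span R (Set.range (h.qb n)) := by
  classical
  rintro x -
  obtain ⟨v, rfl⟩ := (L n).mkQ_surjective x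
  obtain ⟨g, hg, hgv⟩ := h.exists_sum n v
  have hv : (L n).mkQ v = (L n).mkQ (g.sum fun j r => r • b j) := by
    rw [← sub_eq_zero, ← map_sub, Submodule.mkQ_apply, Submodule.Quotient.mk_eq_zero]
    exact hgv
  rw [hv, Finsupp.sum, map_sum]
  refine Submodule.sum_mem _ fun j hj => ?_
  rw [map_smul]
  exact Submodule.smul_mem _ _ (subset_span ⟨⟨j, hg j hj⟩, rfl⟩)

/-- **`V ⧸ L n` is free on the classes of the `b j`, `j > n`** -/
noncomputable def quotBasis (n : ℤ) : Module.Basis {j : ℤ // n < j} R (V ⧸ L n) :=
  Module.Basis.mk (h.linearIndependent_qb n) (h.span_qb n)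

theorem quotBasis_apply (n : ℤ) (j : {j : ℤ // n < j}) :
    h.quotBasis n j = (L n).mkQ (b j.1) := by
  rw [quotBasis, Module.Basis.mk_apply]
  rfl

theorem free_quot (n : ℤ) : Module.Free R (V ⧸ L n) := Module.Free.of_basis (h.quotBasis n)

theorem projective_quot (n : ℤ) : Module.Projective R (V ⧸ L n) :=
  Module.Projective.of_basis (h.quotBasis n)

end IsFilt

end Fermat.Agent.S25lib.Krich
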