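/-
S25lib / Krich / ProjFibre  (helper3)  --  Project L (S25), brick (I2): projective modules and fibres.

Pure algebra, no finiteness hypothesis on the module:
* `eq_zero_of_projective_of_fibres` : a projective module all of whose fibres `P / 𝔪 P` vanish is `0`;
* `bijective_of_projective_of_fibres` : a linear form on a projective module which is bijective on
  every fibre is bijective.
-/
import Mathlib

set_option autoImplicit false

namespace Fermat.Agent.S25lib.Krich

variable {R : Type*} [CommRing R] {P : Type*} [AddCommGroup P] [Module R P]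

/-- a finitely generated ideal with `I = 𝔪 I` for every maximal ideal `𝔪` is zero -/
theorem ideal_eq_bot_of_forall_le_smul (I : Ideal R) (hI : I.FG)
    (h : ∀ 𝔪 : Ideal R, 𝔪.IsMaximal → I ≤ 𝔪 • I) : I = ⊥ := by
  by_contra hne
  -- the annihilator of `I` is a proper ideal
  have hann : (Submodule.annihilator I : Ideal R) ≠ ⊤ := by
    intro htop
    apply hne
    rw [eq_bot_iff]
    intro x hx
    have h1 : (1 : R) ∈ Submodule.annihilator I := by rw [htop]; trivial
    have := Submodule.mem_annihilator.mp h1 x hx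
    simpa using this
  obtain ⟨𝔪, h𝔪, hle⟩ := Ideal.exists_le_maximal _ hann
  obtain ⟨r, hr1, hr⟩ :=
    Submodule.exists_sub_one_mem_and_smul_eq_zero_of_fg_of_le_smul 𝔪 I hI (h 𝔪 h𝔪)
  have hrm : r ∈ 𝔪 := hle (Submodule.mem_annihilator.mpr fun n hn => hr n hn)
  apply h𝔪.ne_top
  rw [Ideal.eq_top_iff_one]
  have : (1 : R) = r - (r - 1) := by ring
  rw [this]
  exact 𝔪.sub_mem hrm hr1

/-- the coefficients of an element of `𝔪 • ⊤ ⊆ (ι →₀ R)` lie in `𝔪` -/
theorem coeff_mem_of_mem_smul_top {ι : Type*} (𝔪 : Ideal R) {y : ι →₀ R}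
    (hy : y ∈ (𝔪 • ⊤ : Submodule R (ι →₀ R))) (q : ι) : y q ∈ 𝔪 := by
  refine Submodule.smul_induction_on hy (fun r hr n _ => ?_) (fun a b ha hb => ?_)
  · rw [Finsupp.smul_apply, smul_eq_mul]
    exact 𝔪.mul_mem_right _ hr
  · rw [Finsupp.add_apply]
    exact 𝔪.add_mem ha hb

/-- **a projective module all of whose fibres vanish is zero** (no finiteness) -/
theorem eq_zero_of_projective_of_fibres [Module.Projective R P]
    (h : ∀ 𝔪 : Ideal R, 𝔪.IsMaximal → (𝔪 • ⊤ : Submodule R P) = ⊤) (x : P) : x = 0 := by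
  classical
  obtain ⟨s, hs⟩ := (Module.projective_def' (R := R) (P := P)).mp inferInstance
  have hx : Finsupp.linearCombination R id (s x) = x := by
    have := congrArg (fun g => g x) hs
    simpa using this
  set c := s x with hc
  -- the ideal of the coefficients
  set I : Ideal R := Ideal.span (Set.range c) with hIdef
  have hIfg : I.FG := by
    refine ⟨c.support.image c ∪ {0}, ?_⟩
    apply le_antisymm
    · apply Ideal.span_le.mpr
      intro r hr
      rcases Finset.mem_union.mp (Finset.mem_coe.mp hr) with hr | hr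
      · obtain ⟨p, _, rfl⟩ := Finset.mem_image.mp hr
        exact Ideal.subset_span ⟨p, rfl⟩
      · rw [Finset.mem_singleton.mp hr]
        exact I.zero_mem
    · apply Ideal.span_le.mpr
      rintro _ ⟨p, rfl⟩
      by_cases hp : p ∈ c.support
      · exact Ideal.subset_span
          (Finset.mem_coe.mpr (Finset.mem_union_left _ (Finset.mem_image_of_mem c hp)))
      · rw [Finsupp.notMem_support_iff.mp hp]
        exact Submodule.zero_mem _
  have hI0 : I = ⊥ := by
    refine ideal_eq_bot_of_forall_le_smul I hIfg fun 𝔪 h𝔪 => ?_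
    apply Ideal.span_le.mpr
    rintro _ ⟨q, rfl⟩
    -- `c = ∑ c p • s p`
    have h1 : c = c.sum fun p r => r • s p := by
      conv_lhs => rw [hc, ← hx]
      rw [Finsupp.linearCombination_apply, map_finsuppSum]
      simp only [id, map_smul]
    have h2 : c q = c.sum fun p r => r * (s p) q := by
      conv_lhs => rw [h1]
      rw [Finsupp.sum_apply]
      simp only [Finsupp.smul_apply, smul_eq_mul]
    rw [SetLike.mem_coe, h2]
    refine Ideal.sum_mem _ fun p _ => ?_
    have hp : s p ∈ (𝔪 • ⊤ : Submodule R (P →₀ R)) := by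
      have hp' : p ∈ (𝔪 • ⊤ : Submodule R P) := by rw [h 𝔪 h𝔪]; trivial
      have := Submodule.mem_map_of_mem (f := s) hp'
      rw [Submodule.map_smul''] at this
      exact Submodule.smul_mono le_rfl le_top this
    have hq := coeff_mem_of_mem_smul_top 𝔪 hp q
    have hcp : c p ∈ I := Ideal.subset_span (s := Set.range c) ⟨p, rfl⟩
    have := Ideal.mul_mem_mul hq hcp
    rw [smul_eq_mul]
    show c p * (s p) q ∈ 𝔪 * I
    rw [mul_comm (c p)]
    exact this
  have hc0 : c = 0 := by
    ext q
    have : c q ∈ I := Ideal.subset_span ⟨q, rfl⟩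
    rw [hI0] at this
    simpa using this
  rw [← hx, hc0, map_zero]

/-- **a linear form on a projective module which is bijective on every fibre is bijective** -/
theorem bijective_of_projective_of_fibres [Module.Projective R P] (φ : P →ₗ[R] R)
    (hsurj : ∀ 𝔪 : Ideal R, 𝔪.IsMaximal → ∃ p, φ p ∉ 𝔪)
    (hinj : ∀ 𝔪 : Ideal R, 𝔪.IsMaximal → ∀ p, φ p ∈ 𝔪 → p ∈ (𝔪 • ⊤ : Submodule R P)) :
    Function.Bijective φ := by
  -- surjectivity
  have hrange : (LinearMap.range φ : Ideal R) = ⊤ := by
    by_contra hne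
    obtain ⟨𝔪, h𝔪, hle⟩ := Ideal.exists_le_maximal _ hne
    obtain ⟨p, hp⟩ := hsurj 𝔪 h𝔪
    exact hp (hle ⟨p, rfl⟩)
  obtain ⟨p₀, hp₀⟩ : ∃ p₀, φ p₀ = 1 := by
    have : (1 : R) ∈ (LinearMap.range φ : Ideal R) := by rw [hrange]; trivial
    exact this
  -- the kernel is a direct summand
  let r : P →ₗ[R] LinearMap.ker φ :=
    LinearMap.codRestrict (LinearMap.ker φ) (LinearMap.id - (LinearMap.toSpanSingleton R P p₀) ∘ₗ φ)
      (by
        intro p
        rw [LinearMap.mem_ker]
        simp [hp₀])
  have hri : r ∘ₗ (LinearMap.ker φ).subtype = LinearMap.id := by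
    ext ⟨n, hn⟩
    have hn' : φ n = 0 := hn
    simp [r, hn']
  have : Module.Projective R (LinearMap.ker φ) :=
    Module.Projective.of_split (LinearMap.ker φ).subtype r hri
  have hker : ∀ n : LinearMap.ker φ, n = 0 := by
    refine eq_zero_of_projective_of_fibres (R := R) fun 𝔪 h𝔪 => ?_
    rw [eq_top_iff]
    rintro ⟨n, hn⟩ -
    have hn' : φ n = 0 := hn
    have h1 : n ∈ (𝔪 • ⊤ : Submodule R P) := hinj 𝔪 h𝔪 n (by rw [hn']; exact 𝔪.zero_mem)
    have h2 := Submodule.mem_map_of_mem (f := r) h1
    rw [Submodule.map_smul''] at h2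
    have h3 : r n = ⟨n, hn⟩ := by
      have := congrArg (fun g => g ⟨n, hn⟩) hri
      simpa using this
    rw [h3] at h2
    exact Submodule.smul_mono le_rfl le_top h2
  refine ⟨?_, fun x => ⟨x • p₀, by rw [map_smul, hp₀, smul_eq_mul, mul_one]⟩⟩
  rw [← LinearMap.ker_eq_bot, eq_bot_iff]
  intro p hp
  have := hker ⟨p, hp⟩
  rw [Submodule.mem_bot]
  exact congrArg Subtype.val this

end Fermat.Agent.S25lib.Krich
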