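/-
S25lib / Krich / Complex  (helper3)  --  Project L (S25), brick (I2): the two-chart complex.

`ι : W → V` (restriction of sections `Γ(U₁ × R, M) → Γ(U₁₂ × R, M)`), `L n = z⁻ⁿ Γ(U₂ × R, M) ⊆ V`.
`Kmap ι L n : W → V ⧸ L n`; `H0 ι L n = ker`, `H1 ι L n = coker` are `H⁰(M(ne))`, `H¹(M(ne))`.
* `finite_H1`: `H¹` is a finite module as soon as `range ι ⊔ L N = ⊤` for one `N`;
* `exists_section`, `projective_H0`, `exists_retraction`: where `H¹ = 0` the kernel is a direct summand;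
* the four-term sequence `0 → H⁰(n-1) → H⁰(n) → R → H¹(n-1) → H¹(n) → 0`.
-/
import Fermat.Agent.S25lib.Krich.Filt
import Fermat.Agent.S25lib.Krich.ProjFibre

set_option autoImplicit false

namespace Fermat.Agent.S25lib.Krich

open Submodule

variable {R : Type*} [CommRing R] {W V : Type*} [AddCommGroup W] [Module R W]
  [AddCommGroup V] [Module R V] (ι : W →ₗ[R] V) (L : ℤ → Submodule R V)

/-- the differential `K_n : W → V ⧸ L n` of the two-chart complex of `M(n e)` -/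
def Kmap (n : ℤ) : W →ₗ[R] V ⧸ L n := (L n).mkQ ∘ₗ ι

/-- `H⁰(M(n e))` -/
def H0 (n : ℤ) : Submodule R W := (L n).comap ι

/-- `H¹(M(n e))` -/
abbrev H1 (n : ℤ) : Type _ := V ⧸ (LinearMap.range ι ⊔ L n)

variable {ι L}

theorem mem_H0 {n : ℤ} {w : W} : w ∈ H0 ι L n ↔ ι w ∈ L n := Iff.rfl

theorem Kmap_apply (n : ℤ) (w : W) : Kmap ι L n w = (L n).mkQ (ι w) := rfl

theorem ker_Kmap (n : ℤ) : LinearMap.ker (Kmap ι L n) = H0 ι L n := by
  ext w
  rw [LinearMap.mem_ker, Kmap_apply, mkQ_apply, Quotient.mk_eq_zero, mem_H0]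

theorem Kmap_surjective_iff (n : ℤ) :
    Function.Surjective (Kmap ι L n) ↔ LinearMap.range ι ⊔ L n = ⊤ := by
  constructor
  · intro hs
    rw [eq_top_iff]
    rintro v -
    obtain ⟨w, hw⟩ := hs ((L n).mkQ v)
    rw [Kmap_apply, mkQ_apply, mkQ_apply, Submodule.Quotient.eq] at hw
    have : v = ι w - (ι w - v) := by abel
    rw [this]
    exact Submodule.sub_mem _ (mem_sup_left ⟨w, rfl⟩) (mem_sup_right hw)
  · intro htop x
    obtain ⟨v, rfl⟩ := (L n).mkQ_surjective x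
    have hv : v ∈ LinearMap.range ι ⊔ L n := by rw [htop]; trivial
    obtain ⟨y, ⟨w, rfl⟩, l, hl, rfl⟩ := mem_sup.mp hv
    refine ⟨w, ?_⟩
    rw [Kmap_apply, mkQ_apply, mkQ_apply, Submodule.Quotient.eq]
    simpa using (L n).neg_mem hl

theorem subsingleton_H1_iff (n : ℤ) :
    Subsingleton (H1 ι L n) ↔ LinearMap.range ι ⊔ L n = ⊤ :=
  Submodule.Quotient.subsingleton_iff

variable {b : ℤ → V}

/-- **`H¹(M(ne))` is a finite module** as soon as `H¹(M(Ne)) = 0` for one `N` -/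
theorem finite_H1 (h : IsFilt R L b) {N : ℤ} (hN : LinearMap.range ι ⊔ L N = ⊤) (n : ℤ) :
    Module.Finite R (H1 ι L n) := by
  classical
  refine ⟨⟨(Finset.Ioc n N).image fun j => (LinearMap.range ι ⊔ L n).mkQ (b j), ?_⟩⟩
  rw [eq_top_iff]
  rintro x -
  obtain ⟨v, rfl⟩ := (LinearMap.range ι ⊔ L n).mkQ_surjective x
  have hv : v ∈ LinearMap.range ι ⊔ L N := by rw [hN]; trivial
  obtain ⟨y, hy, l, hl, rfl⟩ := mem_sup.mp hv
  obtain ⟨g, hg, hgl⟩ := h.exists_sum_of_mem n hl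
  have h1 : (LinearMap.range ι ⊔ L n).mkQ (y + l) =
      (LinearMap.range ι ⊔ L n).mkQ (g.sum fun j r => r • b j) := by
    rw [← sub_eq_zero, ← map_sub, mkQ_apply, Quotient.mk_eq_zero]
    have : y + l - (g.sum fun j r => r • b j) = y + (l - g.sum fun j r => r • b j) := by abel
    rw [this]
    exact Submodule.add_mem _ (mem_sup_left hy) (mem_sup_right hgl)
  rw [h1, Finsupp.sum, map_sum]
  refine Submodule.sum_mem _ fun j hj => ?_
  rw [map_smul]
  refine Submodule.smul_mem _ _ (subset_span ?_)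
  rw [Finset.coe_image]
  exact ⟨j, Finset.mem_coe.mpr (Finset.mem_Ioc.mpr (hg j hj)), rfl⟩

/-- where `H¹ = 0`, the differential has a linear section -/
theorem exists_section (h : IsFilt R L b) {n : ℤ} (hs : Function.Surjective (Kmap ι L n)) :
    ∃ σ : (V ⧸ L n) →ₗ[R] W, Kmap ι L n ∘ₗ σ = LinearMap.id := by
  have := h.projective_quot n
  exact Module.projective_lifting_property (Kmap ι L n) LinearMap.id hs

/-- where `H¹ = 0`, `H⁰` is a direct summand of `W` -/
theorem exists_retraction (h : IsFilt R L b) {n : ℤ} (hs : Function.Surjective (Kmap ι L n)) :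
    ∃ π : W →ₗ[R] H0 ι L n, π ∘ₗ (H0 ι L n).subtype = LinearMap.id := by
  obtain ⟨σ, hσ⟩ := exists_section h hs
  have hσ' : ∀ q, Kmap ι L n (σ q) = q := fun q => by
    have := congrArg (fun g => g q) hσ
    simpa using this
  refine ⟨LinearMap.codRestrict (H0 ι L n) (LinearMap.id - σ ∘ₗ Kmap ι L n) ?_, ?_⟩
  · intro w
    rw [← ker_Kmap, LinearMap.mem_ker]
    simp [hσ']
  · ext ⟨w, hw⟩
    have hw' : Kmap ι L n w = 0 := by
      rw [← LinearMap.mem_ker, ker_Kmap]; exact hw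
    simp [hw']

/-- **where `H¹ = 0`, `H⁰` is projective** (`W` projective) -/
theorem projective_H0 [Module.Projective R W] (h : IsFilt R L b) {n : ℤ}
    (hs : Function.Surjective (Kmap ι L n)) : Module.Projective R (H0 ι L n) := by
  obtain ⟨π, hπ⟩ := exists_retraction h hs
  exact Module.Projective.of_split (H0 ι L n).subtype π hπ

/-! ### the four-term sequence -/

/-- `H⁰(M(ne)) → L n` -/
def ιH0 (n : ℤ) : H0 ι L n →ₗ[R] L n :=
  LinearMap.codRestrict (L n) (ι ∘ₗ (H0 ι L n).subtype) fun w => w.2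

theorem ιH0_coe (n : ℤ) (w : H0 ι L n) : ((ιH0 (ι := ι) (L := L) n w : L n) : V) = ι w := rfl

/-- the leading coefficient of a section of `M(ne)` at `e` -/
noncomputable def lcH0 (h : IsFilt R L b) (n : ℤ) : H0 ι L n →ₗ[R] R := h.lc n ∘ₗ ιH0 n

theorem lcH0_eq_zero_iff (h : IsFilt R L b) (n : ℤ) (w : H0 ι L n) :
    lcH0 h n w = 0 ↔ (w : W) ∈ H0 ι L (n - 1) := by
  unfold lcH0
  rw [LinearMap.comp_apply, h.lc_eq_zero_iff, ιH0_coe, mem_H0]

theorem H0_mono (h : IsFilt R L b) {m n : ℤ} (hmn : m ≤ n) : H0 ι L m ≤ H0 ι L n :=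
  fun _ hw => h.mono hmn hw

theorem mem_range_lcH0_iff (h : IsFilt R L b) (n : ℤ) (r : R) :
    r ∈ LinearMap.range (lcH0 (ι := ι) h n) ↔ r • b n ∈ LinearMap.range ι ⊔ L (n - 1) := by
  constructor
  · rintro ⟨w, rfl⟩
    have h1 := h.lc_spec n (ιH0 n w)
    rw [ιH0_coe] at h1
    have : lcH0 h n w • b n = ι w - (ι w - lcH0 h n w • b n) := by abel
    rw [this]
    exact Submodule.sub_mem _ (mem_sup_left ⟨w, rfl⟩) (mem_sup_right h1)
  · intro hr
    obtain ⟨y, ⟨w, rfl⟩, l, hl, hsum⟩ := mem_sup.mp hr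
    have hw : w ∈ H0 ι L n := by
      rw [mem_H0]
      have : ι w = r • b n - l := by rw [← hsum]; abel
      rw [this]
      exact Submodule.sub_mem _ ((L n).smul_mem _ (h.b_mem n)) (h.mono (by omega) hl)
    refine ⟨⟨w, hw⟩, ?_⟩
    refine h.lc_eq n _ ?_
    rw [ιH0_coe]
    show ι w - r • b n ∈ L (n - 1)
    have : ι w - r • b n = -l := by rw [← hsum]; abel
    rw [this]
    exact (L (n - 1)).neg_mem hl

/-- the surjection `H¹(M((n-1)e)) → H¹(M(ne))` -/
def H1map (h : IsFilt R L b) (n : ℤ) : H1 ι L (n - 1) →ₗ[R] H1 ι L n :=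
  Submodule.mapQ _ _ LinearMap.id (by
    rw [Submodule.comap_id]
    exact sup_le_sup_left (h.mono (by omega)) _)

theorem H1map_mk (h : IsFilt R L b) (n : ℤ) (v : V) :
    H1map (ι := ι) h n ((LinearMap.range ι ⊔ L (n - 1)).mkQ v) =
      (LinearMap.range ι ⊔ L n).mkQ v := rfl

theorem H1map_surjective (h : IsFilt R L b) (n : ℤ) : Function.Surjective (H1map (ι := ι) h n) := by
  intro x
  obtain ⟨v, rfl⟩ := (LinearMap.range ι ⊔ L n).mkQ_surjective x
  exact ⟨(LinearMap.range ι ⊔ L (n - 1)).mkQ v, rfl⟩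

theorem ker_H1map (h : IsFilt R L b) (n : ℤ) :
    LinearMap.ker (H1map (ι := ι) h n) =
      span R {(LinearMap.range ι ⊔ L (n - 1)).mkQ (b n)} := by
  apply le_antisymm
  · intro x hx
    obtain ⟨v, rfl⟩ := (LinearMap.range ι ⊔ L (n - 1)).mkQ_surjective x
    rw [LinearMap.mem_ker, H1map_mk, mkQ_apply, Quotient.mk_eq_zero] at hx
    obtain ⟨y, hy, l, hl, rfl⟩ := mem_sup.mp hx
    obtain ⟨r, hr⟩ := h.exists_coeff n hl
    rw [mem_span_singleton]
    refine ⟨r, ?_⟩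
    rw [← map_smul, ← sub_eq_zero, ← map_sub, mkQ_apply, Quotient.mk_eq_zero]
    have : r • b n - (y + l) = -(y + (l - r • b n)) := by abel
    rw [this]
    exact Submodule.neg_mem _ (Submodule.add_mem _ (mem_sup_left hy) (mem_sup_right hr))
  · rw [span_le]
    rintro _ rfl
    rw [SetLike.mem_coe, LinearMap.mem_ker, H1map_mk, mkQ_apply, Quotient.mk_eq_zero]
    exact mem_sup_right (h.b_mem n)

end Fermat.Agent.S25lib.Krich
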