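/-
S25lib / Krich / BaseChange  (helper3)  --  Project L (S25), brick (I2): cohomology and base change.

`IsBC … fW fV`: the two-chart complex `(W', V', ι', L', b')` over `R'` is the base change of
`(W, V, ι, L, b)` over `R` along `R → R'`, through the `R`-linear maps `fW : W → W'`, `fV : V → V'`.
* `IsBC.Kmap_surjective`: `H¹ = 0` is preserved by every base change;
* `IsBC.subsingleton_tensor_H1`: `H¹(M_{R'}) = 0 → R' ⊗ H¹(M) = 0`;
* `IsBC.H0_eq_span`: where `H¹(M) = 0`, `H⁰(M_{R'})` is spanned by the image of `H⁰(M)`;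
* fibre criteria: `IsBC.H0_mem_smul_top`, `IsBC.exists_lcH0_notMem`, `IsBC.mem_smul_top_of_lcH0_mem`
  (base change to a field), to be combined with `H0_eq_bot_of_forall_mem_smul`, `lcH0_bijective`.
-/
import Fermat.Agent.S25lib.Krich.Complex

set_option autoImplicit false

namespace Fermat.Agent.S25lib.Krich

open Submodule TensorProduct

variable {R : Type*} [CommRing R] {R' : Type*} [CommRing R'] [Algebra R R']
  {W V : Type*} [AddCommGroup W] [Module R W] [AddCommGroup V] [Module R V]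
  {W' V' : Type*} [AddCommGroup W'] [Module R W'] [Module R' W'] [IsScalarTower R R' W']
  [AddCommGroup V'] [Module R V'] [Module R' V'] [IsScalarTower R R' V']

/-- the kernel of a base-change map on a projective module -/
theorem mem_ker_smul_top_of_isBaseChange [Module.Projective R W] {fW : W →ₗ[R] W'}
    (hf : IsBaseChange R' fW) {w : W} (hw : fW w = 0) :
    w ∈ (RingHom.ker (algebraMap R R') • ⊤ : Submodule R W) := by
  classical
  obtain ⟨s, hs⟩ := (Module.projective_def' (R := R) (P := W)).mp inferInstance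
  have hx : Finsupp.linearCombination R id (s w) = w := by
    have := congrArg (fun g => g w) hs
    simpa using this
  let g : W →ₗ[R] (W →₀ R') := (Finsupp.mapRange.linearMap (Algebra.linearMap R R')) ∘ₗ s
  have hg : g w = 0 := by
    rw [← hf.lift_eq g w, hw, map_zero]
  have hcoeff : ∀ p, s w p ∈ RingHom.ker (algebraMap R R') := by
    intro p
    have := congrArg (fun c => c p) hg
    simpa [g] using this
  rw [← hx, Finsupp.linearCombination_apply]
  refine Submodule.sum_mem _ fun p _ => ?_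
  exact Submodule.smul_mem_smul (hcoeff p) trivial

/-- **base change of the two-chart complex** -/
structure IsBC (ι : W →ₗ[R] V) (L : ℤ → Submodule R V) (b : ℤ → V)
    (ι' : W' →ₗ[R'] V') (L' : ℤ → Submodule R' V') (b' : ℤ → V')
    (fW : W →ₗ[R] W') (fV : V →ₗ[R] V') : Prop where
  bcW : IsBaseChange R' fW
  bcV : IsBaseChange R' fV
  comm : ∀ w, fV (ι w) = ι' (fW w)
  map_b : ∀ j, fV (b j) = b' j
  map_L : ∀ n, L' n = span R' (fV '' (L n : Set V))

namespace IsBC

variable {ι : W →ₗ[R] V} {L : ℤ → Submodule R V} {b : ℤ → V}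
  {ι' : W' →ₗ[R'] V'} {L' : ℤ → Submodule R' V'} {b' : ℤ → V'}
  {fW : W →ₗ[R] W'} {fV : V →ₗ[R] V'} (hbc : IsBC ι L b ι' L' b' fW fV)

include hbc

theorem map_mem_L {n : ℤ} {v : V} (hv : v ∈ L n) : fV v ∈ L' n := by
  rw [hbc.map_L]
  exact subset_span ⟨v, hv, rfl⟩

theorem map_mem_H0 {n : ℤ} {w : W} (hw : w ∈ H0 ι L n) : fW w ∈ H0 ι' L' n := by
  rw [mem_H0, ← hbc.comm]
  exact hbc.map_mem_L hw

/-- the map `H⁰(M) → H⁰(M_{R'})` -/
def H0map (n : ℤ) : H0 ι L n →ₗ[R] H0 ι' L' n where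
  toFun w := ⟨fW w, hbc.map_mem_H0 w.2⟩
  map_add' _ _ := Subtype.ext (map_add fW _ _)
  map_smul' _ _ := Subtype.ext (map_smul fW _ _)

theorem span_range_fV : span R' (Set.range fV) = ⊤ := by
  rw [eq_top_iff]
  rintro x -
  induction x using hbc.bcV.inductionOn with
  | zero => exact zero_mem _
  | tmul m => exact subset_span ⟨m, rfl⟩
  | smul s n hn => exact smul_mem _ _ hn
  | add n₁ n₂ h₁ h₂ => exact add_mem h₁ h₂

theorem span_range_fW : span R' (Set.range fW) = ⊤ := by
  rw [eq_top_iff]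
  rintro x -
  induction x using hbc.bcW.inductionOn with
  | zero => exact zero_mem _
  | tmul m => exact subset_span ⟨m, rfl⟩
  | smul s n hn => exact smul_mem _ _ hn
  | add n₁ n₂ h₁ h₂ => exact add_mem h₁ h₂

/-- **`H¹ = 0` is preserved by every base change** -/
theorem Kmap_surjective {n : ℤ} (hs : Function.Surjective (Kmap ι L n)) :
    Function.Surjective (Kmap ι' L' n) := by
  rw [Kmap_surjective_iff] at hs ⊢
  rw [eq_top_iff, ← hbc.span_range_fV, span_le]
  rintro _ ⟨v, rfl⟩
  have hv : v ∈ LinearMap.range ι ⊔ L n := by rw [hs]; trivial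
  obtain ⟨y, ⟨w, rfl⟩, l, hl, rfl⟩ := mem_sup.mp hv
  rw [map_add, hbc.comm]
  exact add_mem (mem_sup_left ⟨fW w, rfl⟩) (mem_sup_right (hbc.map_mem_L hl))

/-- inverting an element which kills `H¹(M)` kills `H¹` of the base change -/
theorem Kmap_surjective_of_isUnit {n : ℤ} (f : R) (hf : IsUnit (algebraMap R R' f))
    (hH : ∀ x : H1 ι L n, ∃ k : ℕ, f ^ k • x = 0) :
    Function.Surjective (Kmap ι' L' n) := by
  rw [Kmap_surjective_iff, eq_top_iff, ← hbc.span_range_fV, span_le]
  rintro _ ⟨v, rfl⟩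
  obtain ⟨k, hk⟩ := hH ((LinearMap.range ι ⊔ L n).mkQ v)
  rw [← map_smul, mkQ_apply, Quotient.mk_eq_zero] at hk
  obtain ⟨y, ⟨w, rfl⟩, l, hl, hsum⟩ := mem_sup.mp hk
  obtain ⟨u, hu⟩ := hf
  have h1 : fV (f ^ k • v) ∈ LinearMap.range ι' ⊔ L' n := by
    rw [← hsum, map_add, hbc.comm]
    exact add_mem (mem_sup_left ⟨fW w, rfl⟩) (mem_sup_right (hbc.map_mem_L hl))
  have h2 : fV v = ((u⁻¹ : R'ˣ) : R') ^ k • fV (f ^ k • v) := by
    rw [map_smul, ← algebraMap_smul R' (f ^ k) (fV v), smul_smul, map_pow, ← hu, ← mul_pow,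
      Units.inv_mul, one_pow, one_smul]
  rw [SetLike.mem_coe, h2]
  exact Submodule.smul_mem _ _ h1

/-- **`H¹(M_{R'}) = 0 → R' ⊗ H¹(M) = 0`** -/
theorem subsingleton_tensor_H1 {n : ℤ} (hs : Function.Surjective (Kmap ι' L' n)) :
    Subsingleton (R' ⊗[R] H1 ι L n) := by
  rw [Kmap_surjective_iff] at hs
  -- every `fV v` is a combination of images of elements of `range ι ⊔ L n`
  have key : ∀ v' : V', v' ∈ span R' (fV '' ((LinearMap.range ι ⊔ L n : Submodule R V) : Set V)) := by
    intro v'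
    have hv' : v' ∈ LinearMap.range ι' ⊔ L' n := by rw [hs]; trivial
    obtain ⟨y, ⟨w', rfl⟩, l', hl', rfl⟩ := mem_sup.mp hv'
    refine add_mem ?_ ?_
    · have hw' : w' ∈ span R' (Set.range fW) := by rw [hbc.span_range_fW]; trivial
      have := Submodule.apply_mem_span_image_of_mem_span ι' hw'
      refine span_mono ?_ this
      rintro _ ⟨_, ⟨w, rfl⟩, rfl⟩
      exact ⟨ι w, mem_sup_left ⟨w, rfl⟩, hbc.comm w⟩
    · rw [hbc.map_L] at hl'
      refine span_mono ?_ hl'
      rintro _ ⟨l, hl, rfl⟩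
      exact ⟨l, mem_sup_right hl, rfl⟩
  -- transport to the tensor product
  let q : R' ⊗[R] V →ₗ[R'] R' ⊗[R] H1 ι L n :=
    LinearMap.baseChange R' (LinearMap.range ι ⊔ L n).mkQ
  have hq0 : ∀ v' : V', q (hbc.bcV.equiv.symm v') = 0 := by
    intro v'
    have hv' := key v'
    induction hv' using Submodule.span_induction with
    | mem x hx =>
      obtain ⟨v, hv, rfl⟩ := hx
      rw [hbc.bcV.equiv_symm_apply]
      show (LinearMap.baseChange R' (LinearMap.range ι ⊔ L n).mkQ) (1 ⊗ₜ v) = 0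
      rw [LinearMap.baseChange_tmul, mkQ_apply, (Quotient.mk_eq_zero _).mpr hv, tmul_zero]
    | zero => simp
    | add x y _ _ hx hy => rw [map_add, map_add, hx, hy, add_zero]
    | smul a x _ hx => rw [map_smul, map_smul, hx, smul_zero]
  refine ⟨fun x y => ?_⟩
  have hsurj : Function.Surjective q :=
    LinearMap.baseChange_surjective _ (LinearMap.range ι ⊔ L n).mkQ_surjective
  have h0 : ∀ z : R' ⊗[R] H1 ι L n, z = 0 := by
    intro z
    obtain ⟨t, rfl⟩ := hsurj z
    have := hq0 (hbc.bcV.equiv t)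
    rwa [LinearEquiv.symm_apply_apply] at this
  rw [h0 x, h0 y]

/-- compatibility of the leading coefficients -/
theorem lc_map (h : IsFilt R L b) (h' : IsFilt R' L' b') {n : ℤ} {v : V} (hv : v ∈ L n) :
    h'.lc n ⟨fV v, hbc.map_mem_L hv⟩ = algebraMap R R' (h.lc n ⟨v, hv⟩) := by
  refine h'.lc_eq n _ ?_
  have h1 := h.lc_spec n ⟨v, hv⟩
  have h2 := hbc.map_mem_L h1
  rw [map_sub, map_smul, hbc.map_b] at h2
  show fV v - algebraMap R R' (h.lc n ⟨v, hv⟩) • b' n ∈ L' (n - 1)
  rwa [algebraMap_smul]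

theorem lcH0_map (h : IsFilt R L b) (h' : IsFilt R' L' b') (n : ℤ) (w : H0 ι L n) :
    lcH0 h' n (hbc.H0map n w) = algebraMap R R' (lcH0 h n w) := by
  unfold lcH0
  rw [LinearMap.comp_apply, LinearMap.comp_apply]
  have := hbc.lc_map h h' (n := n) (v := ι w) w.2
  refine Eq.trans ?_ this
  congr 1
  apply Subtype.ext
  show ι' (fW w) = fV (ι w)
  rw [hbc.comm]

/-- **where `H¹(M) = 0`, `H⁰(M_{R'})` is spanned by the image of `H⁰(M)`** -/
theorem H0_eq_span (h : IsFilt R L b) (h' : IsFilt R' L' b') {n : ℤ}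
    (hs : Function.Surjective (Kmap ι L n)) :
    H0 ι' L' n = span R' (fW '' (H0 ι L n : Set W)) := by
  classical
  apply le_antisymm
  swap
  · rw [span_le]
    rintro _ ⟨w, hw, rfl⟩
    exact hbc.map_mem_H0 hw
  obtain ⟨σ, hσ⟩ := exists_section h hs
  have hσ' : ∀ q, Kmap ι L n (σ q) = q := fun q => by
    have := congrArg (fun g => g q) hσ
    simpa using this
  -- the base-changed section, defined on the basis of `V' ⧸ L' n`
  let σ' : (V' ⧸ L' n) →ₗ[R'] W' :=
    (h'.quotBasis n).constr R' fun j => fW (σ ((L n).mkQ (b j.1)))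
  have hσ'b : ∀ j : {j : ℤ // n < j}, σ' ((L' n).mkQ (b' j.1)) = fW (σ ((L n).mkQ (b j.1))) := by
    intro j
    have := (h'.quotBasis n).constr_basis R' (fun j => fW (σ ((L n).mkQ (b j.1)))) j
    rwa [h'.quotBasis_apply] at this
  -- `σ' ∘ [fV] = fW ∘ σ ∘ [·]`
  have hcomp : ∀ v : V, σ' ((L' n).mkQ (fV v)) = fW (σ ((L n).mkQ v)) := by
    intro v
    obtain ⟨g, hg, hgv⟩ := h.exists_sum n v
    have e1 : (L n).mkQ v = (L n).mkQ (g.sum fun j r => r • b j) := by
      rw [← sub_eq_zero, ← map_sub, mkQ_apply, Quotient.mk_eq_zero]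
      exact hgv
    have e2 : (L' n).mkQ (fV v) = (L' n).mkQ (fV (g.sum fun j r => r • b j)) := by
      rw [← sub_eq_zero, ← map_sub, ← map_sub, mkQ_apply, Quotient.mk_eq_zero]
      exact hbc.map_mem_L hgv
    have e3 : fV (g.sum fun j r => r • b j) =
        ∑ j ∈ g.support, algebraMap R R' (g j) • b' j := by
      rw [Finsupp.sum, map_sum]
      refine Finset.sum_congr rfl fun j _ => ?_
      rw [map_smul, hbc.map_b, algebraMap_smul]
    have e4 : (L n).mkQ (g.sum fun j r => r • b j) =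
        ∑ j ∈ g.support, g j • (L n).mkQ (b j) := by
      rw [Finsupp.sum, map_sum]
      refine Finset.sum_congr rfl fun j _ => ?_
      rw [map_smul]
    rw [e1, e2, e3, e4, map_sum, map_sum, map_sum, map_sum]
    refine Finset.sum_congr rfl fun j hj => ?_
    rw [map_smul, map_smul, map_smul, map_smul, algebraMap_smul, hσ'b ⟨j, hg j hj⟩]
  intro w' hw'
  have hw'span : w' ∈ span R' (Set.range fW) := by rw [hbc.span_range_fW]; trivial
  -- `w' = (w' - σ' K' w') `, and `P := id - σ' K'` maps `fW w` to `fW (w - σ K w)`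
  have hP : ∀ x ∈ span R' (Set.range fW),
      x - σ' (Kmap ι' L' n x) ∈ span R' (fW '' (H0 ι L n : Set W)) := by
    intro x hx
    induction hx using Submodule.span_induction with
    | mem x hx =>
      obtain ⟨w, rfl⟩ := hx
      have : fW w - σ' (Kmap ι' L' n (fW w)) = fW (w - σ (Kmap ι L n w)) := by
        rw [Kmap_apply, ← hbc.comm, hcomp, map_sub, Kmap_apply]
      rw [this]
      refine subset_span ⟨_, ?_, rfl⟩
      rw [SetLike.mem_coe, ← ker_Kmap, LinearMap.mem_ker, map_sub, hσ', sub_self]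
    | zero => simp
    | add x y _ _ hx hy =>
      have : x + y - σ' (Kmap ι' L' n (x + y)) =
          (x - σ' (Kmap ι' L' n x)) + (y - σ' (Kmap ι' L' n y)) := by
        rw [map_add, map_add]; abel
      rw [this]
      exact add_mem hx hy
    | smul a x _ hx =>
      have : a • x - σ' (Kmap ι' L' n (a • x)) = a • (x - σ' (Kmap ι' L' n x)) := by
        rw [map_smul, map_smul, smul_sub]
      rw [this]
      exact Submodule.smul_mem _ _ hx
  have hK : Kmap ι' L' n w' = 0 := by
    rw [← LinearMap.mem_ker, ker_Kmap]; exact hw'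
  have := hP w' hw'span
  rwa [hK, map_zero, sub_zero] at this

end IsBC

end Fermat.Agent.S25lib.Krich
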