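/-
S25lib / Krich / OComplex  (helper3)  --  Project L (S25), brick (K5), concrete form.

The complex of the structure sheaf from RING data: `S` (`= B_R[1/z]`), `B' : Subalgebra R S` (the image of
`B_R`), `z : Sˣ` with `z ∈ B'`:  `V_O = S`, `LO B' z n = z⁻ⁿ B'`, `bO z n = z⁻ⁿ`.
* `IsOData B' z` (`B' = R ⊕ z B'`, `S = ⋃ z⁻ⁿ B'`)  ⟹  `isFilt_O : IsFilt R (LO B' z) (bO z)`;
* `IsSFilt B' z L b`: the filtration of a complex `(ι, L, b)` on an `S`-module `V` is compatible with the ring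
  structure (`B' L n ⊆ L n`, `z⁻¹ L n ⊆ L (n+1)`, `z L n ⊆ L (n-1)`, `b n = z⁻ⁿ b 0`);
* for `v_s ∈ L 0` with `v_s ≡ b 0` modulo `L (-1)`: multiplication `x ↦ x • v_s : S → V` satisfies the
  hypotheses `c2`, `c3` of the tail isomorphism (`smulRight_mem`, `smulRight_b`);
* **`quotRangeEquivO`**: with `KrichBij ι L`, `s` the canonical section, `mW : W_O → W` with
  `ι (mW a) = ιO a • ι s`:  `W ⧸ range mW ≃ₗ[R] S ⧸ (range ιO ⊔ z B')`  (`= H¹(O(-e))`).
-/
import Fermat.Agent.S25lib.Krich.Chart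
import Fermat.Agent.S25lib.Krich.BaseChange

set_option autoImplicit false

namespace Fermat.Agent.S25lib.Krich

open Submodule

variable {R : Type*} [CommRing R] {S : Type*} [CommRing S] [Algebra R S]

/-- `L_O n = z⁻ⁿ B' = {x | zⁿ x ∈ B'}` -/
def LO (B' : Subalgebra R S) (z : Sˣ) (n : ℤ) : Submodule R S :=
  (Subalgebra.toSubmodule B').comap (LinearMap.mulLeft R ((z ^ n : Sˣ) : S))

/-- `b_O n = z⁻ⁿ` -/
def bO (z : Sˣ) (n : ℤ) : S := ((z ^ (-n) : Sˣ) : S)

theorem mem_LO {B' : Subalgebra R S} {z : Sˣ} {n : ℤ} {x : S} :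
    x ∈ LO B' z n ↔ ((z ^ n : Sˣ) : S) * x ∈ B' := Iff.rfl

/-- the ring data of the complex of `O`: `B' = R ⊕ z B'`, `S = ⋃ z⁻ⁿ B'` -/
structure IsOData (B' : Subalgebra R S) (z : Sˣ) : Prop where
  z_mem : (z : S) ∈ B'
  split : ∀ β ∈ B', ∃ r : R, ∃ β' ∈ B', β = algebraMap R S r + (z : S) * β'
  free : ∀ r : R, ∀ β' ∈ B', algebraMap R S r = (z : S) * β' → r = 0
  exhaust : ∀ x : S, ∃ n : ℕ, (z : S) ^ n * x ∈ B'

theorem zpow_succ_val (z : Sˣ) (n : ℤ) :
    ((z ^ (n + 1) : Sˣ) : S) = (z : S) * ((z ^ n : Sˣ) : S) := by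
  rw [zpow_add_one, Units.val_mul, mul_comm]

theorem zpow_neg_mul_zpow (z : Sˣ) (n : ℤ) :
    ((z ^ (-n) : Sˣ) : S) * ((z ^ n : Sˣ) : S) = 1 := by
  rw [← Units.val_mul, ← zpow_add, neg_add_cancel, zpow_zero, Units.val_one]

theorem zpow_mul_zpow_neg (z : Sˣ) (n : ℤ) :
    ((z ^ n : Sˣ) : S) * ((z ^ (-n) : Sˣ) : S) = 1 := by
  rw [mul_comm, zpow_neg_mul_zpow]

/-- **the complex of `O` is filtered** -/
theorem isFilt_O {B' : Subalgebra R S} {z : Sˣ} (hO : IsOData B' z) :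
    IsFilt R (LO B' z) (bO z) where
  succ n := by
    apply le_antisymm
    · intro x hx
      rw [mem_LO] at hx
      obtain ⟨r, β', hβ', hsplit⟩ := hO.split _ hx
      -- `x = r z⁻⁽ⁿ⁺¹⁾ + z⁻ⁿ β'`
      have hx' : x = ((z ^ (-n) : Sˣ) : S) * β' + r • bO z (n + 1) := by
        have h1 : x = ((z ^ (-(n + 1)) : Sˣ) : S) * (((z ^ (n + 1) : Sˣ) : S) * x) := by
          rw [← mul_assoc, zpow_neg_mul_zpow, one_mul]
        rw [h1, hsplit, mul_add, Algebra.smul_def, bO, add_comm, mul_comm (algebraMap R S r)]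
        congr 1
        have h2 : ((z ^ (-(n + 1)) : Sˣ) : S) * (z : S) = ((z ^ (-n) : Sˣ) : S) := by
          have : (-(n + 1) : ℤ) + 1 = -n := by ring
          rw [mul_comm, ← zpow_succ_val, this]
        rw [← mul_assoc, h2]
      rw [hx']
      refine add_mem (mem_sup_left ?_) (mem_sup_right (Submodule.smul_mem _ _ (mem_span_singleton_self _)))
      rw [mem_LO, ← mul_assoc, zpow_mul_zpow_neg, one_mul]
      exact hβ'
    · refine sup_le ?_ ?_
      · intro x hx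
        rw [mem_LO] at hx ⊢
        rw [zpow_succ_val, mul_assoc]
        exact B'.mul_mem hO.z_mem hx
      · rw [span_le, Set.singleton_subset_iff, SetLike.mem_coe, mem_LO, bO, zpow_mul_zpow_neg]
        exact B'.one_mem
  free n r hr := by
    rw [mem_LO, Algebra.smul_def, bO] at hr
    refine hO.free r _ hr ?_
    have h2 : (z : S) * ((z ^ n : Sˣ) : S) * ((z ^ (-(n + 1)) : Sˣ) : S) = 1 := by
      rw [← zpow_succ_val, zpow_mul_zpow_neg]
    calc algebraMap R S r = algebraMap R S r * ((z : S) * ((z ^ n : Sˣ) : S) *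
          ((z ^ (-(n + 1)) : Sˣ) : S)) := by rw [h2, mul_one]
      _ = (z : S) * (((z ^ n : Sˣ) : S) * (algebraMap R S r * ((z ^ (-(n + 1)) : Sˣ) : S))) := by
          ring
  exhaust x := by
    obtain ⟨n, hn⟩ := hO.exhaust x
    refine ⟨(n : ℤ), ?_⟩
    rw [mem_LO, zpow_natCast, Units.val_pow_eq_pow_val]
    exact hn

theorem mem_LO_neg_one {B' : Subalgebra R S} {z : Sˣ} {x : S} :
    x ∈ LO B' z (-1) ↔ ∃ β' ∈ B', x = (z : S) * β' := by
  rw [mem_LO]
  constructor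
  · intro hx
    refine ⟨_, hx, ?_⟩
    rw [← mul_assoc]
    have := zpow_mul_zpow_neg z 1
    rw [zpow_one] at this
    rw [this, one_mul]
  · rintro ⟨β', hβ', rfl⟩
    rw [← mul_assoc]
    have := zpow_neg_mul_zpow z 1
    rw [zpow_one] at this
    rw [this, one_mul]
    exact hβ'

section SFilt

variable {V : Type*} [AddCommGroup V] [Module R V] [Module S V] [IsScalarTower R S V]

/-- the filtration is compatible with the ring structure -/
structure IsSFilt (B' : Subalgebra R S) (z : Sˣ) (L : ℤ → Submodule R V) (b : ℤ → V) : Prop where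
  smul_mem : ∀ β ∈ B', ∀ n, ∀ v ∈ L n, β • v ∈ L n
  zinv_smul_mem : ∀ n, ∀ v ∈ L n, ((z⁻¹ : Sˣ) : S) • v ∈ L (n + 1)
  z_smul_mem : ∀ n, ∀ v ∈ L n, (z : S) • v ∈ L (n - 1)
  b_eq : ∀ n, b n = ((z ^ (-n) : Sˣ) : S) • b 0

variable {B' : Subalgebra R S} {z : Sˣ} {L : ℤ → Submodule R V} {b : ℤ → V}

omit [IsScalarTower R S V] in
theorem IsSFilt.zpow_smul_mem (hS : IsSFilt B' z L b) (m : ℤ) :
    ∀ n, ∀ v ∈ L n, ((z ^ m : Sˣ) : S) • v ∈ L (n - m) := by
  induction m using Int.induction_on with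
  | zero =>
    intro n v hv
    simpa using hv
  | succ i ih =>
    intro n v hv
    have h1 := hS.z_smul_mem _ _ (ih n v hv)
    rw [smul_smul, ← zpow_succ_val] at h1
    have e : n - (i : ℤ) - 1 = n - ((i : ℤ) + 1) := by ring
    rwa [e] at h1
  | pred i ih =>
    intro n v hv
    have h1 := hS.zinv_smul_mem _ _ (ih n v hv)
    rw [smul_smul, ← Units.val_mul, ← zpow_neg_one, ← zpow_add] at h1
    have e1 : (-1 : ℤ) + -(i : ℤ) = -(i : ℤ) - 1 := by ring
    have e2 : n - -(i : ℤ) + 1 = n - (-(i : ℤ) - 1) := by ring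
    rwa [e1, e2] at h1

omit [IsScalarTower R S V] in
/-- `c2` for multiplication by `v_s ∈ L 0` -/
theorem IsSFilt.smulRight_mem (hS : IsSFilt B' z L b) {vs : V} (hvs : vs ∈ L 0) (n : ℤ)
    {x : S} (hx : x ∈ LO B' z n) : x • vs ∈ L n := by
  rw [mem_LO] at hx
  have h1 : (((z ^ n : Sˣ) : S) * x) • vs ∈ L 0 := hS.smul_mem _ hx 0 vs hvs
  have h2 := hS.zpow_smul_mem (-n) 0 _ h1
  rw [smul_smul, ← mul_assoc, zpow_neg_mul_zpow, one_mul] at h2
  have e : (0 : ℤ) - -n = n := by ring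
  rwa [e] at h2

omit [IsScalarTower R S V] in
/-- `c3` for multiplication by `v_s ≡ b 0` modulo `L (-1)` -/
theorem IsSFilt.smulRight_b (hS : IsSFilt B' z L b) {vs : V} (hvs : vs - b 0 ∈ L (-1)) (j : ℤ) :
    bO z j • vs - b j ∈ L (j - 1) := by
  rw [hS.b_eq j, bO, ← smul_sub]
  have h2 := hS.zpow_smul_mem (-j) (-1) _ hvs
  have e : (-1 : ℤ) - -j = j - 1 := by ring
  rwa [e] at h2

end SFilt

section K5

variable {WO W V : Type*} [AddCommGroup WO] [Module R WO] [AddCommGroup W] [Module R W]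
  [AddCommGroup V] [Module R V] [Module S V] [IsScalarTower R S V]
  {B' : Subalgebra R S} {z : Sˣ} {ι : W →ₗ[R] V} {L : ℤ → Submodule R V} {b : ℤ → V}

/-- multiplication by `v : V`, as an `R`-linear map `S → V` -/
def smulRightR (R : Type*) [CommRing R] {S : Type*} [CommRing S] [Algebra R S] {V : Type*}
    [AddCommGroup V] [Module R V] [Module S V] [IsScalarTower R S V] (v : V) : S →ₗ[R] V :=
  (LinearMap.toSpanSingleton S V v).restrictScalars R

theorem smulRightR_apply (v : V) (x : S) : smulRightR R v x = x • v := rfl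

/-- the canonical section `s` satisfies `ι s ≡ b 0` modulo `L (-1)` -/
theorem lcH0_eq_one_iff (h : IsFilt R L b) (s : H0 ι L 0) :
    lcH0 (ι := ι) h 0 s = 1 ↔ ι s - b 0 ∈ L (-1) := by
  have e : (0 : ℤ) - 1 = -1 := by norm_num
  constructor
  · intro hs
    have h1 := h.lc_spec 0 (ιH0 0 s)
    rw [ιH0_coe, e] at h1
    have h2 : h.lc 0 (ιH0 0 s) = 1 := hs
    rwa [h2, one_smul] at h1
  · intro hs
    refine h.lc_eq 0 _ ?_
    rw [ιH0_coe, one_smul, e]
    exact hs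

theorem mem_zero_of_sub_b_mem (h : IsFilt R L b) {v : V} (hv : v - b 0 ∈ L (-1)) : v ∈ L 0 := by
  have : v = (v - b 0) + b 0 := by abel
  rw [this]
  exact add_mem (h.mono (by norm_num) hv) (h.b_mem 0)

/-- **(K5), concrete form**: `W ⧸ range mW ≃ S ⧸ (range ιO ⊔ z B')` -/
noncomputable def quotRangeEquivO (hO : IsOData B' z) (hS : IsSFilt B' z L b) (h : IsFilt R L b)
    (hK : KrichBij ι L) (ιO : WO →ₗ[R] S) (mW : WO →ₗ[R] W) (s : W) (hs : ι s - b 0 ∈ L (-1))
    (c1 : ∀ a, ι (mW a) = ιO a • ι s) :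
    (W ⧸ LinearMap.range mW) ≃ₗ[R] S ⧸ (LinearMap.range ιO ⊔ LO B' z (-1)) :=
  quotRangeEquivH1 (ιO := ιO) (mW := mW) (mV := smulRightR R (ι s)) (isFilt_O hO) h
    (fun a => c1 a)
    (fun n _ hx => hS.smulRight_mem (mem_zero_of_sub_b_mem h hs) n hx)
    (fun j => hS.smulRight_b hs j) hK

theorem quotRangeEquivO_mk (hO : IsOData B' z) (hS : IsSFilt B' z L b) (h : IsFilt R L b)
    (hK : KrichBij ι L) (ιO : WO →ₗ[R] S) (mW : WO →ₗ[R] W) (s : W) (hs : ι s - b 0 ∈ L (-1))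
    (c1 : ∀ a, ι (mW a) = ιO a • ι s) (w : W) (x : S) (hx : ι w - x • ι s ∈ L (-1)) :
    quotRangeEquivO hO hS h hK ιO mW s hs c1 ((LinearMap.range mW).mkQ w) =
      (LinearMap.range ιO ⊔ LO B' z (-1)).mkQ x := by
  have c2 : ∀ n, ∀ v ∈ LO B' z n, smulRightR R (ι s) v ∈ L n :=
    fun n _ hx => hS.smulRight_mem (mem_zero_of_sub_b_mem h hs) n hx
  have c3 : ∀ j, smulRightR R (ι s) (bO z j) - b j ∈ L (j - 1) := fun j => hS.smulRight_b hs j
  have h2 := toH1O_eq (ιO := ιO) (mV := smulRightR R (ι s)) (isFilt_O hO) h c2 c3 hK w x hx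
  rw [← h2]
  rfl

end K5

section BCO

variable {R' : Type*} [CommRing R'] [Algebra R R'] {S' : Type*} [CommRing S'] [Algebra R S']
  [Algebra R' S'] [IsScalarTower R R' S']
  {WO WO' : Type*} [AddCommGroup WO] [Module R WO] [AddCommGroup WO'] [Module R WO']
  [Module R' WO'] [IsScalarTower R R' WO']

theorem map_zpow_val (fS : S →ₐ[R] S') (z : Sˣ) (z' : S'ˣ)
    (hz : Units.map (fS : S →* S') z = z') (n : ℤ) :
    fS ((z ^ n : Sˣ) : S) = ((z' ^ n : S'ˣ) : S') := by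
  rw [← hz, ← map_zpow, Units.coe_map]
  rfl

/-- **the complex of `O` commutes with base change** -/
theorem isBC_O (B' : Subalgebra R S) (z : Sˣ) (B'' : Subalgebra R' S') (z' : S'ˣ)
    (ιO : WO →ₗ[R] S) (ιO' : WO' →ₗ[R'] S') (fW : WO →ₗ[R] WO') (fS : S →ₐ[R] S')
    (hW : IsBaseChange R' fW) (hS : IsBaseChange R' fS.toLinearMap)
    (hcomm : ∀ a, fS (ιO a) = ιO' (fW a))
    (hz : Units.map (fS : S →* S') z = z')
    (hB : Subalgebra.toSubmodule B'' = span R' (fS '' (B' : Set S))) :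
    IsBC ιO (LO B' z) (bO z) ιO' (LO B'' z') (bO z') fW fS.toLinearMap where
  bcW := hW
  bcV := hS
  comm := hcomm
  map_b j := map_zpow_val fS z z' hz (-j)
  map_L n := by
    apply le_antisymm
    · intro x' hx'
      rw [mem_LO] at hx'
      have hy : ((z' ^ n : S'ˣ) : S') * x' ∈ span R' (fS '' (B' : Set S)) := by
        rw [← hB]; exact hx'
      have key : ∀ y' ∈ span R' (fS '' (B' : Set S)),
          ((z' ^ (-n) : S'ˣ) : S') * y' ∈
            span R' (fS.toLinearMap '' ((LO B' z n : Submodule R S) : Set S)) := by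
        intro y' hy'
        induction hy' using Submodule.span_induction with
        | mem y hy =>
          obtain ⟨β, hβ, rfl⟩ := hy
          refine subset_span ⟨((z ^ (-n) : Sˣ) : S) * β, ?_, ?_⟩
          · rw [SetLike.mem_coe, mem_LO, ← mul_assoc, zpow_mul_zpow_neg, one_mul]
            exact hβ
          · show fS (((z ^ (-n) : Sˣ) : S) * β) = _
            rw [map_mul, map_zpow_val fS z z' hz]
        | zero => rw [mul_zero]; exact zero_mem _
        | add a c _ _ ha hc => rw [mul_add]; exact add_mem ha hc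
        | smul r a _ ha =>
          rw [mul_smul_comm]
          exact Submodule.smul_mem _ _ ha
      have := key _ hy
      rwa [← mul_assoc, zpow_neg_mul_zpow, one_mul] at this
    · rw [span_le]
      rintro _ ⟨x, hx, rfl⟩
      rw [SetLike.mem_coe, mem_LO] at hx ⊢
      show ((z' ^ n : S'ˣ) : S') * fS x ∈ B''
      rw [← map_zpow_val fS z z' hz, ← map_mul]
      have : fS (((z ^ n : Sˣ) : S) * x) ∈ Subalgebra.toSubmodule B'' := by
        rw [hB]
        exact subset_span ⟨_, hx, rfl⟩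
      exact this

end BCO

end Fermat.Agent.S25lib.Krich
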