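/-
S25lib / Krich / Build  (helper3)  --  Project L (S25): the algebraic constructor of the filtration.

Input: `V` a module over `S` (`= Γ(O, U₁₂ × R)`) and over `R`, `B' : Subalgebra R S` (image of `Γ(O, U₂ × R)`),
`z : Sˣ`, `L0 : Submodule R V` (image of `Γ(M, U₂ × R)`), `σ₀ : V` (a lift of the rigidifying generator).
`IsBuild B' z L0 σ₀`:  `B' L0 ⊆ L0`, `z ∈ B'`, `σ₀ ∈ L0`, `L0 = R σ₀ ⊕ z L0`, `V = ⋃ z⁻ⁿ L0`.
Output: `bL z L0 n = {v | zⁿ v ∈ L0}`, `bb z σ₀ n = z⁻ⁿ σ₀` with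
`IsBuild.isFilt : IsFilt R (bL z L0) (bb z σ₀)` and `IsBuild.isSFilt : IsSFilt B' z (bL z L0) (bb z σ₀)`.
-/
import Fermat.Agent.S25lib.Krich.OComplex

set_option autoImplicit false

namespace Fermat.Agent.S25lib.Krich

open Submodule

variable {R : Type*} [CommRing R] {S : Type*} [CommRing S] [Algebra R S]
  {V : Type*} [AddCommGroup V] [Module R V] [Module S V] [IsScalarTower R S V]

/-- multiplication by `x : S` on `V`, as an `R`-linear map -/
def smulLeftR (R : Type*) [CommRing R] {S : Type*} [CommRing S] [Algebra R S] (V : Type*)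
    [AddCommGroup V] [Module R V] [Module S V] [IsScalarTower R S V] (x : S) : V →ₗ[R] V where
  toFun v := x • v
  map_add' := smul_add x
  map_smul' r v := by
    simp only [RingHom.id_apply]
    rw [smul_comm]

/-- `L n = z⁻ⁿ L0 = {v | zⁿ v ∈ L0}` -/
def bL (z : Sˣ) (L0 : Submodule R V) (n : ℤ) : Submodule R V :=
  L0.comap (smulLeftR R V ((z ^ n : Sˣ) : S))

/-- `b n = z⁻ⁿ σ₀` -/
def bb (z : Sˣ) (σ₀ : V) (n : ℤ) : V := ((z ^ (-n) : Sˣ) : S) • σ₀

theorem mem_bL {z : Sˣ} {L0 : Submodule R V} {n : ℤ} {v : V} :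
    v ∈ bL z L0 n ↔ ((z ^ n : Sˣ) : S) • v ∈ L0 := Iff.rfl

/-- the hypotheses of the algebraic constructor -/
structure IsBuild (B' : Subalgebra R S) (z : Sˣ) (L0 : Submodule R V) (σ₀ : V) : Prop where
  smul_mem : ∀ β ∈ B', ∀ v ∈ L0, β • v ∈ L0
  z_mem : (z : S) ∈ B'
  σ_mem : σ₀ ∈ L0
  split : ∀ v ∈ L0, ∃ r : R, ∃ v' ∈ L0, v = r • σ₀ + (z : S) • v'
  free : ∀ r : R, ∀ v' ∈ L0, r • σ₀ = (z : S) • v' → r = 0
  exhaust : ∀ v : V, ∃ n : ℕ, ((z : S) ^ n) • v ∈ L0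

variable {B' : Subalgebra R S} {z : Sˣ} {L0 : Submodule R V} {σ₀ : V}

theorem zpow_neg_smul_zpow_smul (z : Sˣ) (n : ℤ) (v : V) :
    ((z ^ (-n) : Sˣ) : S) • ((z ^ n : Sˣ) : S) • v = v := by
  rw [smul_smul, zpow_neg_mul_zpow, one_smul]

theorem zpow_smul_zpow_neg_smul (z : Sˣ) (n : ℤ) (v : V) :
    ((z ^ n : Sˣ) : S) • ((z ^ (-n) : Sˣ) : S) • v = v := by
  rw [smul_smul, zpow_mul_zpow_neg, one_smul]

theorem bL_zero (z : Sˣ) (L0 : Submodule R V) : bL z L0 0 = L0 := by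
  ext v
  rw [mem_bL, zpow_zero, Units.val_one, one_smul]

/-- **the filtration built from `(L0, σ₀, z)`** -/
theorem IsBuild.isFilt (hB : IsBuild B' z L0 σ₀) : IsFilt R (bL z L0) (bb z σ₀) where
  succ n := by
    apply le_antisymm
    · intro v hv
      rw [mem_bL] at hv
      obtain ⟨r, v', hv', hsplit⟩ := hB.split _ hv
      have hv2 : v = ((z ^ (-n) : Sˣ) : S) • v' + r • bb z σ₀ (n + 1) := by
        have h2 : ((z ^ (-(n + 1)) : Sˣ) : S) * (z : S) = ((z ^ (-n) : Sˣ) : S) := by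
          have : (-(n + 1) : ℤ) + 1 = -n := by ring
          rw [mul_comm, ← zpow_succ_val, this]
        calc v = ((z ^ (-(n + 1)) : Sˣ) : S) • ((z ^ (n + 1) : Sˣ) : S) • v :=
              (zpow_neg_smul_zpow_smul z (n + 1) v).symm
          _ = ((z ^ (-(n + 1)) : Sˣ) : S) • (r • σ₀ + (z : S) • v') := by rw [hsplit]
          _ = r • ((z ^ (-(n + 1)) : Sˣ) : S) • σ₀ +
                (((z ^ (-(n + 1)) : Sˣ) : S) * (z : S)) • v' := by
              rw [smul_add, smul_comm, smul_smul]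
          _ = ((z ^ (-n) : Sˣ) : S) • v' + r • bb z σ₀ (n + 1) := by
              rw [h2, add_comm]; rfl
      rw [hv2]
      refine add_mem (mem_sup_left ?_)
        (mem_sup_right (Submodule.smul_mem _ _ (mem_span_singleton_self _)))
      rw [mem_bL, zpow_smul_zpow_neg_smul]
      exact hv'
    · refine sup_le ?_ ?_
      · intro v hv
        rw [mem_bL] at hv ⊢
        rw [zpow_succ_val, mul_smul]
        exact hB.smul_mem _ hB.z_mem _ hv
      · rw [span_le, Set.singleton_subset_iff, SetLike.mem_coe, mem_bL, bb,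
          zpow_smul_zpow_neg_smul]
        exact hB.σ_mem
  free n r hr := by
    rw [mem_bL, bb, smul_comm, smul_smul] at hr
    -- `zⁿ z⁻⁽ⁿ⁺¹⁾ = z⁻¹`
    refine hB.free r _ hr ?_
    have h2 : (z : S) * (((z ^ n : Sˣ) : S) * ((z ^ (-(n + 1)) : Sˣ) : S)) = 1 := by
      rw [← mul_assoc, ← zpow_succ_val, zpow_mul_zpow_neg]
    rw [smul_comm (z : S) r, smul_smul (z : S), h2, one_smul]
  exhaust v := by
    obtain ⟨n, hn⟩ := hB.exhaust v
    refine ⟨(n : ℤ), ?_⟩
    rw [mem_bL, zpow_natCast, Units.val_pow_eq_pow_val]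
    exact hn

/-- **the filtration built from `(L0, σ₀, z)` is compatible with the ring structure** -/
theorem IsBuild.isSFilt (hB : IsBuild B' z L0 σ₀) : IsSFilt B' z (bL z L0) (bb z σ₀) where
  smul_mem β hβ n v hv := by
    rw [mem_bL] at hv ⊢
    rw [smul_comm]
    exact hB.smul_mem β hβ _ hv
  zinv_smul_mem n v hv := by
    rw [mem_bL] at hv ⊢
    rw [smul_smul, ← Units.val_mul, ← zpow_neg_one, ← zpow_add, add_neg_cancel_right]
    exact hv
  z_smul_mem n v hv := by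
    rw [mem_bL] at hv ⊢
    rw [smul_smul]
    have : ((z ^ (n - 1) : Sˣ) : S) * (z : S) = ((z ^ n : Sˣ) : S) := by
      rw [mul_comm, ← zpow_succ_val, sub_add_cancel]
    rw [this]
    exact hv
  b_eq n := by
    show bb z σ₀ n = ((z ^ (-n) : Sˣ) : S) • bb z σ₀ 0
    rw [bb, bb, neg_zero, zpow_zero, Units.val_one, one_smul]

end Fermat.Agent.S25lib.Krich
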