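/-
S25lib / Krich / Rings  (helper3)  --  Project L (S25), brick (I2): `H¹(M(Ne)) = 0` for `N ≫ 0`.

The ring-level input of `finite_H1`: `S = Γ(U₁₂ × R, O)`, `A', B' ⊆ S` the images of
`Γ(U₁ × R, O)`, `Γ(U₂ × R, O)`, `z ∈ B'` with inverse `zinv ∈ S`.  If `S = A' + zinv^N₀ B'`
(`H¹(C, O(N₀ e)) = 0`, base-changed to `R`), `V` is generated over `S` by finitely many `ι u`,
`range ι` is stable under `A'` and the `L n` are stable under `B'` with `zinv • L n ≤ L (n+1)`, then
`range ι ⊔ L N = ⊤` for some `N`.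
-/
import Fermat.Agent.S25lib.Krich.Complex

set_option autoImplicit false

namespace Fermat.Agent.S25lib.Krich

open Submodule

variable {R : Type*} [CommRing R] {S : Type*} [CommRing S]
  {W V : Type*} [AddCommGroup W] [Module R W] [AddCommGroup V] [Module R V] [Module S V]
  {ι : W →ₗ[R] V} {L : ℤ → Submodule R V} {b : ℤ → V}

theorem exists_range_sup_eq_top (h : IsFilt R L b) (A' B' : Set S) (zinv : S) (N₀ : ℕ)
    (hA : ∀ a ∈ A', ∀ w : W, ∃ w' : W, ι w' = a • ι w)
    (hB : ∀ β ∈ B', ∀ n : ℤ, ∀ v ∈ L n, β • v ∈ L n)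
    (hz : ∀ n : ℤ, ∀ v ∈ L n, zinv • v ∈ L (n + 1))
    (hS : ∀ s : S, ∃ a ∈ A', ∃ β ∈ B', s = a + zinv ^ N₀ * β)
    (u : Finset W) (hu : span S ((fun w => ι w) '' (u : Set W)) = ⊤) :
    ∃ N : ℤ, LinearMap.range ι ⊔ L N = ⊤ := by
  classical
  -- a common bound for the pole orders of the generators
  have hbound : ∀ t : Finset W, ∃ N₁ : ℤ, ∀ w ∈ t, ι w ∈ L N₁ := by
    intro t
    induction t using Finset.induction_on with
    | empty => exact ⟨0, by simp⟩
    | insert a s _ ih =>
      obtain ⟨N₁, hN₁⟩ := ih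
      obtain ⟨n, hn⟩ := h.exhaust (ι a)
      refine ⟨max N₁ n, fun w hw => ?_⟩
      rcases Finset.mem_insert.mp hw with rfl | hw
      · exact h.mono (le_max_right _ _) hn
      · exact h.mono (le_max_left _ _) (hN₁ w hw)
  obtain ⟨N₁, hN₁⟩ := hbound u
  have hzpow : ∀ (k : ℕ) (n : ℤ), ∀ v ∈ L n, zinv ^ k • v ∈ L (n + k) := by
    intro k
    induction k with
    | zero => intro n v hv; simpa using hv
    | succ k ih =>
      intro n v hv
      have := hz _ _ (ih n v hv)
      rw [pow_succ', mul_smul]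
      have e : n + (k : ℤ) + 1 = n + ((k + 1 : ℕ) : ℤ) := by push_cast; ring
      rwa [e] at this
  refine ⟨N₁ + N₀, ?_⟩
  rw [eq_top_iff]
  rintro v -
  have hv : v ∈ span S ((fun w => ι w) '' (u : Set W)) := by rw [hu]; trivial
  -- the stronger statement: every `S`-multiple
  have key : ∀ s : S, s • v ∈ LinearMap.range ι ⊔ L (N₁ + N₀) := by
    induction hv using Submodule.span_induction with
    | mem x hx =>
      obtain ⟨w, hw, rfl⟩ := hx
      intro s
      obtain ⟨a, ha, β, hβ, rfl⟩ := hS s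
      rw [add_smul, mul_smul]
      refine add_mem (mem_sup_left ?_) (mem_sup_right ?_)
      · obtain ⟨w', hw'⟩ := hA a ha w
        exact ⟨w', hw'⟩
      · exact hzpow N₀ N₁ _ (hB β hβ N₁ _ (hN₁ w hw))
    | zero => intro s; rw [smul_zero]; exact zero_mem _
    | add x y _ _ hx hy => intro s; rw [smul_add]; exact add_mem (hx s) (hy s)
    | smul s' x _ ih => intro s; rw [smul_smul]; exact ih (s * s')
  have := key 1
  rwa [one_smul] at this

end Fermat.Agent.S25lib.Krich
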