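/-
S25lib / Krich / Misc  (helper3)  --  Project L (S25): small complements.

* `H1map_bijective_of_lc`: if some `w ∈ H⁰(M(ne))` has leading coefficient `1` then
  `H¹(M((n-1)e)) ≅ H¹(M(ne))` (e.g. `M = O`, `n = 0`, `w = 1`: `H¹(O(-e)) ≅ H¹(O)`);
* `IsBC.lcH0_H0map_eq_one`: the canonical section base-changes to the canonical section;
* `IsBC.free_H1`, `IsBC.finite_H1'`, `IsBC.finrank_H1`: `H¹` free of rank `g` over `R` ⟹ free of rank `g` over `R'`;
* `IsSFilt.exists_range_sup_eq_top`: `(N)` in the `IsSFilt` language;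
* `IsBC.bijective_of_field`, `IsBC.krichBij_of_field`: bijectivity of `K_n` is REFLECTED by field extensions;
* `projective_of_tower`: `(P)` — projective over an `R`-projective algebra is projective over `R`.
-/
import Fermat.Agent.S25lib.Krich.Build
import Fermat.Agent.S25lib.Krich.Rings

set_option autoImplicit false

namespace Fermat.Agent.S25lib.Krich

open Submodule Module TensorProduct

section One

variable {R : Type*} [CommRing R] {W V : Type*} [AddCommGroup W] [Module R W]
  [AddCommGroup V] [Module R V] {ι : W →ₗ[R] V} {L : ℤ → Submodule R V} {b : ℤ → V}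

/-- if `lc : H⁰(M(ne)) → R` takes the value `1`, then `H¹(M((n-1)e)) ≅ H¹(M(ne))` -/
theorem H1map_bijective_of_lc (h : IsFilt R L b) (n : ℤ) (w : H0 ι L n)
    (hw : lcH0 (ι := ι) h n w = 1) : Function.Bijective (H1map (ι := ι) h n) := by
  refine ⟨?_, H1map_surjective h n⟩
  rw [← LinearMap.ker_eq_bot, ker_H1map, span_singleton_eq_bot, mkQ_apply, Quotient.mk_eq_zero]
  have h1 : (1 : R) ∈ LinearMap.range (lcH0 (ι := ι) h n) := ⟨w, hw⟩
  rw [mem_range_lcH0_iff, one_smul] at h1
  exact h1

end One

section BC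

variable {R : Type*} [CommRing R] {R' : Type*} [CommRing R'] [Algebra R R']
  {W V : Type*} [AddCommGroup W] [Module R W] [AddCommGroup V] [Module R V]
  {W' V' : Type*} [AddCommGroup W'] [Module R W'] [Module R' W'] [IsScalarTower R R' W']
  [AddCommGroup V'] [Module R V'] [Module R' V'] [IsScalarTower R R' V']
  {ι : W →ₗ[R] V} {L : ℤ → Submodule R V} {b : ℤ → V}
  {ι' : W' →ₗ[R'] V'} {L' : ℤ → Submodule R' V'} {b' : ℤ → V'}
  {fW : W →ₗ[R] W'} {fV : V →ₗ[R] V'}

/-- the canonical section base-changes to the canonical section -/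
theorem IsBC.lcH0_H0map_eq_one (hbc : IsBC ι L b ι' L' b' fW fV) (h : IsFilt R L b)
    (h' : IsFilt R' L' b') (n : ℤ) (s : H0 ι L n) (hs : lcH0 (ι := ι) h n s = 1) :
    lcH0 (ι := ι') h' n (hbc.H0map n s) = 1 := by
  rw [hbc.lcH0_map h h', hs, map_one]

theorem IsBC.free_H1 (hbc : IsBC ι L b ι' L' b' fW fV) (n : ℤ) [Module.Free R (H1 ι L n)] :
    Module.Free R' (H1 ι' L' n) :=
  Module.Free.of_equiv (hbc.isBaseChange_H1 n).equiv

theorem IsBC.finite_H1' (hbc : IsBC ι L b ι' L' b' fW fV) (n : ℤ) [Module.Finite R (H1 ι L n)] :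
    Module.Finite R' (H1 ι' L' n) :=
  Module.Finite.equiv (hbc.isBaseChange_H1 n).equiv

/-- **`H¹` free of rank `g` over `R` is free of rank `g` over `R'`** -/
theorem IsBC.finrank_H1 (hbc : IsBC ι L b ι' L' b' fW fV) (n : ℤ) [Module.Free R (H1 ι L n)]
    [Nontrivial R'] :
    finrank R' (H1 ι' L' n) = finrank R (H1 ι L n) := by
  have : Nontrivial R := (algebraMap R R').domain_nontrivial
  rw [← (hbc.isBaseChange_H1 n).equiv.finrank_eq, Module.finrank_baseChange]

end BC

section FieldExt

variable {K : Type*} [Field K] {K' : Type*} [Field K'] [Algebra K K']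
  {W V : Type*} [AddCommGroup W] [Module K W] [AddCommGroup V] [Module K V]
  {W' V' : Type*} [AddCommGroup W'] [Module K W'] [Module K' W'] [IsScalarTower K K' W']
  [AddCommGroup V'] [Module K V'] [Module K' V'] [IsScalarTower K K' V']
  {ι : W →ₗ[K] V} {L : ℤ → Submodule K V} {b : ℤ → V}
  {ι' : W' →ₗ[K'] V'} {L' : ℤ → Submodule K' V'} {b' : ℤ → V'}
  {fW : W →ₗ[K] W'} {fV : V →ₗ[K] V'}

/-- a base change along a field extension is injective -/
theorem injective_of_isBaseChange_field {M M' : Type*} [AddCommGroup M] [Module K M]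
    [AddCommGroup M'] [Module K M'] [Module K' M'] [IsScalarTower K K' M'] {f : M →ₗ[K] M'}
    (hf : IsBaseChange K' f) : Function.Injective f := by
  intro x y hxy
  have h1 : hf.equiv ((1 : K') ⊗ₜ[K] x) = hf.equiv ((1 : K') ⊗ₜ[K] y) := by
    rw [hf.equiv_tmul, hf.equiv_tmul, hxy]
  exact Module.FaithfullyFlat.tensorProduct_mk_injective (A := K) (B := K') M
    (hf.equiv.injective h1)

/-- **bijectivity of `K_n` is reflected by field extensions** -/
theorem IsBC.bijective_of_field (hbc : IsBC ι L b ι' L' b' fW fV) {n : ℤ}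
    (h' : Function.Bijective (Kmap ι' L' n)) : Function.Bijective (Kmap ι L n) := by
  constructor
  · rw [← LinearMap.ker_eq_bot, ker_Kmap, eq_bot_iff]
    intro w hw
    have h1 : fW w ∈ H0 ι' L' n := hbc.map_mem_H0 hw
    have h2 : H0 ι' L' n = ⊥ := by
      rw [← ker_Kmap]; exact LinearMap.ker_eq_bot.mpr h'.1
    rw [h2, mem_bot] at h1
    rw [mem_bot]
    exact injective_of_isBaseChange_field hbc.bcW (by rw [h1, map_zero])
  · rw [Kmap_surjective_iff, ← Krich.subsingleton_H1_iff]
    have hs := hbc.subsingleton_tensor_H1 h'.2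
    refine ⟨fun x y => ?_⟩
    exact Module.FaithfullyFlat.tensorProduct_mk_injective (A := K) (B := K') (H1 ι L n)
      (Subsingleton.elim _ _)

/-- **`KrichBij` is reflected by field extensions** -/
theorem IsBC.krichBij_of_field (hbc : IsBC ι L b ι' L' b' fW fV) (hK' : KrichBij ι' L') :
    KrichBij ι L :=
  hbc.bijective_of_field hK'

end FieldExt

section Tower

variable {R A W : Type*} [CommRing R] [CommRing A] [Algebra R A] [AddCommGroup W] [Module A W]
  [Module R W] [IsScalarTower R A W]

theorem projective_finsupp [Module.Projective R A] (ι : Type*) :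
    Module.Projective R (ι →₀ A) := by
  classical
  exact Module.Projective.of_equiv (finsuppLequivDFinsupp (ι := ι) (M := A) R).symm

/-- **(P)**: a projective module over an `R`-algebra which is projective over `R` is projective over `R` -/
theorem projective_of_tower [Module.Projective R A] [Module.Projective A W] :
    Module.Projective R W := by
  obtain ⟨s, hs⟩ := (Module.projective_def' (R := A) (P := W)).mp inferInstance
  have := projective_finsupp (R := R) (A := A) W
  refine Module.Projective.of_split (s.restrictScalars R)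
    ((Finsupp.linearCombination A (id : W → W)).restrictScalars R) ?_
  ext w
  have := congrArg (fun g => g w) hs
  simpa using this

end Tower

section N

variable {R : Type*} [CommRing R] {S : Type*} [CommRing S] [Algebra R S]
  {W V : Type*} [AddCommGroup W] [Module R W] [AddCommGroup V] [Module R V] [Module S V]
  [IsScalarTower R S V]
  {B' : Subalgebra R S} {z : Sˣ} {ι : W →ₗ[R] V} {L : ℤ → Submodule R V} {b : ℤ → V}

omit [IsScalarTower R S V] in
/-- **(N)**: `range ι ⊔ L N = ⊤` for `N ≫ 0`, from `S = A' + z^{-N₀} B'` -/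
theorem IsSFilt.exists_range_sup_eq_top (hS : IsSFilt B' z L b) (h : IsFilt R L b) (A' : Set S)
    (N₀ : ℕ) (hA : ∀ a ∈ A', ∀ w : W, ∃ w' : W, ι w' = a • ι w)
    (hcech : ∀ s : S, ∃ a ∈ A', ∃ β ∈ B', s = a + ((z⁻¹ : Sˣ) : S) ^ N₀ * β)
    (u : Finset W) (hu : span S ((fun w => ι w) '' (u : Set W)) = ⊤) :
    ∃ N : ℤ, LinearMap.range ι ⊔ L N = ⊤ :=
  Krich.exists_range_sup_eq_top h A' (B' : Set S) ((z⁻¹ : Sˣ) : S) N₀ hA
    (fun β hβ n v hv => hS.smul_mem β hβ n v hv) hS.zinv_smul_mem
    (fun s => by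
      obtain ⟨a, ha, β, hβ, hs⟩ := hcech s
      exact ⟨a, ha, β, hβ, hs⟩) u hu

end N

end Fermat.Agent.S25lib.Krich
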