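/-
S25lib / Krich / Euler  (helper3)  --  Project L (S25), brick (I2): Euler characteristic over a field.

Over a field `K`, for the two-chart complex `(ι, L, b)`:
* `lcH0_dichotomy`: either `lc : H⁰(M(ne)) → K` is onto and `H¹(M((n-1)e)) ≅ H¹(M(ne))`, or
  `H⁰(M((n-1)e)) = H⁰(M(ne))` and the class of `b n` is non-zero in `H¹(M((n-1)e))`;
* `finite_H0_succ`, `finite_H0_of_le`, `finite_H0`: `H⁰(M(ne))` is finite-dimensional for all `n` as soon
  as it is for one;
* `euler_step`: `h⁰(n) + h¹(n-1) = h⁰(n-1) + h¹(n) + 1`;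
* `chi`, `chi_eq`: `χ(M(ne)) = χ(M(me)) + (n - m)`.
-/
import Fermat.Agent.S25lib.Krich.Complex

set_option autoImplicit false

namespace Fermat.Agent.S25lib.Krich

open Submodule Module

variable {K : Type*} [Field K] {W V : Type*} [AddCommGroup W] [Module K W]
  [AddCommGroup V] [Module K V] {ι : W →ₗ[K] V} {L : ℤ → Submodule K V} {b : ℤ → V}

/-- the class of `b n` in `H¹(M((n-1)e))` -/
def bcl (ι : W →ₗ[K] V) (L : ℤ → Submodule K V) (b : ℤ → V) (n : ℤ) : H1 ι L (n - 1) :=
  (LinearMap.range ι ⊔ L (n - 1)).mkQ (b n)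

theorem bcl_eq_zero_iff (n : ℤ) :
    bcl ι L b n = 0 ↔ b n ∈ LinearMap.range ι ⊔ L (n - 1) := by
  unfold bcl
  rw [mkQ_apply, Quotient.mk_eq_zero]

theorem lcH0_surjective_of_bcl (h : IsFilt K L b) {n : ℤ} (hb : bcl ι L b n = 0) :
    Function.Surjective (lcH0 (ι := ι) h n) := by
  rw [bcl_eq_zero_iff] at hb
  have h1 : (1 : K) ∈ LinearMap.range (lcH0 (ι := ι) h n) := by
    rw [mem_range_lcH0_iff, one_smul]
    exact hb
  obtain ⟨w, hw⟩ := h1
  intro r
  exact ⟨r • w, by rw [map_smul, hw, smul_eq_mul, mul_one]⟩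

theorem H0_eq_pred_of_bcl (h : IsFilt K L b) {n : ℤ} (hb : bcl ι L b n ≠ 0) :
    H0 ι L n = H0 ι L (n - 1) := by
  apply le_antisymm
  · intro w hw
    have h0 : lcH0 (ι := ι) h n ⟨w, hw⟩ = 0 := by
      by_contra hne
      apply hb
      rw [bcl_eq_zero_iff]
      have h2 : lcH0 (ι := ι) h n ⟨w, hw⟩ • b n ∈ LinearMap.range ι ⊔ L (n - 1) :=
        (mem_range_lcH0_iff h n _).mp ⟨⟨w, hw⟩, rfl⟩
      have h3 := Submodule.smul_mem _ (lcH0 (ι := ι) h n ⟨w, hw⟩)⁻¹ h2
      rwa [smul_smul, inv_mul_cancel₀ hne, one_smul] at h3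
    exact (lcH0_eq_zero_iff h n ⟨w, hw⟩).mp h0
  · exact H0_mono h (by omega)

/-- the kernel of the leading coefficient is `H⁰(M((n-1)e))` -/
noncomputable def kerLcEquiv (h : IsFilt K L b) (n : ℤ) :
    LinearMap.ker (lcH0 (ι := ι) h n) ≃ₗ[K] H0 ι L (n - 1) where
  toFun w := ⟨(w.1 : W), (lcH0_eq_zero_iff h n w.1).mp w.2⟩
  invFun w := ⟨⟨(w : W), H0_mono h (by omega) w.2⟩,
    (lcH0_eq_zero_iff h n _).mpr w.2⟩
  map_add' _ _ := rfl
  map_smul' _ _ := rfl
  left_inv _ := rfl
  right_inv _ := rfl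

theorem finite_H0_of_le (h : IsFilt K L b) {m n : ℤ} (hmn : m ≤ n)
    [Module.Finite K (H0 ι L n)] : Module.Finite K (H0 ι L m) :=
  Submodule.finiteDimensional_of_le (H0_mono h hmn)

theorem finite_H0_succ (h : IsFilt K L b) (n : ℤ) [Module.Finite K (H0 ι L (n - 1))] :
    Module.Finite K (H0 ι L n) := by
  by_cases hb : bcl ι L b n = 0
  · -- `H⁰(n) = H⁰(n-1) ⊕ K w₁`
    obtain ⟨w₁, hw₁⟩ := lcH0_surjective_of_bcl (ι := ι) h hb 1
    rw [Module.Finite.iff_fg]
    have hle : H0 ι L n ≤ H0 ι L (n - 1) ⊔ span K {(w₁ : W)} := by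
      intro w hw
      have h0 : lcH0 (ι := ι) h n (⟨w, hw⟩ - lcH0 (ι := ι) h n ⟨w, hw⟩ • w₁) = 0 := by
        rw [map_sub, map_smul, hw₁, smul_eq_mul, mul_one, sub_self]
      have h1 := (lcH0_eq_zero_iff h n _).mp h0
      have h2 : w = (w - lcH0 (ι := ι) h n ⟨w, hw⟩ • (w₁ : W)) +
          lcH0 (ι := ι) h n ⟨w, hw⟩ • (w₁ : W) := by abel
      rw [h2]
      exact Submodule.add_mem _ (mem_sup_left h1)
        (mem_sup_right (Submodule.smul_mem _ _ (subset_span rfl)))
    have hge : H0 ι L (n - 1) ⊔ span K {(w₁ : W)} ≤ H0 ι L n :=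
      sup_le (H0_mono h (by omega)) (by
        rw [span_le]
        rintro _ rfl
        exact w₁.2)
    rw [le_antisymm hle hge]
    exact Submodule.FG.sup (Module.Finite.iff_fg.mp inferInstance) (fg_span_singleton _)
  · rw [H0_eq_pred_of_bcl h hb]
    infer_instance

theorem finite_H0 (h : IsFilt K L b) {m : ℤ} (hm : Module.Finite K (H0 ι L m)) (n : ℤ) :
    Module.Finite K (H0 ι L n) := by
  rcases le_total n m with hnm | hmn
  · exact finite_H0_of_le h hnm
  · induction n, hmn using Int.leInduction with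
    | base => exact hm
    | succ n _ ih =>
      have : Module.Finite K (H0 ι L (n + 1 - 1)) := by
        rw [add_sub_cancel_right]; exact ih
      exact finite_H0_succ h (n + 1)

/-- **the Euler characteristic jumps by one**: `h⁰(n) + h¹(n-1) = h⁰(n-1) + h¹(n) + 1` -/
theorem euler_step (h : IsFilt K L b) (n : ℤ) [Module.Finite K (H0 ι L (n - 1))]
    [Module.Finite K (H1 ι L (n - 1))] :
    finrank K (H0 ι L n) + finrank K (H1 ι L (n - 1)) =
      finrank K (H0 ι L (n - 1)) + finrank K (H1 ι L n) + 1 := by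
  have hfin : Module.Finite K (H0 ι L n) := finite_H0_succ h n
  by_cases hb : bcl ι L b n = 0
  · -- `lc` is onto, `H¹` does not change
    have hs := lcH0_surjective_of_bcl (ι := ι) h hb
    have h1 := LinearMap.finrank_range_add_finrank_ker (lcH0 (ι := ι) h n)
    rw [LinearMap.range_eq_top.mpr hs, finrank_top, Module.finrank_self,
      (kerLcEquiv (ι := ι) h n).finrank_eq] at h1
    have hker : LinearMap.ker (H1map (ι := ι) h n) = ⊥ := by
      rw [ker_H1map]
      have : (LinearMap.range ι ⊔ L (n - 1)).mkQ (b n) = 0 := hb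
      rw [this, span_singleton_eq_bot]
    have hbij : Function.Bijective (H1map (ι := ι) h n) :=
      ⟨LinearMap.ker_eq_bot.mp hker, H1map_surjective h n⟩
    have h2 := (LinearEquiv.ofBijective (H1map (ι := ι) h n) hbij).finrank_eq
    omega
  · -- `H⁰` does not change, `H¹` drops by one
    have h0 := H0_eq_pred_of_bcl (ι := ι) h hb
    have h1 := LinearMap.finrank_range_add_finrank_ker (H1map (ι := ι) h n)
    rw [LinearMap.range_eq_top.mpr (H1map_surjective h n), finrank_top, ker_H1map,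
      finrank_span_singleton (show (LinearMap.range ι ⊔ L (n - 1)).mkQ (b n) ≠ 0 from hb)] at h1
    rw [h0]
    omega

/-- the Euler characteristic of `M(ne)` -/
noncomputable def chi (ι : W →ₗ[K] V) (L : ℤ → Submodule K V) (n : ℤ) : ℤ :=
  (finrank K (H0 ι L n) : ℤ) - finrank K (H1 ι L n)

theorem chi_succ (h : IsFilt K L b) {N : ℤ} (hN : LinearMap.range ι ⊔ L N = ⊤) {m : ℤ}
    (hm : Module.Finite K (H0 ι L m)) (n : ℤ) : chi ι L n = chi ι L (n - 1) + 1 := by
  have := finite_H0 h hm (n - 1)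
  have := finite_H1 h hN (n - 1)
  have := euler_step (ι := ι) h n
  unfold chi
  omega

/-- **`χ(M(ne)) = χ(M(me)) + (n - m)`** -/
theorem chi_eq (h : IsFilt K L b) {N : ℤ} (hN : LinearMap.range ι ⊔ L N = ⊤) {m₀ : ℤ}
    (hm₀ : Module.Finite K (H0 ι L m₀)) (m n : ℤ) : chi ι L n = chi ι L m + (n - m) := by
  have key : ∀ n : ℤ, chi ι L n = chi ι L 0 + n := by
    intro n
    induction n using Int.induction_on with
    | zero => simp
    | succ i ih =>
      have := chi_succ h hN hm₀ ((i : ℤ) + 1)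
      rw [add_sub_cancel_right] at this
      rw [this, ih]; ring
    | pred i ih =>
      have := chi_succ h hN hm₀ (-(i : ℤ))
      have h2 : -(i : ℤ) - 1 = -(i : ℤ) - 1 := rfl
      rw [ih] at this
      linarith
  rw [key n, key m]; ring

end Fermat.Agent.S25lib.Krich
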