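/-
S25lib / Krich / Inherit  (helper3)  --  Project L (S25), brick (I2): what a base change inherits.

For `hbc : IsBC ι L b ι' L' b' fW fV` (the complex over `R'` is the base change of the one over `R`):
* `IsBC.mono`, **`IsBC.isFilt : IsFilt R L b → IsFilt R' L' b'`** (the filtration axioms are inherited:
  they have to be checked ONCE);
* `IsBC.H1map`, `IsBC.H1map_mk`, `IsBC.span_range_H1map`: the map `H¹(M) → H¹(M_{R'})`;
* **`IsBC.isBaseChange_H1`** : `H¹` commutes with EVERY base change;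
* `IsBC.subsingleton_H1_iff : H¹(M_{R'}) = 0 ↔ R' ⊗ H¹(M) = 0`.
-/
import Fermat.Agent.S25lib.Krich.BaseChange

set_option autoImplicit false

namespace Fermat.Agent.S25lib.Krich

open Submodule TensorProduct

variable {R : Type*} [CommRing R] {R' : Type*} [CommRing R'] [Algebra R R']
  {W V : Type*} [AddCommGroup W] [Module R W] [AddCommGroup V] [Module R V]
  {W' V' : Type*} [AddCommGroup W'] [Module R W'] [Module R' W'] [IsScalarTower R R' W']
  [AddCommGroup V'] [Module R V'] [Module R' V'] [IsScalarTower R R' V']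

namespace IsBC

variable {ι : W →ₗ[R] V} {L : ℤ → Submodule R V} {b : ℤ → V}
  {ι' : W' →ₗ[R'] V'} {L' : ℤ → Submodule R' V'} {b' : ℤ → V'}
  {fW : W →ₗ[R] W'} {fV : V →ₗ[R] V'} (hbc : IsBC ι L b ι' L' b' fW fV)

include hbc

theorem mono (h : IsFilt R L b) : Monotone L' := by
  intro m n hmn
  rw [hbc.map_L, hbc.map_L]
  exact span_mono (Set.image_mono (h.mono hmn))

/-- **the filtration axioms are inherited by every base change** -/
theorem isFilt (h : IsFilt R L b) : IsFilt R' L' b' where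
  succ n := by
    apply le_antisymm
    · rw [hbc.map_L (n + 1), span_le]
      rintro _ ⟨v, hv, rfl⟩
      rw [SetLike.mem_coe, h.succ] at hv
      obtain ⟨l, hl, y, hy, rfl⟩ := mem_sup.mp hv
      obtain ⟨r, rfl⟩ := mem_span_singleton.mp hy
      rw [map_add, map_smul, hbc.map_b, ← algebraMap_smul R' r (b' (n + 1))]
      exact add_mem (mem_sup_left (hbc.map_mem_L hl))
        (mem_sup_right (Submodule.smul_mem _ _ (mem_span_singleton_self _)))
    · refine sup_le (hbc.mono h (by omega)) ?_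
      rw [span_le, Set.singleton_subset_iff, SetLike.mem_coe, ← hbc.map_b]
      exact hbc.map_mem_L (h.b_mem (n + 1))
  free n r' hr' := by
    -- the coordinate of `b (n+1)` modulo `L n`
    let φ : V →ₗ[R] R := (h.quotBasis n).coord ⟨n + 1, by omega⟩ ∘ₗ (L n).mkQ
    have hφL : ∀ l ∈ L n, φ l = 0 := by
      intro l hl
      show (h.quotBasis n).coord ⟨n + 1, by omega⟩ ((L n).mkQ l) = 0
      rw [mkQ_apply, (Quotient.mk_eq_zero _).mpr hl, map_zero]
    have hφb : φ (b (n + 1)) = 1 := by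
      show (h.quotBasis n).coord ⟨n + 1, by omega⟩ ((L n).mkQ (b (n + 1))) = 1
      have : (L n).mkQ (b (n + 1)) = h.quotBasis n ⟨n + 1, by omega⟩ := by
        rw [h.quotBasis_apply]
      rw [this, Module.Basis.coord_apply, Module.Basis.repr_self, Finsupp.single_eq_same]
    let Φ : V' →ₗ[R'] R' := hbc.bcV.lift ((Algebra.linearMap R R') ∘ₗ φ)
    have hΦ : ∀ v, Φ (fV v) = algebraMap R R' (φ v) := fun v => hbc.bcV.lift_eq _ v
    have hΦL : L' n ≤ LinearMap.ker Φ := by
      rw [hbc.map_L, span_le]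
      rintro _ ⟨l, hl, rfl⟩
      rw [SetLike.mem_coe, LinearMap.mem_ker, hΦ, hφL l hl, map_zero]
    have h1 := hΦL hr'
    rw [LinearMap.mem_ker, map_smul, ← hbc.map_b, hΦ, hφb, map_one, smul_eq_mul, mul_one] at h1
    exact h1
  exhaust v' := by
    induction v' using hbc.bcV.inductionOn with
    | zero => exact ⟨0, zero_mem _⟩
    | tmul m =>
      obtain ⟨n, hn⟩ := h.exhaust m
      exact ⟨n, hbc.map_mem_L hn⟩
    | smul s x hx =>
      obtain ⟨n, hn⟩ := hx
      exact ⟨n, Submodule.smul_mem _ _ hn⟩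
    | add x y hx hy =>
      obtain ⟨n₁, hn₁⟩ := hx
      obtain ⟨n₂, hn₂⟩ := hy
      exact ⟨max n₁ n₂, add_mem (hbc.mono h (le_max_left _ _) hn₁)
        (hbc.mono h (le_max_right _ _) hn₂)⟩

theorem map_mem_range_sup {n : ℤ} {v : V} (hv : v ∈ LinearMap.range ι ⊔ L n) :
    fV v ∈ LinearMap.range ι' ⊔ L' n := by
  obtain ⟨y, ⟨w, rfl⟩, l, hl, rfl⟩ := mem_sup.mp hv
  rw [map_add, hbc.comm]
  exact add_mem (mem_sup_left ⟨fW w, rfl⟩) (mem_sup_right (hbc.map_mem_L hl))

/-- the map `H¹(M) → H¹(M_{R'})` -/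
def H1map (n : ℤ) : H1 ι L n →ₗ[R] H1 ι' L' n :=
  (LinearMap.range ι ⊔ L n).liftQ
    (((LinearMap.range ι' ⊔ L' n).mkQ.restrictScalars R) ∘ₗ fV) (by
      intro v hv
      rw [LinearMap.mem_ker, LinearMap.comp_apply, LinearMap.restrictScalars_apply, mkQ_apply,
        Quotient.mk_eq_zero]
      exact hbc.map_mem_range_sup hv)

theorem H1map_mk (n : ℤ) (v : V) :
    hbc.H1map n ((LinearMap.range ι ⊔ L n).mkQ v) = (LinearMap.range ι' ⊔ L' n).mkQ (fV v) := rfl

theorem span_range_H1map (n : ℤ) : span R' (Set.range (hbc.H1map n)) = ⊤ := by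
  rw [eq_top_iff]
  rintro x -
  obtain ⟨v', rfl⟩ := (LinearMap.range ι' ⊔ L' n).mkQ_surjective x
  have hv' : v' ∈ span R' (Set.range fV) := by rw [hbc.span_range_fV]; trivial
  induction hv' using Submodule.span_induction with
  | mem x hx =>
    obtain ⟨v, rfl⟩ := hx
    exact subset_span ⟨(LinearMap.range ι ⊔ L n).mkQ v, rfl⟩
  | zero => rw [map_zero]; exact zero_mem _
  | add x y _ _ hx hy => rw [map_add]; exact add_mem hx hy
  | smul a x _ hx => rw [map_smul]; exact Submodule.smul_mem _ _ hx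

/-- `R' ⊗ H¹(M) = 0 → H¹(M_{R'}) = 0` -/
theorem subsingleton_H1_of_tensor {n : ℤ} (hs : Subsingleton (R' ⊗[R] H1 ι L n)) :
    Subsingleton (H1 ι' L' n) := by
  -- the `R'`-linear map `R' ⊗ H¹(M) → H¹(M_{R'})` is onto
  let g : R' ⊗[R] H1 ι L n →ₗ[R'] H1 ι' L' n :=
    (TensorProduct.isBaseChange R (H1 ι L n) R').lift (hbc.H1map n)
  have hg : ∀ x, g (1 ⊗ₜ x) = hbc.H1map n x := fun x =>
    (TensorProduct.isBaseChange R (H1 ι L n) R').lift_eq (hbc.H1map n) x
  have hsurj : LinearMap.range g = ⊤ := by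
    rw [eq_top_iff, ← hbc.span_range_H1map n, span_le]
    rintro _ ⟨x, rfl⟩
    exact ⟨1 ⊗ₜ x, hg x⟩
  refine ⟨fun x y => ?_⟩
  have hx : x ∈ LinearMap.range g := by rw [hsurj]; trivial
  have hy : y ∈ LinearMap.range g := by rw [hsurj]; trivial
  obtain ⟨tx, rfl⟩ := hx
  obtain ⟨ty, rfl⟩ := hy
  rw [Subsingleton.elim tx ty]

/-- **`H¹(M_{R'}) = 0 ↔ R' ⊗ H¹(M) = 0`** -/
theorem subsingleton_H1_iff' (n : ℤ) :
    Subsingleton (H1 ι' L' n) ↔ Subsingleton (R' ⊗[R] H1 ι L n) := by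
  constructor
  · intro hs
    refine hbc.subsingleton_tensor_H1 ?_
    rw [Kmap_surjective_iff, ← Krich.subsingleton_H1_iff]
    exact hs
  · exact hbc.subsingleton_H1_of_tensor

theorem range_sup_eq_span (n : ℤ) :
    LinearMap.range ι' ⊔ L' n =
      span R' (fV '' ((LinearMap.range ι ⊔ L n : Submodule R V) : Set V)) := by
  apply le_antisymm
  · refine sup_le ?_ ?_
    · rintro _ ⟨w', rfl⟩
      have hw' : w' ∈ span R' (Set.range fW) := by rw [hbc.span_range_fW]; trivial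
      have := Submodule.apply_mem_span_image_of_mem_span ι' hw'
      refine span_mono ?_ this
      rintro _ ⟨_, ⟨w, rfl⟩, rfl⟩
      exact ⟨ι w, mem_sup_left ⟨w, rfl⟩, hbc.comm w⟩
    · rw [hbc.map_L]
      refine span_mono ?_
      rintro _ ⟨l, hl, rfl⟩
      exact ⟨l, mem_sup_right hl, rfl⟩
  · rw [span_le]
    rintro _ ⟨v, hv, rfl⟩
    exact hbc.map_mem_range_sup hv

/-- **`H¹` commutes with every base change** -/
theorem isBaseChange_H1 (n : ℤ) : IsBaseChange R' (hbc.H1map n) := by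
  let g : R' ⊗[R] H1 ι L n →ₗ[R'] H1 ι' L' n :=
    (TensorProduct.isBaseChange R (H1 ι L n) R').lift (hbc.H1map n)
  have hg : ∀ x, g (1 ⊗ₜ x) = hbc.H1map n x := fun x =>
    (TensorProduct.isBaseChange R (H1 ι L n) R').lift_eq (hbc.H1map n) x
  -- the inverse
  let q : R' ⊗[R] V →ₗ[R'] R' ⊗[R] H1 ι L n :=
    LinearMap.baseChange R' (LinearMap.range ι ⊔ L n).mkQ
  have hq0 : ∀ v' ∈ LinearMap.range ι' ⊔ L' n, q (hbc.bcV.equiv.symm v') = 0 := by
    intro v' hv'
    rw [hbc.range_sup_eq_span] at hv'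
    induction hv' using Submodule.span_induction with
    | mem x hx =>
      obtain ⟨v, hv, rfl⟩ := hx
      rw [hbc.bcV.equiv_symm_apply]
      show (LinearMap.baseChange R' (LinearMap.range ι ⊔ L n).mkQ) (1 ⊗ₜ v) = 0
      rw [LinearMap.baseChange_tmul, mkQ_apply, (Quotient.mk_eq_zero _).mpr hv, tmul_zero]
    | zero => simp
    | add x y _ _ hx hy => rw [map_add, map_add, hx, hy, add_zero]
    | smul a x _ hx => rw [map_smul, map_smul, hx, smul_zero]
  let ψ : H1 ι' L' n →ₗ[R'] R' ⊗[R] H1 ι L n :=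
    (LinearMap.range ι' ⊔ L' n).liftQ (q ∘ₗ hbc.bcV.equiv.symm.toLinearMap) (by
      intro v' hv'
      rw [LinearMap.mem_ker, LinearMap.comp_apply]
      exact hq0 v' hv')
  have hψg : ψ ∘ₗ g = LinearMap.id := by
    apply (TensorProduct.isBaseChange R (H1 ι L n) R').algHom_ext
    intro x
    obtain ⟨v, rfl⟩ := (LinearMap.range ι ⊔ L n).mkQ_surjective x
    show ψ (g (1 ⊗ₜ (LinearMap.range ι ⊔ L n).mkQ v)) = 1 ⊗ₜ (LinearMap.range ι ⊔ L n).mkQ v
    rw [hg, hbc.H1map_mk]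
    show q (hbc.bcV.equiv.symm (fV v)) = _
    rw [hbc.bcV.equiv_symm_apply]
    show (LinearMap.baseChange R' (LinearMap.range ι ⊔ L n).mkQ) (1 ⊗ₜ v) = _
    rw [LinearMap.baseChange_tmul]
  have hinj : Function.Injective g := by
    intro x y hxy
    have := congrArg ψ hxy
    have hx : ψ (g x) = x := congrArg (fun F => F x) hψg
    have hy : ψ (g y) = y := congrArg (fun F => F y) hψg
    rwa [hx, hy] at this
  have hsurj : Function.Surjective g := by
    rw [← LinearMap.range_eq_top, eq_top_iff, ← hbc.span_range_H1map n, span_le]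
    rintro _ ⟨x, rfl⟩
    exact ⟨1 ⊗ₜ x, hg x⟩
  exact IsBaseChange.of_equiv (LinearEquiv.ofBijective g ⟨hinj, hsurj⟩) hg

end IsBC

end Fermat.Agent.S25lib.Krich
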