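/-
S25lib / Krich / Chart  (helper3)  --  Project L (S25), brick (K): the chart predicate `KrichBij`.

`KrichBij ι L := Function.Bijective (Kmap ι L (-1))`, i.e. `H⁰(N(-e)) = 0 = H¹(N(-e))`.
* `krichBij_iff`, `KrichBij.H0_eq_bot`, `KrichBij.range_sup_eq_top`;
* `IsBC.krichBij`: stable under EVERY base change;
* `krichBij_of_forall_maximal` + `IsBC.H0_le_smul_of_krichBij` (+ `IsBC.exists_notMem_smul_H1_eq_zero`):
  `KrichBij` holds as soon as it holds on the fibres at all maximal ideals (needs `W` projective);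
* `krichBij_of_surjective_of_chi`: over a field, `H¹(N(-e)) = 0` and `χ(N(-e)) = 0` give `KrichBij`;
* `KrichBij.lcH0_bijective`, `KrichBij.existsUnique_section`: `lc : H⁰(N) ≅ R`, THE section `s` with `lc s = 1`;
* `tail_bijective`: a morphism of complexes, unitriangular on the `b`'s, induces `V_O ⧸ L_O n ≅ V ⧸ L n`;
* **(K5)** `quotRangeEquivH1`: with `KrichBij ι L`: `W ⧸ range m_W ≃ₗ[R] H1 ι_O L_O (-1)`.
-/
import Fermat.Agent.S25lib.Krich.Inherit
import Fermat.Agent.S25lib.Krich.Local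
import Fermat.Agent.S25lib.Krich.Euler

set_option autoImplicit false

namespace Fermat.Agent.S25lib.Krich

open Submodule Module

section Basic

variable {R : Type*} [CommRing R] {W V : Type*} [AddCommGroup W] [Module R W]
  [AddCommGroup V] [Module R V]

/-- **the chart predicate**: `H⁰(N(-e)) = 0 = H¹(N(-e))` -/
def KrichBij (ι : W →ₗ[R] V) (L : ℤ → Submodule R V) : Prop :=
  Function.Bijective (Kmap ι L (-1))

variable {ι : W →ₗ[R] V} {L : ℤ → Submodule R V} {b : ℤ → V}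

theorem krichBij_iff :
    KrichBij ι L ↔ H0 ι L (-1) = ⊥ ∧ LinearMap.range ι ⊔ L (-1) = ⊤ := by
  unfold KrichBij Function.Bijective
  rw [← LinearMap.ker_eq_bot, ker_Kmap, Kmap_surjective_iff]

theorem KrichBij.H0_eq_bot (hK : KrichBij ι L) : H0 ι L (-1) = ⊥ := (krichBij_iff.mp hK).1

theorem KrichBij.range_sup_eq_top (hK : KrichBij ι L) : LinearMap.range ι ⊔ L (-1) = ⊤ :=
  (krichBij_iff.mp hK).2

/-- `lc : H⁰(N) → R` is bijective -/
theorem KrichBij.lcH0_bijective (hK : KrichBij ι L) (h : IsFilt R L b) :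
    Function.Bijective (lcH0 (ι := ι) h 0) := by
  have e : (0 : ℤ) - 1 = -1 := by norm_num
  constructor
  · rw [← LinearMap.ker_eq_bot, eq_bot_iff]
    intro w hw
    have h1 := (lcH0_eq_zero_iff h 0 w).mp hw
    rw [e, hK.H0_eq_bot, mem_bot] at h1
    rw [mem_bot]
    exact Subtype.ext h1
  · intro r
    have : r ∈ LinearMap.range (lcH0 (ι := ι) h 0) := by
      rw [mem_range_lcH0_iff, e, hK.range_sup_eq_top]
      trivial
    exact this

/-- **the canonical section**: the unique `s ∈ H⁰(N)` with leading coefficient `1` -/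
theorem KrichBij.existsUnique_section (hK : KrichBij ι L) (h : IsFilt R L b) :
    ∃! s : H0 ι L 0, lcH0 (ι := ι) h 0 s = 1 := by
  obtain ⟨hi, hs⟩ := hK.lcH0_bijective h
  obtain ⟨s, hs1⟩ := hs 1
  exact ⟨s, hs1, fun s' hs' => hi (hs'.trans hs1.symm)⟩

/-- `KrichBij` from the fibres at all maximal ideals -/
theorem krichBij_of_forall_maximal [Module.Projective R W] (h : IsFilt R L b)
    (h1 : ∀ 𝔪 : Ideal R, 𝔪.IsMaximal → ∃ f : R, f ∉ 𝔪 ∧ ∀ x : H1 ι L (-1), f • x = 0)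
    (h0 : Function.Surjective (Kmap ι L (-1)) →
      ∀ 𝔪 : Ideal R, 𝔪.IsMaximal → H0 ι L (-1) ≤ 𝔪 • H0 ι L (-1)) :
    KrichBij ι L := by
  have hs : Function.Surjective (Kmap ι L (-1)) := Kmap_surjective_of_fibres h1
  refine krichBij_iff.mpr ⟨?_, (Kmap_surjective_iff _).mp hs⟩
  exact H0_eq_bot_of_forall_mem_smul h hs (h0 hs)

end Basic

section BC

variable {R : Type*} [CommRing R] {R' : Type*} [CommRing R'] [Algebra R R']
  {W V : Type*} [AddCommGroup W] [Module R W] [AddCommGroup V] [Module R V]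
  {W' V' : Type*} [AddCommGroup W'] [Module R W'] [Module R' W'] [IsScalarTower R R' W']
  [AddCommGroup V'] [Module R V'] [Module R' V'] [IsScalarTower R R' V']
  {ι : W →ₗ[R] V} {L : ℤ → Submodule R V} {b : ℤ → V}
  {ι' : W' →ₗ[R'] V'} {L' : ℤ → Submodule R' V'} {b' : ℤ → V'}
  {fW : W →ₗ[R] W'} {fV : V →ₗ[R] V'}

/-- **`KrichBij` is stable under every base change** -/
theorem IsBC.krichBij (hbc : IsBC ι L b ι' L' b' fW fV) (h : IsFilt R L b)
    (hK : KrichBij ι L) : KrichBij ι' L' := by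
  have hs : Function.Surjective (Kmap ι L (-1)) := hK.2
  refine krichBij_iff.mpr ⟨?_, (Kmap_surjective_iff _).mp (hbc.Kmap_surjective hs)⟩
  rw [hbc.H0_eq_span h (hbc.isFilt h) hs, hK.H0_eq_bot]
  simp

/-- the fibre condition on `H⁰` from a fibre with `KrichBij` -/
theorem IsBC.H0_le_smul_of_krichBij (hbc : IsBC ι L b ι' L' b' fW fV) [Module.Projective R W]
    (h : IsFilt R L b) (hK' : KrichBij ι' L') (hs : Function.Surjective (Kmap ι L (-1)))
    (𝔪 : Ideal R) (h𝔪 : RingHom.ker (algebraMap R R') ≤ 𝔪) :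
    H0 ι L (-1) ≤ 𝔪 • H0 ι L (-1) :=
  (hbc.H0_le_smul h hs hK'.H0_eq_bot).trans (Submodule.smul_mono h𝔪 le_rfl)

end BC

section Field

variable {K : Type*} [Field K] {W V : Type*} [AddCommGroup W] [Module K W]
  [AddCommGroup V] [Module K V] {ι : W →ₗ[K] V} {L : ℤ → Submodule K V} {b : ℤ → V}

/-- over a field: `H¹(N(-e)) = 0` and `χ(N(-e)) = 0` give `KrichBij` -/
theorem krichBij_of_surjective_of_chi (h : IsFilt K L b) {m : ℤ}
    (hm : Module.Finite K (H0 ι L m)) (hχ : chi ι L (-1) = 0)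
    (hs : Function.Surjective (Kmap ι L (-1))) : KrichBij ι L := by
  have hfin := finite_H0 h hm (-1)
  have hsub : Subsingleton (H1 ι L (-1)) := by
    rw [subsingleton_H1_iff, ← Kmap_surjective_iff]; exact hs
  have h1 : finrank K (H1 ι L (-1)) = 0 := Module.finrank_zero_of_subsingleton
  have h0 : finrank K (H0 ι L (-1)) = 0 := by
    unfold chi at hχ
    omega
  exact krichBij_iff.mpr ⟨Submodule.finrank_eq_zero.mp h0, (Kmap_surjective_iff _).mp hs⟩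

end Field

section Compare

variable {R : Type*} [CommRing R] {WO VO W V : Type*} [AddCommGroup WO] [Module R WO]
  [AddCommGroup VO] [Module R VO] [AddCommGroup W] [Module R W] [AddCommGroup V] [Module R V]
  {ιO : WO →ₗ[R] VO} {LO : ℤ → Submodule R VO} {bO : ℤ → VO}
  {ι : W →ₗ[R] V} {L : ℤ → Submodule R V} {b : ℤ → V}
  {mW : WO →ₗ[R] W} {mV : VO →ₗ[R] V}

/-- the map `V_O ⧸ L_O n → V ⧸ L n` induced by a morphism of complexes -/
def tailMap (mV : VO →ₗ[R] V) (LO : ℤ → Submodule R VO) (L : ℤ → Submodule R V)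
    (c2 : ∀ n, ∀ v ∈ LO n, mV v ∈ L n) (n : ℤ) : (VO ⧸ LO n) →ₗ[R] V ⧸ L n :=
  Submodule.mapQ _ _ mV (fun v hv => c2 n v hv)

theorem tailMap_mk (c2 : ∀ n, ∀ v ∈ LO n, mV v ∈ L n) (n : ℤ) (v : VO) :
    tailMap mV LO L c2 n ((LO n).mkQ v) = (L n).mkQ (mV v) := rfl

theorem tail_injective_aux (hO : IsFilt R LO bO) (h : IsFilt R L b)
    (c2 : ∀ n, ∀ v ∈ LO n, mV v ∈ L n) (c3 : ∀ j, mV (bO j) - b j ∈ L (j - 1)) (n : ℤ) :
    ∀ k : ℕ, ∀ x ∈ LO (n + k), mV x ∈ L n → x ∈ LO n := by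
  intro k
  induction k with
  | zero => intro x hx _; simpa using hx
  | succ k ih =>
    intro x hx hmx
    have e : n + ((k + 1 : ℕ) : ℤ) - 1 = n + (k : ℤ) := by push_cast; ring
    obtain ⟨r, hr⟩ := hO.exists_coeff (n + ((k + 1 : ℕ) : ℤ)) hx
    rw [e] at hr
    -- `r = 0`
    have h1 : mV (x - r • bO (n + ((k + 1 : ℕ) : ℤ))) ∈ L (n + (k : ℤ)) := c2 _ _ hr
    have h2 : mV x ∈ L (n + (k : ℤ)) := h.mono (by omega) hmx
    have h3 := c3 (n + ((k + 1 : ℕ) : ℤ))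
    rw [e] at h3
    have h4 : r • b (n + ((k + 1 : ℕ) : ℤ)) ∈ L (n + ((k + 1 : ℕ) : ℤ) - 1) := by
      rw [e]
      have : r • b (n + ((k + 1 : ℕ) : ℤ)) =
          mV x - mV (x - r • bO (n + ((k + 1 : ℕ) : ℤ))) -
            r • (mV (bO (n + ((k + 1 : ℕ) : ℤ))) - b (n + ((k + 1 : ℕ) : ℤ))) := by
        rw [map_sub, map_smul, smul_sub]; abel
      rw [this]
      exact Submodule.sub_mem _ (Submodule.sub_mem _ h2 h1) (Submodule.smul_mem _ _ h3)
    have hr0 : r = 0 := h.free' _ r h4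
    rw [hr0, zero_smul, sub_zero] at hr
    exact ih x hr hmx

theorem tail_surjective_aux (h : IsFilt R L b)
    (c3 : ∀ j, mV (bO j) - b j ∈ L (j - 1)) (n : ℤ) :
    ∀ k : ℕ, ∀ v ∈ L (n + k), ∃ x : VO, v - mV x ∈ L n := by
  intro k
  induction k with
  | zero => intro v hv; exact ⟨0, by simpa using hv⟩
  | succ k ih =>
    intro v hv
    have e : n + ((k + 1 : ℕ) : ℤ) - 1 = n + (k : ℤ) := by push_cast; ring
    obtain ⟨r, hr⟩ := h.exists_coeff (n + ((k + 1 : ℕ) : ℤ)) hv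
    have h3 := c3 (n + ((k + 1 : ℕ) : ℤ))
    rw [e] at hr h3
    have h5 : v - mV (r • bO (n + ((k + 1 : ℕ) : ℤ))) ∈ L (n + (k : ℤ)) := by
      have : v - mV (r • bO (n + ((k + 1 : ℕ) : ℤ))) =
          (v - r • b (n + ((k + 1 : ℕ) : ℤ))) -
            r • (mV (bO (n + ((k + 1 : ℕ) : ℤ))) - b (n + ((k + 1 : ℕ) : ℤ))) := by
        rw [map_smul, smul_sub]; abel
      rw [this]
      exact Submodule.sub_mem _ hr (Submodule.smul_mem _ _ h3)
    obtain ⟨x', hx'⟩ := ih _ h5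
    refine ⟨r • bO (n + ((k + 1 : ℕ) : ℤ)) + x', ?_⟩
    have : v - mV (r • bO (n + ((k + 1 : ℕ) : ℤ)) + x') =
        v - mV (r • bO (n + ((k + 1 : ℕ) : ℤ))) - mV x' := by
      rw [map_add]; abel
    rw [this]
    exact hx'

/-- **the tail isomorphism**: a morphism of complexes which is unitriangular on the `b`'s induces
`V_O ⧸ L_O n ≅ V ⧸ L n` -/
theorem tail_bijective (hO : IsFilt R LO bO) (h : IsFilt R L b)
    (c2 : ∀ n, ∀ v ∈ LO n, mV v ∈ L n) (c3 : ∀ j, mV (bO j) - b j ∈ L (j - 1)) (n : ℤ) :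
    Function.Bijective (tailMap mV LO L c2 n) := by
  constructor
  · rw [← LinearMap.ker_eq_bot, eq_bot_iff]
    intro q hq
    obtain ⟨x, rfl⟩ := (LO n).mkQ_surjective q
    rw [LinearMap.mem_ker, tailMap_mk, mkQ_apply, Quotient.mk_eq_zero] at hq
    rw [mem_bot, mkQ_apply, Quotient.mk_eq_zero]
    obtain ⟨N, hN⟩ := hO.exhaust x
    rcases le_total N n with hNn | hnN
    · exact hO.mono hNn hN
    · obtain ⟨k, rfl⟩ := Int.le.dest hnN
      exact tail_injective_aux hO h c2 c3 n k x hN hq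
  · intro q
    obtain ⟨v, rfl⟩ := (L n).mkQ_surjective q
    obtain ⟨N, hN⟩ := h.exhaust v
    have hN' : v ∈ L (n + (N - n).toNat) := by
      refine h.mono ?_ hN
      have := Int.self_le_toNat (N - n)
      omega
    obtain ⟨x, hx⟩ := tail_surjective_aux h c3 n _ v hN'
    refine ⟨(LO n).mkQ x, ?_⟩
    rw [tailMap_mk, mkQ_apply, mkQ_apply, Submodule.Quotient.eq]
    have : mV x - v = -(v - mV x) := by abel
    rw [this]
    exact (L n).neg_mem hx

/-- the tail isomorphism as a linear equivalence -/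
noncomputable def tailEquiv (hO : IsFilt R LO bO) (h : IsFilt R L b)
    (c2 : ∀ n, ∀ v ∈ LO n, mV v ∈ L n) (c3 : ∀ j, mV (bO j) - b j ∈ L (j - 1)) (n : ℤ) :
    (VO ⧸ LO n) ≃ₗ[R] V ⧸ L n :=
  LinearEquiv.ofBijective _ (tail_bijective hO h c2 c3 n)

theorem tailEquiv_mk (hO : IsFilt R LO bO) (h : IsFilt R L b)
    (c2 : ∀ n, ∀ v ∈ LO n, mV v ∈ L n) (c3 : ∀ j, mV (bO j) - b j ∈ L (j - 1)) (n : ℤ) (v : VO) :
    tailEquiv hO h c2 c3 n ((LO n).mkQ v) = (L n).mkQ (mV v) := rfl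

/-- `K_{-1}` as a linear equivalence -/
noncomputable def KrichBij.equiv (hK : KrichBij ι L) : W ≃ₗ[R] V ⧸ L (-1) :=
  LinearEquiv.ofBijective _ hK

theorem KrichBij.equiv_apply (hK : KrichBij ι L) (w : W) : hK.equiv w = (L (-1)).mkQ (ι w) := rfl

/-- `V_O ⧸ L_O n → H¹(O(ne))` -/
def quotToH1 (ιO : WO →ₗ[R] VO) (LO : ℤ → Submodule R VO) (n : ℤ) :
    (VO ⧸ LO n) →ₗ[R] H1 ιO LO n :=
  Submodule.mapQ _ _ LinearMap.id (by rw [Submodule.comap_id]; exact le_sup_right)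

theorem quotToH1_mk (n : ℤ) (v : VO) :
    quotToH1 ιO LO n ((LO n).mkQ v) = (LinearMap.range ιO ⊔ LO n).mkQ v := rfl

theorem quotToH1_surjective (n : ℤ) : Function.Surjective (quotToH1 ιO LO n) := by
  intro x
  obtain ⟨v, rfl⟩ := (LinearMap.range ιO ⊔ LO n).mkQ_surjective x
  exact ⟨(LO n).mkQ v, rfl⟩

/-- the map `W → H¹(O(-e))`: `w ↦ [v_O]` where `ι w ≡ m_V v_O` modulo `L (-1)` -/
noncomputable def toH1O (ιO : WO →ₗ[R] VO) (hO : IsFilt R LO bO) (h : IsFilt R L b)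
    (c2 : ∀ n, ∀ v ∈ LO n, mV v ∈ L n) (c3 : ∀ j, mV (bO j) - b j ∈ L (j - 1))
    (hK : KrichBij ι L) : W →ₗ[R] H1 ιO LO (-1) :=
  quotToH1 ιO LO (-1) ∘ₗ (tailEquiv hO h c2 c3 (-1)).symm.toLinearMap ∘ₗ hK.equiv.toLinearMap

theorem toH1O_eq (hO : IsFilt R LO bO) (h : IsFilt R L b)
    (c2 : ∀ n, ∀ v ∈ LO n, mV v ∈ L n) (c3 : ∀ j, mV (bO j) - b j ∈ L (j - 1))
    (hK : KrichBij ι L) (w : W) (vO : VO) (hv : ι w - mV vO ∈ L (-1)) :
    toH1O ιO hO h c2 c3 hK w = (LinearMap.range ιO ⊔ LO (-1)).mkQ vO := by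
  have h1 : hK.equiv w = tailEquiv hO h c2 c3 (-1) ((LO (-1)).mkQ vO) := by
    rw [tailEquiv_mk, KrichBij.equiv_apply, mkQ_apply, mkQ_apply, Submodule.Quotient.eq]
    exact hv
  show quotToH1 ιO LO (-1) ((tailEquiv hO h c2 c3 (-1)).symm (hK.equiv w)) = _
  rw [h1, LinearEquiv.symm_apply_apply, quotToH1_mk]

theorem toH1O_surjective (hO : IsFilt R LO bO) (h : IsFilt R L b)
    (c2 : ∀ n, ∀ v ∈ LO n, mV v ∈ L n) (c3 : ∀ j, mV (bO j) - b j ∈ L (j - 1))
    (hK : KrichBij ι L) : Function.Surjective (toH1O ιO hO h c2 c3 hK) :=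
  (quotToH1_surjective (-1)).comp
    ((tailEquiv hO h c2 c3 (-1)).symm.surjective.comp hK.equiv.surjective)

theorem ker_toH1O (hO : IsFilt R LO bO) (h : IsFilt R L b)
    (c1 : ∀ a, ι (mW a) = mV (ιO a))
    (c2 : ∀ n, ∀ v ∈ LO n, mV v ∈ L n) (c3 : ∀ j, mV (bO j) - b j ∈ L (j - 1))
    (hK : KrichBij ι L) : LinearMap.ker (toH1O ιO hO h c2 c3 hK) = LinearMap.range mW := by
  apply le_antisymm
  · intro w hw
    rw [LinearMap.mem_ker] at hw
    obtain ⟨v, hv⟩ := (LO (-1)).mkQ_surjective ((tailEquiv hO h c2 c3 (-1)).symm (hK.equiv w))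
    have h1 : quotToH1 ιO LO (-1) ((LO (-1)).mkQ v) = 0 := by rw [hv]; exact hw
    rw [quotToH1_mk, mkQ_apply, Quotient.mk_eq_zero] at h1
    obtain ⟨y, ⟨a, rfl⟩, l, hl, rfl⟩ := mem_sup.mp h1
    refine ⟨a, ?_⟩
    apply hK.equiv.injective
    have h3 : (LO (-1)).mkQ (ιO a + l) = (LO (-1)).mkQ (ιO a) := by
      rw [map_add, add_eq_left, mkQ_apply, Quotient.mk_eq_zero]
      exact hl
    have h4 : hK.equiv w = tailEquiv hO h c2 c3 (-1) ((LO (-1)).mkQ (ιO a)) := by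
      rw [← h3, hv, LinearEquiv.apply_symm_apply]
    rw [h4, tailEquiv_mk, KrichBij.equiv_apply, c1]
  · rintro _ ⟨a, rfl⟩
    rw [LinearMap.mem_ker, toH1O_eq hO h c2 c3 hK (mW a) (ιO a) (by rw [c1, sub_self]; exact zero_mem _),
      mkQ_apply, Quotient.mk_eq_zero]
    exact mem_sup_left ⟨a, rfl⟩

/-- **(K5)**: for a morphism of complexes `(m_W, m_V) : O → N`, unitriangular on the `b`'s, with
`KrichBij` for `N`: `W ⧸ range m_W ≃ H¹(O(-e))` -/
noncomputable def quotRangeEquivH1 (hO : IsFilt R LO bO) (h : IsFilt R L b)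
    (c1 : ∀ a, ι (mW a) = mV (ιO a))
    (c2 : ∀ n, ∀ v ∈ LO n, mV v ∈ L n) (c3 : ∀ j, mV (bO j) - b j ∈ L (j - 1))
    (hK : KrichBij ι L) : (W ⧸ LinearMap.range mW) ≃ₗ[R] H1 ιO LO (-1) :=
  (Submodule.quotEquivOfEq _ _ (ker_toH1O hO h c1 c2 c3 hK).symm).trans
    (LinearMap.quotKerEquivOfSurjective (toH1O ιO hO h c2 c3 hK) (toH1O_surjective hO h c2 c3 hK))

theorem quotRangeEquivH1_mk (hO : IsFilt R LO bO) (h : IsFilt R L b)
    (c1 : ∀ a, ι (mW a) = mV (ιO a))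
    (c2 : ∀ n, ∀ v ∈ LO n, mV v ∈ L n) (c3 : ∀ j, mV (bO j) - b j ∈ L (j - 1))
    (hK : KrichBij ι L) (w : W) :
    quotRangeEquivH1 hO h c1 c2 c3 hK ((LinearMap.range mW).mkQ w) = toH1O ιO hO h c2 c3 hK w := rfl

end Compare

end Fermat.Agent.S25lib.Krich
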