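/-
S25lib / Krich / Deg  (helper3)  --  Project L (S25), brick (P-Deg): generisation over a domain.

* `eq_bot_of_mul_mem_mul`: a f.g. ideal `I` of a domain with `f I ⊆ 𝔭 I`, `f ∉ 𝔭` prime, is zero
  (Cayley–Hamilton);
* `exists_approx_section`: if `f` kills `H¹(M(ne))` there is `σ : V ⧸ L n → W` with `K ∘ σ = f`;
* `H0_eq_bot_of_isDomain`: `R` a domain, `W` projective, `f` kills `H¹(M(ne))`, `f ∉ 𝔭` prime,
  `H⁰(M(ne)) ⊆ 𝔭 W` (e.g. `H⁰` of the fibre at `𝔭` vanishes)  ⟹  `H⁰(M(ne)) = 0`;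
* `IsBC.H0_eq_bot_of_isUnit`, `IsBC.bijective_of_isUnit`: then `K_n` is bijective after every base change
  which inverts `f`;
* **`IsBC.bijective_generic`** (generisation): over a domain, `K_n` bijective on ONE fibre (a field-valued
  point) implies `K_n` bijective over every field containing `R`;
* `eq_of_bijective_of_bijective`: over a non-trivial ring `K_{d₀}`, `K_{d₁}` both bijective forces `d₀ = d₁`.
-/
import Fermat.Agent.S25lib.Krich.Inherit
import Fermat.Agent.S25lib.Krich.Local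

set_option autoImplicit false

namespace Fermat.Agent.S25lib.Krich

open Submodule Module

section Ideal

variable {R : Type*} [CommRing R]

theorem fg_span_range_finsupp {P : Type*} (c : P →₀ R) : (Ideal.span (Set.range c)).FG := by
  classical
  refine ⟨c.support.image c ∪ {0}, ?_⟩
  apply le_antisymm
  · apply Ideal.span_le.mpr
    intro r hr
    rcases Finset.mem_union.mp (Finset.mem_coe.mp hr) with hr | hr
    · obtain ⟨p, _, rfl⟩ := Finset.mem_image.mp hr
      exact Ideal.subset_span ⟨p, rfl⟩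
    · rw [Finset.mem_singleton.mp hr]
      exact Submodule.zero_mem _
  · apply Ideal.span_le.mpr
    rintro _ ⟨p, rfl⟩
    by_cases hp : p ∈ c.support
    · exact Ideal.subset_span
        (Finset.mem_coe.mpr (Finset.mem_union_left _ (Finset.mem_image_of_mem c hp)))
    · rw [Finsupp.notMem_support_iff.mp hp]
      exact Submodule.zero_mem _

/-- **Cayley–Hamilton**: a f.g. ideal `I` of a domain with `f I ⊆ 𝔭 I`, `f ∉ 𝔭`, `𝔭` prime, is zero -/
theorem eq_bot_of_mul_mem_mul [IsDomain R] (I : Ideal R) (hI : I.FG) (𝔭 : Ideal R) [𝔭.IsPrime]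
    (f : R) (hf : f ∉ 𝔭) (h : ∀ x ∈ I, f * x ∈ 𝔭 * I) : I = ⊥ := by
  have hfin : Module.Finite R I := Module.Finite.iff_fg.mpr hI
  let φ : Module.End R I := algebraMap R (Module.End R I) f
  have hφ : ∀ x : I, φ x = f • x := fun x => Module.algebraMap_end_apply R R I f x
  have hrange : LinearMap.range φ ≤ 𝔭 • ⊤ := by
    rintro _ ⟨x, rfl⟩
    rw [hφ]
    refine mem_smul_top_of_coe_mem_smul 𝔭 I (f • x) ?_
    have := h x x.2
    exact this
  obtain ⟨p, hmonic, -, hcoeff, hp⟩ :=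
    LinearMap.exists_monic_and_natDegree_eq_and_coeff_mem_pow_and_aeval_eq_zero R φ 𝔭 hrange
  -- `p(f)` kills `I`
  have hev : ∀ x : I, p.eval f • x = 0 := by
    intro x
    have h1 : Polynomial.aeval φ p = algebraMap R (Module.End R I) (p.eval f) :=
      Polynomial.aeval_algebraMap_apply_eq_algebraMap_eval f p
    have h2 := congrArg (fun g => g x) hp
    simp only [h1, Module.algebraMap_end_apply, LinearMap.zero_apply] at h2
    exact h2
  -- `p(f) ∉ 𝔭`
  have hnot : p.eval f ∉ 𝔭 := by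
    rw [Polynomial.eval_eq_sum_range, Finset.sum_range_succ, hmonic.coeff_natDegree, one_mul]
    intro hmem
    have hsum : ∑ i ∈ Finset.range p.natDegree, p.coeff i * f ^ i ∈ 𝔭 := by
      refine Ideal.sum_mem _ fun i hi => ?_
      have hi' : p.natDegree - i ≠ 0 := by
        have := Finset.mem_range.mp hi
        omega
      exact 𝔭.mul_mem_right _ (Ideal.pow_le_self hi' (hcoeff i))
    have := (Ideal.add_mem_iff_right 𝔭 hsum).mp hmem
    exact hf (Ideal.IsPrime.mem_of_pow_mem inferInstance _ this)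
  have hne : p.eval f ≠ 0 := fun h0 => hnot (h0 ▸ 𝔭.zero_mem)
  rw [eq_bot_iff]
  intro x hx
  have := hev ⟨x, hx⟩
  have h3 : p.eval f * x = 0 := congrArg Subtype.val this
  rcases mul_eq_zero.mp h3 with h4 | h4
  · exact absurd h4 hne
  · rw [Ideal.mem_bot]; exact h4

end Ideal

section Approx

variable {R : Type*} [CommRing R] {W V : Type*} [AddCommGroup W] [Module R W]
  [AddCommGroup V] [Module R V] {ι : W →ₗ[R] V} {L : ℤ → Submodule R V} {b : ℤ → V}

/-- if `f` kills `H¹(M(ne))`, the differential has a section up to `f` -/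
theorem exists_approx_section (h : IsFilt R L b) {n : ℤ} (f : R)
    (hf : ∀ x : H1 ι L n, f • x = 0) :
    ∃ σ : (V ⧸ L n) →ₗ[R] W, ∀ q, Kmap ι L n (σ q) = f • q := by
  have hex : ∀ j : {j : ℤ // n < j}, ∃ w : W, Kmap ι L n w = f • (L n).mkQ (b j.1) := by
    intro j
    have h1 := hf ((LinearMap.range ι ⊔ L n).mkQ (b j.1))
    rw [← map_smul, mkQ_apply, Quotient.mk_eq_zero] at h1
    obtain ⟨y, ⟨w, rfl⟩, l, hl, hsum⟩ := mem_sup.mp h1
    refine ⟨w, ?_⟩
    rw [Kmap_apply, ← map_smul, ← sub_eq_zero, ← map_sub, mkQ_apply, Quotient.mk_eq_zero,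
      ← hsum, sub_add_cancel_left]
    exact (L n).neg_mem hl
  choose wj hwj using hex
  refine ⟨(h.quotBasis n).constr R wj, ?_⟩
  have : Kmap ι L n ∘ₗ (h.quotBasis n).constr R wj = f • LinearMap.id := by
    refine (h.quotBasis n).ext fun j => ?_
    rw [LinearMap.comp_apply, Module.Basis.constr_basis, hwj, LinearMap.smul_apply,
      LinearMap.id_apply, h.quotBasis_apply]
  intro q
  have := congrArg (fun g => g q) this
  simpa using this

/-- **over a domain**: `f` kills `H¹`, `f ∉ 𝔭`, `H⁰ ⊆ 𝔭 W`  ⟹  `H⁰ = 0` -/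
theorem H0_eq_bot_of_isDomain [IsDomain R] [Module.Projective R W] (h : IsFilt R L b) {n : ℤ}
    (f : R) (hf : ∀ x : H1 ι L n, f • x = 0) (𝔭 : Ideal R) [𝔭.IsPrime] (hf𝔭 : f ∉ 𝔭)
    (hH0 : H0 ι L n ≤ (𝔭 • ⊤ : Submodule R W)) : H0 ι L n = ⊥ := by
  classical
  obtain ⟨σ, hσ⟩ := exists_approx_section (ι := ι) h f hf
  -- the approximate retraction
  let π : W →ₗ[R] W := f • LinearMap.id - σ ∘ₗ Kmap ι L n
  have hπmem : ∀ w, π w ∈ H0 ι L n := by
    intro w
    rw [← ker_Kmap, LinearMap.mem_ker]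
    simp [π, hσ]
  have hπ0 : ∀ w ∈ H0 ι L n, π w = f • w := by
    intro w hw
    have hw' : Kmap ι L n w = 0 := by rw [← LinearMap.mem_ker, ker_Kmap]; exact hw
    simp [π, hw']
  obtain ⟨s, hs⟩ := (Module.projective_def' (R := R) (P := W)).mp inferInstance
  rw [eq_bot_iff]
  intro w hw
  have hx : Finsupp.linearCombination R id (s w) = w := by
    have := congrArg (fun g => g w) hs
    simpa using this
  set c := s w with hc
  have hI0 : Ideal.span (Set.range c) = ⊥ := by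
    refine eq_bot_of_mul_mem_mul _ (fg_span_range_finsupp c) 𝔭 f hf𝔭 ?_
    -- it suffices to treat the generators
    have hgen : ∀ q, f * c q ∈ 𝔭 * Ideal.span (Set.range c) := by
      intro q
      -- `f • c = ∑ c p • s (π p)`
      have h1 : f • c = c.sum fun p r => r • s (π p) := by
        have e1 : f • c = s (π w) := by rw [hπ0 w hw, map_smul]
        rw [e1]
        conv_lhs => rw [← hx]
        rw [Finsupp.linearCombination_apply, map_finsuppSum, map_finsuppSum]
        simp only [id, map_smul]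
      have h2 : f * c q = c.sum fun p r => r * (s (π p)) q := by
        have := congrArg (fun g => g q) h1
        simp only [Finsupp.smul_apply, smul_eq_mul] at this
        rw [this, Finsupp.sum_apply]
        simp only [Finsupp.smul_apply, smul_eq_mul]
      rw [h2]
      refine Ideal.sum_mem _ fun p _ => ?_
      have hp : s (π p) ∈ (𝔭 • ⊤ : Submodule R (W →₀ R)) := by
        have := Submodule.mem_map_of_mem (f := s) (hH0 (hπmem p))
        rw [Submodule.map_smul''] at this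
        exact Submodule.smul_mono le_rfl le_top this
      have hq := coeff_mem_of_mem_smul_top 𝔭 hp q
      have hcp : c p ∈ Ideal.span (Set.range c) := Ideal.subset_span ⟨p, rfl⟩
      show c p * (s (π p)) q ∈ 𝔭 * Ideal.span (Set.range c)
      rw [mul_comm (c p)]
      exact Ideal.mul_mem_mul hq hcp
    intro x hx'
    refine Submodule.span_induction (p := fun x _ => f * x ∈ 𝔭 * Ideal.span (Set.range c))
      ?_ ?_ ?_ ?_ hx'
    · rintro _ ⟨q, rfl⟩
      exact hgen q
    · rw [mul_zero]; exact Submodule.zero_mem _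
    · intro x y _ _ hx hy
      rw [mul_add]; exact Submodule.add_mem _ hx hy
    · intro a x _ hx
      rw [smul_eq_mul, mul_left_comm]
      exact Ideal.mul_mem_left _ a hx
  have hc0 : c = 0 := by
    ext q
    have : c q ∈ Ideal.span (Set.range c) := Ideal.subset_span ⟨q, rfl⟩
    rw [hI0] at this
    simpa using this
  rw [mem_bot, ← hx, hc0, map_zero]

/-- two bijective differentials: the twists coincide -/
theorem eq_of_bijective_of_bijective [Nontrivial R] (h : IsFilt R L b) {d₀ d₁ : ℤ}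
    (h₀ : Function.Bijective (Kmap ι L d₀)) (h₁ : Function.Bijective (Kmap ι L d₁)) :
    d₀ = d₁ := by
  have key : ∀ {d d' : ℤ}, Function.Bijective (Kmap ι L d) → Function.Bijective (Kmap ι L d') →
      ¬ d < d' := by
    intro d d' hd hd' hlt
    have h1 : (1 : R) ∈ LinearMap.range (lcH0 (ι := ι) h (d + 1)) := by
      rw [mem_range_lcH0_iff, add_sub_cancel_right, (Kmap_surjective_iff d).mp hd.2]
      trivial
    obtain ⟨w, hw⟩ := h1
    have h2 : (w : W) ∈ H0 ι L d' := H0_mono h (by omega) w.2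
    have h3 : H0 ι L d' = ⊥ := by
      rw [← ker_Kmap]; exact LinearMap.ker_eq_bot.mpr hd'.1
    rw [h3, mem_bot] at h2
    have h4 : w = 0 := Subtype.ext h2
    rw [h4, map_zero] at hw
    exact zero_ne_one hw
  rcases lt_trichotomy d₀ d₁ with hlt | heq | hgt
  · exact absurd hlt (key h₀ h₁)
  · exact heq
  · exact absurd hgt (key h₁ h₀)

end Approx

section BC

variable {R : Type*} [CommRing R] {R' : Type*} [CommRing R'] [Algebra R R']
  {W V : Type*} [AddCommGroup W] [Module R W] [AddCommGroup V] [Module R V]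
  {W' V' : Type*} [AddCommGroup W'] [Module R W'] [Module R' W'] [IsScalarTower R R' W']
  [AddCommGroup V'] [Module R V'] [Module R' V'] [IsScalarTower R R' V']
  {ι : W →ₗ[R] V} {L : ℤ → Submodule R V} {b : ℤ → V}
  {ι' : W' →ₗ[R'] V'} {L' : ℤ → Submodule R' V'} {b' : ℤ → V'}
  {fW : W →ₗ[R] W'} {fV : V →ₗ[R] V'}

/-- a linear map out of `V ⧸ L n` lifts to the base change -/
theorem IsBC.exists_lift_quot (hbc : IsBC ι L b ι' L' b' fW fV) (h : IsFilt R L b) {n : ℤ}
    (σ : (V ⧸ L n) →ₗ[R] W) :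
    ∃ σ' : (V' ⧸ L' n) →ₗ[R'] W', ∀ v : V, σ' ((L' n).mkQ (fV v)) = fW (σ ((L n).mkQ v)) := by
  classical
  have h' := hbc.isFilt h
  let σ' : (V' ⧸ L' n) →ₗ[R'] W' :=
    (h'.quotBasis n).constr R' fun j => fW (σ ((L n).mkQ (b j.1)))
  have hσ'b : ∀ j : {j : ℤ // n < j}, σ' ((L' n).mkQ (b' j.1)) = fW (σ ((L n).mkQ (b j.1))) := by
    intro j
    have := (h'.quotBasis n).constr_basis R' (fun j => fW (σ ((L n).mkQ (b j.1)))) j
    rwa [h'.quotBasis_apply] at this
  refine ⟨σ', fun v => ?_⟩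
  obtain ⟨g, hg, hgv⟩ := h.exists_sum n v
  have e1 : (L n).mkQ v = (L n).mkQ (g.sum fun j r => r • b j) := by
    rw [← sub_eq_zero, ← map_sub, mkQ_apply, Quotient.mk_eq_zero]
    exact hgv
  have e2 : (L' n).mkQ (fV v) = (L' n).mkQ (fV (g.sum fun j r => r • b j)) := by
    rw [← sub_eq_zero, ← map_sub, ← map_sub, mkQ_apply, Quotient.mk_eq_zero]
    exact hbc.map_mem_L hgv
  have e3 : fV (g.sum fun j r => r • b j) =
      ∑ j ∈ g.support, algebraMap R R' (g j) • b' j := by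
    rw [Finsupp.sum, map_sum]
    refine Finset.sum_congr rfl fun j _ => ?_
    rw [map_smul, hbc.map_b, algebraMap_smul]
  have e4 : (L n).mkQ (g.sum fun j r => r • b j) =
      ∑ j ∈ g.support, g j • (L n).mkQ (b j) := by
    rw [Finsupp.sum, map_sum]
    refine Finset.sum_congr rfl fun j _ => ?_
    rw [map_smul]
  rw [e1, e2, e3, e4, map_sum, map_sum, map_sum, map_sum]
  refine Finset.sum_congr rfl fun j hj => ?_
  rw [map_smul, map_smul, map_smul, map_smul, algebraMap_smul, hσ'b ⟨j, hg j hj⟩]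

/-- `H⁰ = 0` over `R` and `f H¹ = 0`: then `H⁰ = 0` after every base change which inverts `f` -/
theorem IsBC.H0_eq_bot_of_isUnit (hbc : IsBC ι L b ι' L' b' fW fV) (h : IsFilt R L b) {n : ℤ}
    (f : R) (hf : ∀ x : H1 ι L n, f • x = 0) (hu : IsUnit (algebraMap R R' f))
    (h0 : H0 ι L n = ⊥) : H0 ι' L' n = ⊥ := by
  obtain ⟨σ, hσ⟩ := exists_approx_section (ι := ι) h f hf
  obtain ⟨σ', hσ'⟩ := hbc.exists_lift_quot h σ
  -- `P' := f - σ' K'` vanishes on the image of `W`, hence everywhere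
  have hP : ∀ x ∈ span R' (Set.range fW),
      algebraMap R R' f • x - σ' (Kmap ι' L' n x) = 0 := by
    intro x hx
    induction hx using Submodule.span_induction with
    | mem x hx =>
      obtain ⟨w, rfl⟩ := hx
      have hw0 : f • w - σ (Kmap ι L n w) = 0 := by
        have hmem : f • w - σ (Kmap ι L n w) ∈ H0 ι L n := by
          rw [← ker_Kmap, LinearMap.mem_ker, map_sub, map_smul, hσ, sub_self]
        rw [h0, mem_bot] at hmem
        exact hmem
      have : algebraMap R R' f • fW w - σ' (Kmap ι' L' n (fW w)) =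
          fW (f • w - σ (Kmap ι L n w)) := by
        rw [Kmap_apply, ← hbc.comm, hσ', map_sub, map_smul, Kmap_apply, algebraMap_smul]
      rw [this, hw0, map_zero]
    | zero => simp
    | add x y _ _ hx hy =>
      have : algebraMap R R' f • (x + y) - σ' (Kmap ι' L' n (x + y)) =
          (algebraMap R R' f • x - σ' (Kmap ι' L' n x)) +
            (algebraMap R R' f • y - σ' (Kmap ι' L' n y)) := by
        rw [map_add, map_add, smul_add]; abel
      rw [this, hx, hy, add_zero]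
    | smul a x _ hx =>
      have : algebraMap R R' f • a • x - σ' (Kmap ι' L' n (a • x)) =
          a • (algebraMap R R' f • x - σ' (Kmap ι' L' n x)) := by
        rw [map_smul, map_smul, smul_sub, smul_comm]
      rw [this, hx, smul_zero]
  rw [eq_bot_iff]
  intro w' hw'
  have hw'span : w' ∈ span R' (Set.range fW) := by rw [hbc.span_range_fW]; trivial
  have hK : Kmap ι' L' n w' = 0 := by
    rw [← LinearMap.mem_ker, ker_Kmap]; exact hw'
  have h1 := hP w' hw'span
  rw [hK, map_zero, sub_zero] at h1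
  obtain ⟨u, hu⟩ := hu
  rw [mem_bot]
  have : w' = ((u⁻¹ : R'ˣ) : R') • (algebraMap R R' f • w') := by
    rw [smul_smul, ← hu, Units.inv_mul, one_smul]
  rw [this, h1, smul_zero]

/-- `K_n` is bijective after every base change which inverts `f` -/
theorem IsBC.bijective_of_isUnit (hbc : IsBC ι L b ι' L' b' fW fV) (h : IsFilt R L b) {n : ℤ}
    (f : R) (hf : ∀ x : H1 ι L n, f • x = 0) (hu : IsUnit (algebraMap R R' f))
    (h0 : H0 ι L n = ⊥) : Function.Bijective (Kmap ι' L' n) := by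
  refine ⟨?_, hbc.Kmap_surjective_of_isUnit f hu fun x => ⟨1, by rw [pow_one]; exact hf x⟩⟩
  rw [← LinearMap.ker_eq_bot, ker_Kmap]
  exact hbc.H0_eq_bot_of_isUnit h f hf hu h0

end BC

section Generic

variable {R : Type*} [CommRing R] {W V : Type*} [AddCommGroup W] [Module R W]
  [AddCommGroup V] [Module R V] {ι : W →ₗ[R] V} {L : ℤ → Submodule R V} {b : ℤ → V}

/-- over a domain, a fibre (at a field-valued point) with bijective `K_n` gives an `f`, non-zero at
that point, killing `H¹(M(ne))`, and `H⁰(M(ne)) = 0` -/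
theorem IsBC.exists_elt_of_fibre [IsDomain R] [Module.Projective R W]
    {𝕂 : Type*} [Field 𝕂] [Algebra R 𝕂]
    {W₀ V₀ : Type*} [AddCommGroup W₀] [Module R W₀] [Module 𝕂 W₀] [IsScalarTower R 𝕂 W₀]
    [AddCommGroup V₀] [Module R V₀] [Module 𝕂 V₀] [IsScalarTower R 𝕂 V₀]
    {ι₀ : W₀ →ₗ[𝕂] V₀} {L₀ : ℤ → Submodule 𝕂 V₀} {b₀ : ℤ → V₀}
    {fW₀ : W →ₗ[R] W₀} {fV₀ : V →ₗ[R] V₀} (hbc₀ : IsBC ι L b ι₀ L₀ b₀ fW₀ fV₀)
    (h : IsFilt R L b) {N : ℤ} (hN : LinearMap.range ι ⊔ L N = ⊤) {n : ℤ}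
    (hb₀ : Function.Bijective (Kmap ι₀ L₀ n)) :
    ∃ f : R, algebraMap R 𝕂 f ≠ 0 ∧ (∀ x : H1 ι L n, f • x = 0) ∧ H0 ι L n = ⊥ := by
  obtain ⟨f, hf0, hf⟩ := hbc₀.exists_smul_H1_eq_zero h hN hb₀.2
  refine ⟨f, hf0, hf, ?_⟩
  have hprime : (RingHom.ker (algebraMap R 𝕂)).IsPrime := RingHom.ker_isPrime _
  refine H0_eq_bot_of_isDomain h f hf (RingHom.ker (algebraMap R 𝕂)) hf0 ?_
  intro w hw
  have h1 : fW₀ w ∈ H0 ι₀ L₀ n := hbc₀.map_mem_H0 hw
  have h2 : H0 ι₀ L₀ n = ⊥ := by
    rw [← ker_Kmap]; exact LinearMap.ker_eq_bot.mpr hb₀.1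
  rw [h2, mem_bot] at h1
  exact mem_ker_smul_top_of_isBaseChange hbc₀.bcW h1

/-- **generisation**: over a domain, `K_n` bijective on one fibre implies `K_n` bijective over every
field containing `R` -/
theorem IsBC.bijective_generic [IsDomain R] [Module.Projective R W]
    {𝕂 : Type*} [Field 𝕂] [Algebra R 𝕂]
    {W₀ V₀ : Type*} [AddCommGroup W₀] [Module R W₀] [Module 𝕂 W₀] [IsScalarTower R 𝕂 W₀]
    [AddCommGroup V₀] [Module R V₀] [Module 𝕂 V₀] [IsScalarTower R 𝕂 V₀]
    {ι₀ : W₀ →ₗ[𝕂] V₀} {L₀ : ℤ → Submodule 𝕂 V₀} {b₀ : ℤ → V₀}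
    {fW₀ : W →ₗ[R] W₀} {fV₀ : V →ₗ[R] V₀} (hbc₀ : IsBC ι L b ι₀ L₀ b₀ fW₀ fV₀)
    {𝔽 : Type*} [Field 𝔽] [Algebra R 𝔽] (hinj : Function.Injective (algebraMap R 𝔽))
    {W₁ V₁ : Type*} [AddCommGroup W₁] [Module R W₁] [Module 𝔽 W₁] [IsScalarTower R 𝔽 W₁]
    [AddCommGroup V₁] [Module R V₁] [Module 𝔽 V₁] [IsScalarTower R 𝔽 V₁]
    {ι₁ : W₁ →ₗ[𝔽] V₁} {L₁ : ℤ → Submodule 𝔽 V₁} {b₁ : ℤ → V₁}
    {fW₁ : W →ₗ[R] W₁} {fV₁ : V →ₗ[R] V₁} (hbc₁ : IsBC ι L b ι₁ L₁ b₁ fW₁ fV₁)
    (h : IsFilt R L b) {N : ℤ} (hN : LinearMap.range ι ⊔ L N = ⊤) {n : ℤ}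
    (hb₀ : Function.Bijective (Kmap ι₀ L₀ n)) : Function.Bijective (Kmap ι₁ L₁ n) := by
  obtain ⟨f, hf0, hf, h0⟩ := hbc₀.exists_elt_of_fibre h hN hb₀
  have hfne : f ≠ 0 := by
    rintro rfl
    exact hf0 (map_zero _)
  have hu : IsUnit (algebraMap R 𝔽 f) :=
    isUnit_iff_ne_zero.mpr fun h1 => hfne (hinj (by rw [h1, map_zero]))
  exact hbc₁.bijective_of_isUnit h f hf hu h0

end Generic

end Fermat.Agent.S25lib.Krich
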