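/-
S25lib / Krich / LayerU  (helper3)  --  Project L (S25): **the uniqueness theorem (U)**.

`T` affine, `I`, `I'` points of the functor of ideals, `O(D_I) ≅ O(D_I')` (helper6's `Sec.ODI`) and
`O(D_I)` satisfies the Krichever condition.  Then `I = I'`: both ideals are contained in the
canonical ideal of `O(D_I)` (they are the ideals of global sections), which is a point of the
functor of ideals of the same colength.
-/
import Fermat.Agent.S25lib.Krich.LayerA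
import Fermat.Agent.S25lib.AffBC.IsoComplex

set_option autoImplicit false

noncomputable section

universe u

open AlgebraicGeometry CategoryTheory CategoryTheory.Limits TopologicalSpace TensorProduct
  AlgebraicGeometry.RelPicard NeronModelInfra

namespace Fermat.Agent.S25lib.Krich

open Fermat.Agent.S25lib.Mod (resO)
open Fermat.Agent.S26lib Fermat.Agent.S26lib.ProdAff Fermat.Agent.S26lib.P5a
open Fermat.Agent.S25lib.AffBC Fermat.Agent.S25lib.Sec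

section PtLe

variable {k : Type*} [CommRing k] {A : Type*} [CommRing A] [Algebra k A]
  {R : Type*} [CommRing R] [Algebra k R]

/-- two points of the functor of ideals of the same colength, one contained in the other, are
equal -/
theorem isPt_eq_of_le {g : ℕ} {I I' : Ideal (R ⊗[k] A)} (h : Hilb.IsPt g I) (h' : Hilb.IsPt g I')
    (hle : I ≤ I') : I = I' := by
  have := h.finite
  have := h.flat
  have := h'.finite
  have := h'.flat
  let F : ((R ⊗[k] A) ⧸ I) →ₗ[R] ((R ⊗[k] A) ⧸ I') := (Ideal.Quotient.factorₐ R hle).toLinearMap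
  have hsurj : Function.Surjective F := Ideal.Quotient.factor_surjective hle
  have hbij : Function.Bijective F :=
    Module.bijective_of_surjective_of_rankAtStalk_eq hsurj (fun p _ => by rw [h.rank, h'.rank])
  apply le_antisymm hle
  intro x hx
  have h0 : F (Ideal.Quotient.mk I x) = 0 := by
    show Ideal.Quotient.factor hle (Ideal.Quotient.mk I x) = 0
    rw [Ideal.Quotient.factor_mk]
    exact Ideal.Quotient.eq_zero_iff_mem.2 hx
  have h1 : Ideal.Quotient.mk I x = 0 := hbij.1 (h0.trans (map_zero F).symm)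
  exact Ideal.Quotient.eq_zero_iff_mem.1 h1

end PtLe

variable {k : Type u} [Field k] {C T : Scheme.{u}} {c : C ⟶ Spec (CommRingCat.of k)}
  {t : T ⟶ Spec (CommRingCat.of k)}

section Global

variable {U₁ U₂ : C.Opens} (z : Γ(C, U₂)) (h₁ : C.basicOpen z ≤ U₁) (N : (pullback c t).Modules)

/-- the restriction of a global section lies in `H⁰` of the complex -/
theorem res_top_mem_H0 (g : Γ(N, ⊤)) :
    (BoxSec.of (Mod.res N le_top g) : BoxSec N U₁ ⊤) ∈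
      H0 (BoxSec.res (N := N) (T' := ⊤) h₁) (bL (zUnit (c := c) (t := t) z ⊤) (kL0 N z ⊤)) 0 := by
  rw [mem_H0, bL_zero]
  refine ⟨BoxSec.of (Mod.res N le_top g), ?_⟩
  rw [BoxSec.res_apply, BoxSec.res_apply]
  simp only [BoxSec.val_of]
  rw [Mod.res_res, Mod.res_res]

end Global

section IsoBox

variable {N N' : (pullback c t).Modules} (e : N ≅ N')

/-- the sections over a box of isomorphic modules, as modules over the functions on the box -/
def isoEquivBox (U : C.Opens) (T' : T.Opens) :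
    BoxSec N U T' ≃ₗ[Γ(pullback c t, box c t U T')] BoxSec N' U T' :=
  { (BoxSec.isoEquiv e U T').toAddEquiv with
    map_smul' := fun a w => BoxSec.isoEquiv_smul_box e U T' a w }

theorem isoEquivBox_apply (U : C.Opens) (T' : T.Opens) (w : BoxSec N U T') :
    isoEquivBox e U T' w = BoxSec.of (e.hom.app (box c t U T') (BoxSec.val w)) := rfl

end IsoBox

section SD

variable {e : C} {Z : Curve.ZChart e} [IsAffine T]
  {J : Ideal Γ(pullback c t, box c t Z.U₁ ⊤)} (hinv : IsInvIdeal J) (F : Adm c t Z J)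

/-- the ideal is the ideal of the canonical section of `O(D_J)` -/
theorem eq_secIdeal_sD
    [Module.Invertible Γ(pullback c t, box c t Z.U₁ ⊤) (BoxSec (ODf hinv F) Z.U₁ ⊤)] :
    J = secIdeal Γ(pullback c t, box c t Z.U₁ ⊤)
      (BoxSec.of (Mod.res (ODf hinv F) le_top (ODf.sD hinv F)) : BoxSec (ODf hinv F) Z.U₁ ⊤) := by
  ext a
  rw [ODf.mem_iff hinv F a, mem_secIdeal_iff]
  refine forall_congr' fun w => ?_
  rw [Submodule.mem_span_singleton]
  constructor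
  · rintro ⟨b, hb⟩
    exact ⟨b, hb.symm⟩
  · rintro ⟨b, hb⟩
    exact ⟨b, hb.symm⟩

end SD

section Main

variable [IsAffine T] (ε : Prod.KPt c) (Z : Curve.ZChart ε.pt)
  [Algebra k Γ(C, Z.U₁)] (hA : algebraMap k Γ(C, Z.U₁) = (constHomOpen c Z.U₁).hom)
  [Algebra k Γ(T, ⊤)] (hR : algebraMap k Γ(T, ⊤) = (constHomOpen t ⊤).hom)

/-- **(U)**, for ideals of the functions on `U₁ × T` -/
theorem eq_of_iso_ODf_of_KB {γ : ℕ} {J J' : Ideal Γ(pullback c t, box c t Z.U₁ ⊤)}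
    (hinv : IsInvIdeal J) (hinv' : IsInvIdeal J') (F : Adm c t Z J) (F' : Adm c t Z J')
    (hpt : Hilb.IsPt γ (J.comap ((boxEquivA c t Z hA hR :
      (Γ(T, ⊤) ⊗[k] Γ(C, Z.U₁)) ≃ₐ[Γ(T, ⊤)] _) :
        (Γ(T, ⊤) ⊗[k] Γ(C, Z.U₁)) →+* Γ(pullback c t, box c t Z.U₁ ⊤))))
    (hpt' : Hilb.IsPt γ (J'.comap ((boxEquivA c t Z hA hR :
      (Γ(T, ⊤) ⊗[k] Γ(C, Z.U₁)) ≃ₐ[Γ(T, ⊤)] _) :
        (Γ(T, ⊤) ⊗[k] Γ(C, Z.U₁)) →+* Γ(pullback c t, box c t Z.U₁ ⊤))))
    (hzreg : IsSMulRegular Γ(C, Z.U₂) Z.z)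
    (hR1 : ∀ (M : (pullback c t).Modules), Scheme.Modules.IsInvertible M → ∀ U : C.Opens,
      IsAffineOpen U → Module.Invertible Γ(pullback c t, box c t U ⊤) Γ(M, box c t U ⊤))
    (hO : IsOData (kB' (c := c) (t := t) Z.z ⊤) (zUnit Z.z ⊤))
    [Module.Free Γ(T, ⊤) (H1 (boxRes (c := c) (t := t) (zChart_le₁ Z) ⊤).toLinearMap
      (LO (kB' (c := c) (t := t) Z.z ⊤) (zUnit Z.z ⊤)) (-1))]
    [Module.Finite Γ(T, ⊤) (H1 (boxRes (c := c) (t := t) (zChart_le₁ Z) ⊤).toLinearMap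
      (LO (kB' (c := c) (t := t) Z.z ⊤) (zUnit Z.z ⊤)) (-1))]
    (hγ : Nontrivial Γ(T, ⊤) →
      Module.finrank Γ(T, ⊤) (H1 (boxRes (c := c) (t := t) (zChart_le₁ Z) ⊤).toLinearMap
        (LO (kB' (c := c) (t := t) Z.z ⊤) (zUnit Z.z ⊤)) (-1)) = γ)
    (hKB : Hub.KB Z t (ODf hinv F)) (e : ODf hinv F ≅ ODf hinv' F') : J = J' := by
  classical
  have hT : IsAffineOpen (⊤ : T.Opens) := isAffineOpen_top T
  have hNinv := ODf.isInvertible hinv F
  have hNinv' := ODf.isInvertible hinv' F'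
  obtain ⟨ρ⟩ := ODf.rigidified hinv F (kPt_apply ε)
  obtain ⟨σ₀, hev⟩ := exists_sigma_zChart ε Z (ODf hinv F) ρ hNinv hT
  have hB := isBuild_zChart ε Z (ODf hinv F) ρ hNinv hT hzreg σ₀ hev
  have h := hB.isFilt
  have hS := hB.isSFilt
  have hK := (hub_KB_iff Z (ODf hinv F) hNinv hzreg).mp hKB
  have : Module.Invertible Γ(pullback c t, box c t Z.U₁ ⊤) (BoxSec (ODf hinv F) Z.U₁ ⊤) :=
    hR1 _ hNinv Z.U₁ Z.isAffineOpen₁
  have : Module.Invertible Γ(pullback c t, box c t Z.U₁ ⊤) (BoxSec (ODf hinv' F') Z.U₁ ⊤) :=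
    hR1 _ hNinv' Z.U₁ Z.isAffineOpen₁
  have hι : ∀ (x : Γ(pullback c t, box c t Z.U₁ ⊤)) (w : BoxSec (ODf hinv F) Z.U₁ ⊤),
      BoxSec.res (zChart_le₁ Z) (x • w) =
        boxRes (zChart_le₁ Z) ⊤ x • BoxSec.res (zChart_le₁ Z) w :=
    fun x w => BoxSec.res_smul_box _ x w
  have hptcan := hK.isPt_canonIdeal (boxEquivA c t Z hA hR) (boxRes (zChart_le₁ Z) ⊤) h hO hS hι hγ
  -- the two ideals are ideals of global sections
  have hJ := eq_secIdeal_sD hinv F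
  have hJ' := eq_secIdeal_sD hinv' F'
  have hg' : (BoxSec.of (Mod.res (ODf hinv F) le_top (e.inv.app ⊤ (ODf.sD hinv' F'))) :
      BoxSec (ODf hinv F) Z.U₁ ⊤) =
      isoEquivBox e.symm Z.U₁ ⊤
        (BoxSec.of (Mod.res (ODf hinv' F') le_top (ODf.sD hinv' F'))) :=
    (Mod.app_res e.inv (le_top : box c t Z.U₁ ⊤ ≤ ⊤) (ODf.sD hinv' F')).symm
  have hJ'2 : J' = secIdeal Γ(pullback c t, box c t Z.U₁ ⊤)
      (BoxSec.of (Mod.res (ODf hinv F) le_top (e.inv.app ⊤ (ODf.sD hinv' F'))) :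
        BoxSec (ODf hinv F) Z.U₁ ⊤) := by
    rw [hg', secIdeal_map_equiv]
    exact hJ'
  have hle : J ≤ canonIdeal Γ(pullback c t, box c t Z.U₁ ⊤)
      (BoxSec.res (N := ODf hinv F) (T' := ⊤) (zChart_le₁ Z))
      (bL (zUnit (c := c) (t := t) Z.z ⊤) (kL0 (ODf hinv F) Z.z ⊤)) := by
    exact hJ.le.trans (secIdeal_le_canonIdeal (res_top_mem_H0 Z.z (zChart_le₁ Z) _ _))
  have hle' : J' ≤ canonIdeal Γ(pullback c t, box c t Z.U₁ ⊤)
      (BoxSec.res (N := ODf hinv F) (T' := ⊤) (zChart_le₁ Z))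
      (bL (zUnit (c := c) (t := t) Z.z ⊤) (kL0 (ODf hinv F) Z.z ⊤)) := by
    exact hJ'2.le.trans (secIdeal_le_canonIdeal (res_top_mem_H0 Z.z (zChart_le₁ Z) _ _))
  have h1 := isPt_eq_of_le hpt hptcan (Ideal.comap_mono hle)
  have h2 := isPt_eq_of_le hpt' hptcan (Ideal.comap_mono hle')
  exact Ideal.comap_injective_of_surjective _ (boxEquivA c t Z hA hR).surjective (h1.trans h2.symm)

variable (a : Γ(C, Z.U₁)) (ainv : Γ(C, Z.U₂))
  (hmul : resO (inf_le_left : Z.U₁ ⊓ Z.U₂ ≤ Z.U₁) a *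
    resO (inf_le_right : Z.U₁ ⊓ Z.U₂ ≤ Z.U₂) ainv = 1)
  (hz : ainv ∈ Ideal.span {Z.z})

/-- **(U) the uniqueness theorem**: `O(D_I) ≅ O(D_I')` and the Krichever condition for `O(D_I)`
imply `I = I'` -/
theorem eq_of_iso_ODI_of_KB {γ : ℕ} (I I' : Ideal (Γ(T, ⊤) ⊗[k] Γ(C, Z.U₁)))
    (hpt : Hilb.IsPt γ I) (hpt' : Hilb.IsPt γ I') (hinv : IsInvIdeal I) (hinv' : IsInvIdeal I')
    [Module.Finite Γ(T, ⊤) ((Γ(T, ⊤) ⊗[k] Γ(C, Z.U₁)) ⧸ I)]
    [Module.Finite Γ(T, ⊤) ((Γ(T, ⊤) ⊗[k] Γ(C, Z.U₁)) ⧸ I')]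
    (hzreg : IsSMulRegular Γ(C, Z.U₂) Z.z)
    (hR1 : ∀ (M : (pullback c t).Modules), Scheme.Modules.IsInvertible M → ∀ U : C.Opens,
      IsAffineOpen U → Module.Invertible Γ(pullback c t, box c t U ⊤) Γ(M, box c t U ⊤))
    (hO : IsOData (kB' (c := c) (t := t) Z.z ⊤) (zUnit Z.z ⊤))
    [Module.Free Γ(T, ⊤) (H1 (boxRes (c := c) (t := t) (zChart_le₁ Z) ⊤).toLinearMap
      (LO (kB' (c := c) (t := t) Z.z ⊤) (zUnit Z.z ⊤)) (-1))]
    [Module.Finite Γ(T, ⊤) (H1 (boxRes (c := c) (t := t) (zChart_le₁ Z) ⊤).toLinearMap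
      (LO (kB' (c := c) (t := t) Z.z ⊤) (zUnit Z.z ⊤)) (-1))]
    (hγ : Nontrivial Γ(T, ⊤) →
      Module.finrank Γ(T, ⊤) (H1 (boxRes (c := c) (t := t) (zChart_le₁ Z) ⊤).toLinearMap
        (LO (kB' (c := c) (t := t) Z.z ⊤) (zUnit Z.z ⊤)) (-1)) = γ)
    (hKB : Hub.KB Z t (ODI c t Z hA hR a ainv hmul hz ε (kPt_apply ε) I hinv).L)
    (e : (ODI c t Z hA hR a ainv hmul hz ε (kPt_apply ε) I hinv).L ≅
      (ODI c t Z hA hR a ainv hmul hz ε (kPt_apply ε) I' hinv').L) : I = I' := by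
  apply boxIdeal_injective hA hR
  have hc : ∀ I₀ : Ideal (Γ(T, ⊤) ⊗[k] Γ(C, Z.U₁)),
      (boxIdeal c t Z hA hR I₀).comap ((boxEquivA c t Z hA hR :
        (Γ(T, ⊤) ⊗[k] Γ(C, Z.U₁)) ≃ₐ[Γ(T, ⊤)] _) :
          (Γ(T, ⊤) ⊗[k] Γ(C, Z.U₁)) →+* Γ(pullback c t, box c t Z.U₁ ⊤)) = I₀ :=
    fun I₀ => Ideal.comap_map_of_bijective _ (boxEquivA c t Z hA hR).bijective
  exact eq_of_iso_ODf_of_KB ε Z hA hR (isInvIdeal_boxIdeal hA hR hinv)
    (isInvIdeal_boxIdeal hA hR hinv') (ODI.adm hA hR a ainv hmul hz I)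
    (ODI.adm hA hR a ainv hmul hz I') (by rw [hc]; exact hpt) (by rw [hc]; exact hpt')
    hzreg hR1 hO hγ hKB e

end Main

end Fermat.Agent.S25lib.Krich
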