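/-
S25lib / Krich / LayerCore  (helper3)  --  Project L (S25): the inputs `hrecog` (A) and `hinj` (U)
of helper7's `Hub.s25Statement_of_core`, in the exact shapes of `Hub/Top2`, from
`Krich/LayerA`, `Krich/LayerU`.  The facts on the complex of `O` over an affine base (`IsOData` and
"`H¹(O(-e))` is free of rank `γ`") enter through the hypothesis `OHyp`.
-/
import Fermat.Agent.S25lib.Krich.LayerU
import Fermat.Agent.S25lib.Hub.CoreInst
import Fermat.Agent.S25lib.Ideal.SecInv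

set_option autoImplicit false

noncomputable section

universe u

open AlgebraicGeometry CategoryTheory CategoryTheory.Limits TopologicalSpace TensorProduct
  AlgebraicGeometry.RelPicard NeronModelInfra GoodReductionJacobian

namespace Fermat.Agent.S25lib.Krich

open Fermat.Agent.S26lib Fermat.Agent.S26lib.ProdAff Fermat.Agent.S26lib.P5a
open Fermat.Agent.S25lib.AffBC Fermat.Agent.S25lib.Sec

variable {k : Type u} [Field k] [IsAlgClosed k] {C : Scheme.{u}}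
  (c : C ⟶ Spec (CommRingCat.of k)) [IsProper c] [SmoothOfRelativeDimension 1 c] [IsIntegral C]
  (ε : Prod.KPt c) (T₀ : Curve.PointChart' c ε.pt)

/-- **the facts on the complex of `O`** over affine bases: bricks (OD1) and (OD2) -/
def OHyp (γ : ℕ) : Prop :=
  ∀ {T : Scheme.{u}} (_ : IsAffine T) (t : T ⟶ Spec (CommRingCat.of k)),
    IsOData (kB' (c := c) (t := t) T₀.toZChart.z ⊤) (zUnit T₀.toZChart.z ⊤) ∧
    Module.Free Γ(T, ⊤) (H1 (boxRes (c := c) (t := t) (zChart_le₁ T₀.toZChart) ⊤).toLinearMap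
      (LO (kB' (c := c) (t := t) T₀.toZChart.z ⊤) (zUnit T₀.toZChart.z ⊤)) (-1)) ∧
    Module.Finite Γ(T, ⊤) (H1 (boxRes (c := c) (t := t) (zChart_le₁ T₀.toZChart) ⊤).toLinearMap
      (LO (kB' (c := c) (t := t) T₀.toZChart.z ⊤) (zUnit T₀.toZChart.z ⊤)) (-1)) ∧
    (Nontrivial Γ(T, ⊤) →
      Module.finrank Γ(T, ⊤) (H1 (boxRes (c := c) (t := t) (zChart_le₁ T₀.toZChart) ⊤).toLinearMap
        (LO (kB' (c := c) (t := t) T₀.toZChart.z ⊤) (zUnit T₀.toZChart.z ⊤)) (-1)) = γ)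

variable {γ : ℕ}

/-- **(A)**, in the shape of `Hub.s25Statement_of_core` -/
theorem hrecog (hOH : OHyp c ε T₀ γ) {T : Scheme.{u}} (hT : IsAffine T)
    (t : T ⟶ Spec (CommRingCat.of k)) (N : RLB c ε t) (hKB : Hub.KB T₀.toZChart t N.L) :
    ∃ I : Hub.HPt c T₀.toPointChart γ t, RLB.Iso N (Hub.odi c ε T₀ hT t I) := by
  let _ : Algebra k Γ(C, T₀.toZChart.U₁) := Hub.algOpen c T₀.U₁
  let _ := Hub.algTop t
  have : Algebra.FiniteType k Γ(C, T₀.toZChart.U₁) := Hub.finiteType_algOpen c T₀.toPointChart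
  obtain ⟨hO, hfree, hfinite, hrank⟩ := hOH hT t
  have hzreg : IsSMulRegular Γ(C, T₀.toZChart.U₂) T₀.toZChart.z :=
    ZAdapt.regular ε T₀.toZChart (T₀.toPointChart.z_ne_zero c ε)
  have hAfin : ¬ Module.Finite k Γ(C, T₀.toZChart.U₁) := T₀.toPointChart.not_finite₁ c
  have hD : ∀ (K : Type u) [Field K] [Algebra k K], IsDedekindDomain (K ⊗[k] Γ(C, T₀.toZChart.U₁)) :=
    fun K _ _ => T₀.toPointChart.isDedekindDomain_tensor₁ c ε K
  obtain ⟨I, hpt, hinv, hfin, ⟨e⟩⟩ := exists_iso_ODI_of_KB (hR := rfl) ε T₀.toZChart rfl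
    T₀.a T₀.ainv T₀.mul_ainv T₀.ainv_mem N hzreg hAfin hD
    (fun U hU => Ideal.invertible_sections N.L N.isInvertible
      (isAffineOpen_box' c t hU (isAffineOpen_top T))) hO hrank hKB
  exact ⟨⟨I, hpt⟩, ⟨e⟩⟩

/-- **(U)**, in the shape of `Hub.s25Statement_of_core` -/
theorem hinj (hOH : OHyp c ε T₀ γ) {T : Scheme.{u}} (hT : IsAffine T)
    (t : T ⟶ Spec (CommRingCat.of k)) (I I' : Hub.HPt c T₀.toPointChart γ t)
    (hKB : Hub.KB T₀.toZChart t (Hub.odi c ε T₀ hT t I).L)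
    (hiso : RLB.Iso (Hub.odi c ε T₀ hT t I) (Hub.odi c ε T₀ hT t I')) : I = I' := by
  let _ : Algebra k Γ(C, T₀.toZChart.U₁) := Hub.algOpen c T₀.U₁
  let _ := Hub.algTop t
  obtain ⟨hO, hfree, hfinite, hrank⟩ := hOH hT t
  obtain ⟨e⟩ := hiso
  have hzreg : IsSMulRegular Γ(C, T₀.toZChart.U₂) T₀.toZChart.z :=
    ZAdapt.regular ε T₀.toZChart (T₀.toPointChart.z_ne_zero c ε)
  obtain ⟨I, hI⟩ := I
  obtain ⟨I', hI'⟩ := I'
  let _ : Algebra k Γ(C, T₀.U₁) := Hub.algOpen c T₀.U₁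
  have hfin : Module.Finite Γ(T, ⊤) ((Γ(T, ⊤) ⊗[k] Γ(C, T₀.toZChart.U₁)) ⧸
      (I : Ideal (Γ(T, ⊤) ⊗[k] Γ(C, T₀.toZChart.U₁)))) := hI.finite
  have hfin' : Module.Finite Γ(T, ⊤) ((Γ(T, ⊤) ⊗[k] Γ(C, T₀.toZChart.U₁)) ⧸
      (I' : Ideal (Γ(T, ⊤) ⊗[k] Γ(C, T₀.toZChart.U₁)))) := hI'.finite
  apply Subtype.ext
  have key := @eq_of_iso_ODI_of_KB k _ C T c t hT ε T₀.toZChart _ rfl _ rfl T₀.a T₀.ainv T₀.mul_ainv T₀.ainv_mem γ
    I I' hI hI' (Hub.isInvIdeal_of_hPt c ε T₀ t ⟨I, hI⟩) (Hub.isInvIdeal_of_hPt c ε T₀ t ⟨I', hI'⟩)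
    hfin hfin' hzreg (fun M hM U hU => Ideal.invertible_sections M hM
      (isAffineOpen_box' c t hU (isAffineOpen_top T))) hO hfree hfinite hrank hKB e
  exact key

end Fermat.Agent.S25lib.Krich
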