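/-
S25lib / Krich / LayerFinal  (helper3)  --  Project L (S25): **the inputs `hrecog` (A) and `hinj` (U)
of `Hub.s25Statement_of_core`, unconditionally** (for a curve of genus `γ`):
`OHyp` is discharged by helper4's `AffBC.isOData_zChart` (OD1) and helper1's `Ideal.h1O_*` (OD2).
-/
import Fermat.Agent.S25lib.Krich.LayerCore
import Fermat.Agent.S25lib.AffBC.OData
import Fermat.Agent.S25lib.Ideal.H1O
import Fermat.Agent.S25lib.Polar.GenusC

set_option autoImplicit false

noncomputable section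

universe u

open AlgebraicGeometry CategoryTheory CategoryTheory.Limits TopologicalSpace TensorProduct
  AlgebraicGeometry.RelPicard NeronModelInfra GoodReductionJacobian

namespace Fermat.Agent.S25lib.Krich

open Fermat.Agent.S26lib Fermat.Agent.S26lib.ProdAff Fermat.Agent.S26lib.P5a
open Fermat.Agent.S25lib.AffBC Fermat.Agent.S25lib.Sec
open Fermat.Agent.S18lib Fermat.Agent.S26lib.Weil Fermat.Agent.S26lib.Aff

variable {k : Type u} [Field k] [IsAlgClosed k] {C : Scheme.{u}}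
  (c : C ⟶ Spec (CommRingCat.of k)) [IsProper c] [SmoothOfRelativeDimension 1 c] [IsIntegral C]
  (ε : Prod.KPt c) (T₀ : Curve.PointChart' c ε.pt) {γ : ℕ}

/-- **the facts on the complex of `O`** (OD1) + (OD2) -/
theorem oHyp (hF : letI := kAlgebraFF c; IsCurveOfGenus k C.functionField γ) :
    OHyp c ε T₀ γ := by
  intro T hT t
  have hzreg : IsSMulRegular Γ(C, T₀.toZChart.U₂) T₀.toZChart.z :=
    ZAdapt.regular ε T₀.toZChart (T₀.toPointChart.z_ne_zero c ε)
  have hT' : IsAffineOpen (⊤ : T.Opens) := isAffineOpen_top T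
  refine ⟨isOData_zChart ε T₀.toZChart hT' hzreg,
    Ideal.h1O_free c t ε T₀.toPointChart hF hT',
    Ideal.h1O_finite c t ε T₀.toPointChart hF hT', fun _ => ?_⟩
  exact Ideal.h1O_finrank c t ε T₀.toPointChart hF hT'

/-- **(A)** -/
theorem hrecog_of_genus (hF : letI := kAlgebraFF c; IsCurveOfGenus k C.functionField γ)
    {T : Scheme.{u}} (hT : IsAffine T)
    (t : T ⟶ Spec (CommRingCat.of k)) (N : RLB c ε t) (hKB : Hub.KB T₀.toZChart t N.L) :
    ∃ I : Hub.HPt c T₀.toPointChart γ t, RLB.Iso N (Hub.odi c ε T₀ hT t I) :=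
  hrecog c ε T₀ (oHyp c ε T₀ hF) hT t N hKB

/-- **(U)** -/
theorem hinj_of_genus (hF : letI := kAlgebraFF c; IsCurveOfGenus k C.functionField γ)
    {T : Scheme.{u}} (hT : IsAffine T)
    (t : T ⟶ Spec (CommRingCat.of k)) (I I' : Hub.HPt c T₀.toPointChart γ t)
    (hKB : Hub.KB T₀.toZChart t (Hub.odi c ε T₀ hT t I).L)
    (hiso : RLB.Iso (Hub.odi c ε T₀ hT t I) (Hub.odi c ε T₀ hT t I')) : I = I' :=
  hinj c ε T₀ (oHyp c ε T₀ hF) hT t I I' hKB hiso

/-- **(A)**, from `UniformGenus` (the `hrecog` of `Hub.s25Statement_of_AU_mem`) -/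
theorem hrecog_of_uniformGenus (hγ : Polar.UniformGenus c γ)
    {T : Scheme.{u}} (hT : IsAffine T)
    (t : T ⟶ Spec (CommRingCat.of k)) (N : RLB c ε t) (hKB : Hub.KB T₀.toZChart t N.L) :
    ∃ I : Hub.HPt c T₀.toPointChart γ t, RLB.Iso N (Hub.odi c ε T₀ hT t I) :=
  hrecog_of_genus c ε T₀ (Polar.isCurveOfGenus_of_uniformGenus c hγ) hT t N hKB

/-- **(U)**, from `UniformGenus` (the `hinj` of `Hub.s25Statement_of_AU_mem`) -/
theorem hinj_of_uniformGenus (hγ : Polar.UniformGenus c γ)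
    {T : Scheme.{u}} (hT : IsAffine T)
    (t : T ⟶ Spec (CommRingCat.of k)) (I I' : Hub.HPt c T₀.toPointChart γ t)
    (hKB : Hub.KB T₀.toZChart t (Hub.odi c ε T₀ hT t I).L)
    (hiso : RLB.Iso (Hub.odi c ε T₀ hT t I) (Hub.odi c ε T₀ hT t I')) : I = I' :=
  hinj_of_genus c ε T₀ (Polar.isCurveOfGenus_of_uniformGenus c hγ) hT t I I' hKB hiso

end Fermat.Agent.S25lib.Krich
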