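/-
S25lib / Krich / DictA  (helper3)  --  Project L (S25), block (ii) "the dictionary", pure algebra.
`S` a commutative ring, `W` an invertible `S`-module, `s : W` a section.
* (D1) `secIdeal S s : Ideal S` = the image of `φ ↦ φ s : W^∨ → S`
       = `{a | ∀ w, a • w ∈ S ∙ s}` = `ann (W ⧸ S ∙ s)`; `secIdeal S s • ⊤ = S ∙ s`.
* (D2) if `a ↦ a • s` is injective: `W^∨ ≃ secIdeal S s`, `W ≃ (secIdeal S s)^∨`, `s ↦` inclusion.
* (D4) base change: `secIdeal W' (f s) = (secIdeal S s).map (algebraMap S S')` for `IsBaseChange S' f`.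
* (D6) two regular pairs with the same ideal are uniquely isomorphic.
Imports Mathlib only.
-/
import Mathlib

set_option autoImplicit false

noncomputable section

namespace Fermat.Agent.S25lib.Krich

open TensorProduct

universe u v w

section Basic

variable (S : Type u) [CommRing S] {W : Type v} [AddCommGroup W] [Module S W]

/-- **(D1)** the ideal of the section `s` of `W`: all values `φ s`, `φ ∈ W^∨`. -/
def secIdeal (s : W) : Ideal S := LinearMap.range (Module.Dual.eval S W s)

variable {S}

theorem mem_secIdeal {s : W} {a : S} : a ∈ secIdeal S s ↔ ∃ φ : Module.Dual S W, φ s = a := by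
  unfold secIdeal
  rw [LinearMap.mem_range]
  rfl

theorem apply_mem_secIdeal (s : W) (φ : Module.Dual S W) : φ s ∈ secIdeal S s :=
  mem_secIdeal.2 ⟨φ, rfl⟩

theorem secIdeal_map_equiv {W' : Type w} [AddCommGroup W'] [Module S W'] (e : W ≃ₗ[S] W') (s : W) :
    secIdeal S (e s) = secIdeal S s := by
  ext a
  rw [mem_secIdeal, mem_secIdeal]
  constructor
  · rintro ⟨φ, rfl⟩
    exact ⟨φ.comp e.toLinearMap, rfl⟩
  · rintro ⟨φ, rfl⟩
    exact ⟨φ.comp e.symm.toLinearMap, by simp⟩

theorem secIdeal_self (a : S) : secIdeal S a = Ideal.span {a} := by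
  ext b
  rw [mem_secIdeal, Ideal.mem_span_singleton']
  constructor
  · rintro ⟨φ, rfl⟩
    exact ⟨φ 1, by rw [mul_comm, ← smul_eq_mul, ← map_smul, smul_eq_mul, mul_one]⟩
  · rintro ⟨c, rfl⟩
    exact ⟨LinearMap.mulLeft S c, by simp⟩

end Basic

section Inv

variable {S : Type u} [CommRing S] {W : Type v} [AddCommGroup W] [Module S W]
  [Module.Invertible S W]

/-- in an invertible module, `φ x • y = φ y • x` -/
theorem dual_smul_comm (φ : Module.Dual S W) (x y : W) : φ x • y = φ y • x := by
  have h := congrArg (TensorProduct.lift ((LinearMap.lsmul S W).comp φ))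
    (Module.Invertible.tmul_comm (R := S) (m₁ := x) (m₂ := y))
  simpa using h

variable (S W) in
/-- a finite "partition of unity" `1 = ∑ φ_i (w_i)` -/
theorem exists_sum_dual_eq_one :
    ∃ T : Finset (Module.Dual S W × W), ∑ i ∈ T, i.1 i.2 = 1 := by
  obtain ⟨T, hT⟩ := ((Module.Invertible.linearEquiv S W).symm 1).exists_finset
  refine ⟨T, ?_⟩
  have := congrArg (Module.Invertible.linearEquiv S W) hT
  simpa [Module.Invertible.linearEquiv] using this.symm

/-- **(D1)** `a ∈ secIdeal S s ↔ a • W ⊆ S ∙ s` -/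
theorem mem_secIdeal_iff {s : W} {a : S} :
    a ∈ secIdeal S s ↔ ∀ w : W, a • w ∈ Submodule.span S {s} := by
  constructor
  · rintro ⟨φ, rfl⟩ w
    change φ s • w ∈ _
    rw [dual_smul_comm]
    exact Submodule.smul_mem _ _ (Submodule.mem_span_singleton_self s)
  · intro h
    obtain ⟨T, hT⟩ := exists_sum_dual_eq_one S W
    choose c hc using fun w => Submodule.mem_span_singleton.1 (h w)
    refine mem_secIdeal.2 ⟨∑ i ∈ T, c i.2 • i.1, ?_⟩
    calc (∑ i ∈ T, c i.2 • i.1) s = ∑ i ∈ T, i.1 (c i.2 • s) := by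
          simp [LinearMap.sum_apply]
      _ = ∑ i ∈ T, i.1 (a • i.2) := by simp_rw [hc]
      _ = a * ∑ i ∈ T, i.1 i.2 := by simp [Finset.mul_sum]
      _ = a := by rw [hT, mul_one]

/-- **(D1)** `secIdeal S s • W = S ∙ s` -/
theorem secIdeal_smul_top (s : W) :
    secIdeal S s • (⊤ : Submodule S W) = Submodule.span S {s} := by
  apply le_antisymm
  · rw [Submodule.smul_le]
    intro a ha w _
    exact mem_secIdeal_iff.1 ha w
  · rw [Submodule.span_singleton_le_iff_mem]
    obtain ⟨T, hT⟩ := exists_sum_dual_eq_one S W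
    have : s = ∑ i ∈ T, i.1 s • i.2 := by
      calc s = (∑ i ∈ T, i.1 i.2) • s := by rw [hT, one_smul]
        _ = ∑ i ∈ T, i.1 i.2 • s := Finset.sum_smul
        _ = ∑ i ∈ T, i.1 s • i.2 := Finset.sum_congr rfl fun i _ => dual_smul_comm _ _ _
    have h2 : ∑ i ∈ T, i.1 s • i.2 ∈ secIdeal S s • (⊤ : Submodule S W) :=
      Submodule.sum_mem _ fun i _ =>
        Submodule.smul_mem_smul (apply_mem_secIdeal s i.1) Submodule.mem_top
    rwa [← this] at h2

/-- **(D1)** `secIdeal S s = ann (W ⧸ S ∙ s)` -/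
theorem secIdeal_eq_annihilator (s : W) :
    secIdeal S s = Module.annihilator S (W ⧸ Submodule.span S {s}) := by
  ext a
  rw [mem_secIdeal_iff, Module.mem_annihilator]
  constructor
  · intro h q
    obtain ⟨w, rfl⟩ := Submodule.Quotient.mk_surjective _ q
    rw [← Submodule.Quotient.mk_smul, Submodule.Quotient.mk_eq_zero]
    exact h w
  · intro h w
    rw [← Submodule.Quotient.mk_eq_zero, Submodule.Quotient.mk_smul]
    exact h _

theorem secIdeal_eq_top_iff (s : W) : secIdeal S s = ⊤ ↔ Submodule.span S {s} = ⊤ := by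
  rw [Ideal.eq_top_iff_one, mem_secIdeal_iff]
  constructor
  · intro h
    rw [eq_top_iff]
    intro w _
    simpa using h w
  · intro h w
    rw [h]
    exact Submodule.mem_top

theorem eq_sum_apply_smul {T : Finset (Module.Dual S W × W)} (hT : ∑ i ∈ T, i.1 i.2 = 1) (s : W) :
    s = ∑ i ∈ T, i.1 s • i.2 :=
  calc s = (∑ i ∈ T, i.1 i.2) • s := by rw [hT, one_smul]
    _ = ∑ i ∈ T, i.1 i.2 • s := Finset.sum_smul
    _ = ∑ i ∈ T, i.1 s • i.2 := Finset.sum_congr rfl fun i _ => dual_smul_comm _ _ _

/-! ### (D2) regular sections -/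

theorem eval_injective {s : W} (hs : Function.Injective fun a : S => a • s) :
    Function.Injective (Module.Dual.eval S W s) := by
  rw [injective_iff_map_eq_zero]
  intro φ hφ
  have hφ' : φ s = 0 := hφ
  ext w
  apply hs
  change φ w • s = (0 : Module.Dual S W) w • s
  rw [dual_smul_comm, hφ', zero_smul, LinearMap.zero_apply, zero_smul]

/-- **(D2)** for a regular section, `W^∨ ≃ secIdeal S s`, `φ ↦ φ s` -/
def dualEquivSecIdeal {s : W} (hs : Function.Injective fun a : S => a • s) :
    Module.Dual S W ≃ₗ[S] secIdeal S s :=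
  LinearEquiv.ofInjective (Module.Dual.eval S W s) (eval_injective hs)

@[simp]
theorem dualEquivSecIdeal_apply {s : W} (hs : Function.Injective fun a : S => a • s)
    (φ : Module.Dual S W) : (dualEquivSecIdeal hs φ : S) = φ s := rfl

/-- **(D2)** for a regular section, `W ≃ (secIdeal S s)^∨` -/
def equivDualSecIdeal {s : W} (hs : Function.Injective fun a : S => a • s) :
    W ≃ₗ[S] Module.Dual S (secIdeal S s) :=
  (Module.evalEquiv S W) ≪≫ₗ (dualEquivSecIdeal hs).symm.dualMap

theorem equivDualSecIdeal_apply {s : W} (hs : Function.Injective fun a : S => a • s) (w : W)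
    (φ : Module.Dual S W) :
    equivDualSecIdeal hs w ⟨φ s, apply_mem_secIdeal s φ⟩ = φ w := by
  have h : (dualEquivSecIdeal hs).symm ⟨φ s, apply_mem_secIdeal s φ⟩ = φ := by
    rw [LinearEquiv.symm_apply_eq]
    rfl
  simp [equivDualSecIdeal, LinearEquiv.dualMap_apply, h]

/-- **(D2)** under `W ≃ (secIdeal S s)^∨` the section `s` is the inclusion `secIdeal S s ⊆ S` -/
theorem equivDualSecIdeal_self {s : W} (hs : Function.Injective fun a : S => a • s) :
    equivDualSecIdeal hs s = Submodule.subtype (secIdeal S s) := by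
  ext ⟨a, ha⟩
  obtain ⟨φ, rfl⟩ := mem_secIdeal.1 ha
  rw [equivDualSecIdeal_apply]
  rfl

/-! ### (D4) base change -/

/-- **(D4)** the ideal of a section commutes with base change -/
theorem secIdeal_baseChange {S' : Type w} [CommRing S'] [Algebra S S'] {W' : Type*}
    [AddCommGroup W'] [Module S W'] [Module S' W'] [IsScalarTower S S' W'] {f : W →ₗ[S] W'}
    (hf : IsBaseChange S' f) (s : W) :
    secIdeal S' (f s) = (secIdeal S s).map (algebraMap S S') := by
  apply le_antisymm
  · intro a' ha'
    obtain ⟨φ', rfl⟩ := mem_secIdeal.1 ha'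
    obtain ⟨T, hT⟩ := exists_sum_dual_eq_one S W
    have h1 : φ' (f s) = ∑ i ∈ T, algebraMap S S' (i.1 s) * φ' (f i.2) := by
      conv_lhs => rw [eq_sum_apply_smul hT s]
      rw [map_sum, map_sum]
      refine Finset.sum_congr rfl fun i _ => ?_
      rw [map_smul, ← algebraMap_smul S' (i.1 s) (f i.2), map_smul, smul_eq_mul]
    rw [h1]
    exact Ideal.sum_mem _ fun i _ =>
      Ideal.mul_mem_right _ _ (Ideal.mem_map_of_mem _ (apply_mem_secIdeal s i.1))
  · rw [Ideal.map_le_iff_le_comap]
    intro a ha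
    obtain ⟨φ, rfl⟩ := mem_secIdeal.1 ha
    exact mem_secIdeal.2 ⟨hf.lift ((Algebra.linearMap S S').comp φ), hf.lift_eq _ _⟩

/-! ### (D6) uniqueness -/

/-- an automorphism-like comparison: two isomorphisms agreeing on a regular section agree -/
theorem equiv_ext_of_apply_eq {W' : Type w} [AddCommGroup W'] [Module S W'] {s : W}
    (hs : Function.Injective fun a : S => a • s) (e₁ e₂ : W ≃ₗ[S] W') (h : e₁ s = e₂ s) :
    e₁ = e₂ := by
  obtain ⟨a, ha⟩ := (Module.Invertible.toModuleEnd_bijective S W).2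
    (e₂.symm.toLinearMap.comp e₁.toLinearMap)
  have h1 : a • s = s := by
    have := LinearMap.congr_fun ha s
    simpa [h] using this
  have h2 : a = 1 := hs (by simpa using h1)
  subst h2
  ext w
  have := LinearMap.congr_fun ha w
  simp only [map_one, LinearMap.coe_comp, LinearEquiv.coe_coe, Function.comp_apply] at this
  rw [← e₂.apply_symm_apply (e₁ w), ← this]
  rfl

/-- **(D6)** two pairs (invertible module, regular section) with the same ideal are isomorphic
by a unique isomorphism. -/
theorem existsUnique_equiv_of_secIdeal_eq {W' : Type w} [AddCommGroup W'] [Module S W']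
    [Module.Invertible S W'] {s : W} {s' : W'} (hs : Function.Injective fun a : S => a • s)
    (hs' : Function.Injective fun a : S => a • s') (h : secIdeal S s = secIdeal S s') :
    ∃! e : W ≃ₗ[S] W', e s = s' := by
  refine ⟨equivDualSecIdeal hs ≪≫ₗ (LinearEquiv.ofEq _ _ h.symm).dualMap ≪≫ₗ
    (equivDualSecIdeal hs').symm, ?_, fun e he => ?_⟩
  · simp only [LinearEquiv.trans_apply, LinearEquiv.symm_apply_eq]
    rw [equivDualSecIdeal_self, equivDualSecIdeal_self]
    ext ⟨a, ha⟩
    rfl
  · refine equiv_ext_of_apply_eq hs _ _ ?_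
    rw [he]
    simp only [LinearEquiv.trans_apply]
    symm
    rw [LinearEquiv.symm_apply_eq, equivDualSecIdeal_self, equivDualSecIdeal_self]
    ext ⟨a, ha⟩
    rfl

end Inv

end Fermat.Agent.S25lib.Krich
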