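/-
S25lib / Krich / DictB  (helper3)  --  Project L (S25), block (ii) "the dictionary", part (D3).
`S` an `R`-algebra, `W` an invertible `S`-module, `s : W`, `I := secIdeal S s`, `Q := W ⧸ S ∙ s`.
* `quotEquivTensor s : (W ⧸ S ∙ s) ≃ₗ[S] (S ⧸ I) ⊗[S] W`;
* `S ⧸ I` is an `S`-linear retract of a finite power of `Q` (`exists_retract_quot_secIdeal`), hence
  finite / flat / projective over `R` as soon as `Q` is;
* `rankAtStalk_quot_secIdeal` : the `R`-ranks of `S ⧸ I` and of `Q` agree at every prime of `R`
  (an invertible module over the semilocal fibre algebra is free).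
Imports Mathlib + `DictA`.
-/
import Fermat.Agent.S25lib.Krich.DictA

set_option autoImplicit false

noncomputable section

namespace Fermat.Agent.S25lib.Krich

open TensorProduct

universe u v w

section Rank

variable (R : Type u) (κ : Type v) (B : Type w) (Q : Type*) [CommRing R] [Field κ] [Algebra R κ]
  [CommRing B] [Algebra R B] [Module.Finite R B] [AddCommGroup Q] [Module B Q] [Module R Q]
  [IsScalarTower R B Q] [Module.Invertible B Q]

attribute [local instance] Algebra.TensorProduct.rightAlgebra in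
/-- an invertible module over a finite `R`-algebra `B` has the same fibre dimensions as `B` -/
theorem finrank_tensor_eq_of_invertible :
    Module.finrank κ (κ ⊗[R] Q) = Module.finrank κ (κ ⊗[R] B) := by
  let e := Algebra.IsPushout.cancelBaseChange R κ B (κ ⊗[R] B) Q
  have : IsArtinianRing (κ ⊗[R] B) := IsArtinianRing.of_finite κ _
  have hfree : Module.Free (κ ⊗[R] B) ((κ ⊗[R] B) ⊗[B] Q) := inferInstance
  obtain ⟨e2⟩ := Module.Invertible.free_iff_linearEquiv.1 hfree
  rw [← e.finrank_eq, (e2.restrictScalars κ).finrank_eq]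

end Rank

section Pi

variable (R : Type u) [CommRing R] (ι : Type v) [Finite ι] (M : Type w) [AddCommGroup M]
  [Module R M]

theorem flat_pi_of_finite [Module.Flat R M] : Module.Flat R (ι → M) := by
  classical
  have := Fintype.ofFinite ι
  exact Module.Flat.of_linearEquiv (DFinsupp.linearEquivFunOnFintype (R := R) (M := fun _ : ι => M)).symm

theorem projective_pi_of_finite [Module.Projective R M] : Module.Projective R (ι → M) := by
  classical
  have := Fintype.ofFinite ι
  exact Module.Projective.of_equiv (DFinsupp.linearEquivFunOnFintype (R := R) (M := fun _ : ι => M))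

end Pi

section Quot

variable {S : Type u} [CommRing S] {W : Type v} [AddCommGroup W] [Module S W]
  [Module.Invertible S W]

/-- **(D3)** `W ⧸ S ∙ s ≃ (S ⧸ I) ⊗ W` -/
def quotEquivTensor (s : W) :
    (W ⧸ Submodule.span S {s}) ≃ₗ[S] (S ⧸ secIdeal S s) ⊗[S] W :=
  (Submodule.quotEquivOfEq _ _ (secIdeal_smul_top s).symm) ≪≫ₗ
    (quotTensorEquivQuotSMul W (secIdeal S s)).symm

/-- the map `S ⧸ I → W ⧸ S ∙ s`, `b ↦ b • w` -/
def quotSmul (s w : W) : (S ⧸ secIdeal S s) →ₗ[S] (W ⧸ Submodule.span S {s}) :=
  Submodule.liftQ _ (LinearMap.toSpanSingleton S _ (Submodule.Quotient.mk w)) (by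
    intro a ha
    rw [LinearMap.mem_ker, LinearMap.toSpanSingleton_apply, ← Submodule.Quotient.mk_smul,
      Submodule.Quotient.mk_eq_zero]
    exact mem_secIdeal_iff.1 ha w)

@[simp]
theorem quotSmul_mk (s w : W) (a : S) :
    quotSmul s w (Ideal.Quotient.mk _ a) = Submodule.Quotient.mk (a • w) := by
  rfl

/-- the map `W ⧸ S ∙ s → S ⧸ I` induced by `φ : W^∨` -/
def quotDual (s : W) (φ : Module.Dual S W) :
    (W ⧸ Submodule.span S {s}) →ₗ[S] (S ⧸ secIdeal S s) :=
  Submodule.mapQ _ _ φ (by
    rw [Submodule.span_singleton_le_iff_mem, Submodule.mem_comap]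
    exact apply_mem_secIdeal s φ)

omit [Module.Invertible S W] in
@[simp]
theorem quotDual_mk (s : W) (φ : Module.Dual S W) (w : W) :
    quotDual s φ (Submodule.Quotient.mk w) = Ideal.Quotient.mk _ (φ w) := by
  rfl

/-- **(D3)** `S ⧸ I` is a retract of a finite power of `W ⧸ S ∙ s`. -/
theorem exists_retract_quot_secIdeal (s : W) :
    ∃ (n : ℕ) (i : (S ⧸ secIdeal S s) →ₗ[S] (Fin n → W ⧸ Submodule.span S {s}))
      (r : (Fin n → W ⧸ Submodule.span S {s}) →ₗ[S] (S ⧸ secIdeal S s)),
      r.comp i = LinearMap.id := by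
  obtain ⟨T, hT⟩ := exists_sum_dual_eq_one S W
  let e := T.equivFin
  refine ⟨T.card, LinearMap.pi fun j => quotSmul s (e.symm j).1.2,
    ∑ j, (quotDual s (e.symm j).1.1).comp (LinearMap.proj j), ?_⟩
  refine LinearMap.ext fun a => ?_
  obtain ⟨a, rfl⟩ := Ideal.Quotient.mk_surjective a
  have h1 : ∑ j : Fin T.card, (e.symm j).1.1 (e.symm j).1.2 = 1 := by
    rw [← hT, ← Finset.sum_coe_sort T (fun i => i.1 i.2)]
    exact Fintype.sum_equiv e.symm _ _ fun _ => rfl
  simp only [LinearMap.coe_comp, Function.comp_apply, LinearMap.sum_apply,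
    LinearMap.coe_proj, Function.eval, LinearMap.pi_apply, LinearMap.id_coe, id_eq]
  have h2 : ∀ j : Fin T.card, quotDual s (e.symm j).1.1
      (quotSmul s (e.symm j).1.2 ((Ideal.Quotient.mk (secIdeal S s)) a)) =
      Ideal.Quotient.mk (secIdeal S s) (a * (e.symm j).1.1 (e.symm j).1.2) := by
    intro j
    rw [quotSmul_mk, quotDual_mk, map_smul, smul_eq_mul]
  simp_rw [h2]
  rw [← map_sum, ← Finset.mul_sum, h1, mul_one]

end Quot

section OverR

variable (R : Type w) [CommRing R] {S : Type u} [CommRing S] [Algebra R S] {W : Type v}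
  [AddCommGroup W] [Module S W] [Module R W] [IsScalarTower R S W] [Module.Invertible S W]

theorem finite_quot_secIdeal (s : W) [Module.Finite R (W ⧸ Submodule.span S {s})] :
    Module.Finite R (S ⧸ secIdeal S s) := by
  obtain ⟨n, i, r, h⟩ := exists_retract_quot_secIdeal (S := S) s
  have hr : Function.Surjective (r.restrictScalars R) := fun b =>
    ⟨i b, LinearMap.congr_fun h b⟩
  exact Module.Finite.of_surjective _ hr

theorem flat_quot_secIdeal (s : W) [Module.Flat R (W ⧸ Submodule.span S {s})] :
    Module.Flat R (S ⧸ secIdeal S s) := by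
  obtain ⟨n, i, r, h⟩ := exists_retract_quot_secIdeal (S := S) s
  have := flat_pi_of_finite R (Fin n) (W ⧸ Submodule.span S {s})
  exact Module.Flat.of_retract (i.restrictScalars R) (r.restrictScalars R)
    (LinearMap.ext fun b => LinearMap.congr_fun h b)

theorem projective_quot_secIdeal (s : W) [Module.Projective R (W ⧸ Submodule.span S {s})] :
    Module.Projective R (S ⧸ secIdeal S s) := by
  obtain ⟨n, i, r, h⟩ := exists_retract_quot_secIdeal (S := S) s
  have := projective_pi_of_finite R (Fin n) (W ⧸ Submodule.span S {s})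
  exact Module.Projective.of_split (i.restrictScalars R) (r.restrictScalars R)
    (LinearMap.ext fun b => LinearMap.congr_fun h b)

/-- **(D3)** the `R`-rank of `S ⧸ I` equals the `R`-rank of `W ⧸ S ∙ s` -/
theorem rankAtStalk_quot_secIdeal (s : W) [Module.Finite R (W ⧸ Submodule.span S {s})]
    [Module.Flat R (W ⧸ Submodule.span S {s})] (p : PrimeSpectrum R) :
    Module.rankAtStalk (R := R) (S ⧸ secIdeal S s) p =
      Module.rankAtStalk (R := R) (W ⧸ Submodule.span S {s}) p := by
  have := finite_quot_secIdeal R (S := S) s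
  have := flat_quot_secIdeal R (S := S) s
  rw [Module.rankAtStalk_eq, Module.rankAtStalk_eq]
  have e : (W ⧸ Submodule.span S {s}) ≃ₗ[R] (S ⧸ secIdeal S s) ⊗[S] W :=
    (quotEquivTensor s).restrictScalars R
  unfold Ideal.Fiber
  rw [(TensorProduct.AlgebraTensorModule.congr
    (LinearEquiv.refl p.asIdeal.ResidueField p.asIdeal.ResidueField) e).finrank_eq]
  exact (finrank_tensor_eq_of_invertible R p.asIdeal.ResidueField (S ⧸ secIdeal S s)
    ((S ⧸ secIdeal S s) ⊗[S] W)).symm

end OverR

end Fermat.Agent.S25lib.Krich
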