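/-
S25lib / Krich / Canon  (helper3)  --  Project L (S25): the ideal of a bundle with the Krichever
condition, on the chart `U₁ × T` (pure algebra).

Setting: `R` the base ring, `S₁` (functions on `U₁ × T`) and `S` (functions on `U₁₂ × T`)
`R`-algebras with the restriction `ρ : S₁ →ₐ[R] S`; `W` an invertible `S₁`-module, `V` an `S`-module,
`ι : W →ₗ[R] V` `ρ`-semilinear, `(L, b)` the filtration, `IsFilt R L b`, `IsSFilt B' z L b`,
`IsOData B' z`.
* `canonIdeal S₁ ι L : Ideal S₁` := the ideal generated by all `φ w`, `w ∈ H⁰ = H0 ι L 0`,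
  `φ ∈ W^∨` (no choice of `b`);  `canonIdeal_congr`: invariance under isomorphisms of complexes;
* with `KrichBij ι L`: `KrichBij.sec` THE section with `ι s ≡ b 0` mod `L (-1)`;
  `H0_eq_span_sec`, `canonIdeal_eq_secIdeal : canonIdeal S₁ ι L = secIdeal S₁ s`;
* **(K5)** `quotSpanSecEquiv : (W ⧸ S₁ ∙ s) ≃ₗ[R] H1 ρ (LO B' z) (-1)`; hence (D3):
  `finite_quot_canonIdeal`, `projective_quot_canonIdeal`, `rankAtStalk_quot_canonIdeal`;
* `sec_regular`: `s` is regular as soon as `canonIdeal` is a faithful ideal; then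
  `dualCanonEquiv : Dual S₁ (canonIdeal) ≃ₗ[S₁] W`, `incl ↦ s`;
* `IsBC.canonIdeal_map`: **base change** `canonIdeal' = (canonIdeal).map (S₁ → S₁')`.
-/
import Fermat.Agent.S25lib.Krich.DictB
import Fermat.Agent.S25lib.Krich.OComplex

set_option autoImplicit false

noncomputable section

namespace Fermat.Agent.S25lib.Krich

open Submodule

section Def

variable {R : Type*} [CommRing R] (S₁ : Type*) [CommRing S₁] [Algebra R S₁]
  {W V : Type*} [AddCommGroup W] [Module R W] [Module S₁ W] [IsScalarTower R S₁ W]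
  [AddCommGroup V] [Module R V]

/-- **the ideal of the complex**: generated by the values `φ w`, `w ∈ H⁰`, `φ ∈ W^∨` -/
def canonIdeal (ι : W →ₗ[R] V) (L : ℤ → Submodule R V) : Ideal S₁ :=
  ⨆ w : H0 ι L 0, secIdeal S₁ (w : W)

variable {S₁} {ι : W →ₗ[R] V} {L : ℤ → Submodule R V}

omit [Algebra R S₁] [IsScalarTower R S₁ W] in
theorem secIdeal_le_canonIdeal {w : W} (hw : w ∈ H0 ι L 0) :
    secIdeal S₁ w ≤ canonIdeal S₁ ι L :=
  le_iSup (fun w : H0 ι L 0 => secIdeal S₁ (w : W)) ⟨w, hw⟩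

omit [Algebra R S₁] [IsScalarTower R S₁ W] in
theorem canonIdeal_le_iff {J : Ideal S₁} :
    canonIdeal S₁ ι L ≤ J ↔ ∀ w ∈ H0 ι L 0, secIdeal S₁ w ≤ J := by
  unfold canonIdeal
  rw [iSup_le_iff]
  exact ⟨fun h w hw => h ⟨w, hw⟩, fun h w => h w.1 w.2⟩

/-- `secIdeal` of a multiple -/
theorem secIdeal_smul_le (a : S₁) (w : W) : secIdeal S₁ (a • w) ≤ secIdeal S₁ w := by
  intro x hx
  obtain ⟨φ, rfl⟩ := mem_secIdeal.1 hx
  rw [map_smul, smul_eq_mul]
  exact Ideal.mul_mem_left _ _ (apply_mem_secIdeal w φ)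

theorem secIdeal_smul_of_isUnit {a : S₁} (ha : IsUnit a) (w : W) :
    secIdeal S₁ (a • w) = secIdeal S₁ w := by
  apply le_antisymm (secIdeal_smul_le a w)
  obtain ⟨u, rfl⟩ := ha
  have h := secIdeal_smul_le ((u⁻¹ : S₁ˣ) : S₁) ((u : S₁) • w)
  rwa [smul_smul, Units.inv_mul, one_smul] at h

omit [IsScalarTower R S₁ W] in
/-- **invariance**: an isomorphism of complexes (`S₁`-linear on `W`) preserves the ideal -/
theorem canonIdeal_congr {W' V' : Type*} [AddCommGroup W'] [Module R W'] [Module S₁ W']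
    [IsScalarTower R S₁ W'] [AddCommGroup V'] [Module R V'] {ι' : W' →ₗ[R] V'}
    {L' : ℤ → Submodule R V'} (eW : W ≃ₗ[S₁] W') (eV : V ≃ₗ[R] V')
    (hι : ∀ w, ι' (eW w) = eV (ι w)) (hL : (L 0).map eV.toLinearMap = L' 0) :
    canonIdeal S₁ ι' L' = canonIdeal S₁ ι L := by
  have hmem : ∀ w : W, eW w ∈ H0 ι' L' 0 ↔ w ∈ H0 ι L 0 := by
    intro w
    rw [mem_H0, mem_H0, hι, ← hL]
    constructor
    · rintro ⟨v, hv, hvw⟩
      have : v = ι w := eV.injective hvw
      rwa [← this]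
    · intro hw
      exact ⟨ι w, hw, rfl⟩
  apply le_antisymm
  · rw [canonIdeal_le_iff]
    intro w' hw'
    obtain ⟨w, rfl⟩ := eW.surjective w'
    rw [secIdeal_map_equiv]
    exact secIdeal_le_canonIdeal ((hmem w).1 hw')
  · rw [canonIdeal_le_iff]
    intro w hw
    rw [← secIdeal_map_equiv eW]
    exact secIdeal_le_canonIdeal ((hmem w).2 hw)

end Def

section Sec

variable {R : Type*} [CommRing R] {W V : Type*} [AddCommGroup W] [Module R W]
  [AddCommGroup V] [Module R V] {ι : W →ₗ[R] V} {L : ℤ → Submodule R V} {b : ℤ → V}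

/-- **the canonical section** of a complex with the Krichever condition -/
def KrichBij.sec (hK : KrichBij ι L) (h : IsFilt R L b) : W :=
  ((hK.existsUnique_section h).choose : H0 ι L 0)

theorem KrichBij.sec_mem (hK : KrichBij ι L) (h : IsFilt R L b) : hK.sec h ∈ H0 ι L 0 :=
  (hK.existsUnique_section h).choose.2

theorem KrichBij.lcH0_sec (hK : KrichBij ι L) (h : IsFilt R L b) :
    lcH0 (ι := ι) h 0 ⟨hK.sec h, hK.sec_mem h⟩ = 1 :=
  (hK.existsUnique_section h).choose_spec.1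

theorem KrichBij.sec_spec (hK : KrichBij ι L) (h : IsFilt R L b) :
    ι (hK.sec h) - b 0 ∈ L (-1) :=
  (lcH0_eq_one_iff h ⟨hK.sec h, hK.sec_mem h⟩).1 (hK.lcH0_sec h)

/-- every section of `H⁰` is a multiple of the canonical one -/
theorem KrichBij.eq_smul_sec (hK : KrichBij ι L) (h : IsFilt R L b) (w : H0 ι L 0) :
    (w : W) = lcH0 (ι := ι) h 0 w • hK.sec h := by
  have hinj := (hK.lcH0_bijective h).1
  have : w = lcH0 (ι := ι) h 0 w • (⟨hK.sec h, hK.sec_mem h⟩ : H0 ι L 0) := by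
    apply hinj
    rw [map_smul, hK.lcH0_sec h, smul_eq_mul, mul_one]
  exact congrArg Subtype.val this

/-- uniqueness of the canonical section -/
theorem KrichBij.eq_sec (hK : KrichBij ι L) (h : IsFilt R L b) {w : W}
    (hw : ι w - b 0 ∈ L (-1)) : w = hK.sec h := by
  have hw0 : w ∈ H0 ι L 0 := mem_zero_of_sub_b_mem h hw
  have h1 : lcH0 (ι := ι) h 0 ⟨w, hw0⟩ = 1 := (lcH0_eq_one_iff h ⟨w, hw0⟩).2 hw
  have := hK.eq_smul_sec h ⟨w, hw0⟩
  rwa [h1, one_smul] at this

end Sec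

section Main

variable {R : Type*} [CommRing R] {S₁ : Type*} [CommRing S₁] [Algebra R S₁]
  {S : Type*} [CommRing S] [Algebra R S]
  {W V : Type*} [AddCommGroup W] [Module R W] [Module S₁ W] [IsScalarTower R S₁ W]
  [Module.Invertible S₁ W]
  [AddCommGroup V] [Module R V] [Module S V] [IsScalarTower R S V]
  {ι : W →ₗ[R] V} {L : ℤ → Submodule R V} {b : ℤ → V}

omit [Module.Invertible S₁ W] in
/-- with the Krichever condition, the ideal of the complex is the ideal of the canonical section -/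
theorem KrichBij.canonIdeal_eq_secIdeal (hK : KrichBij ι L) (h : IsFilt R L b) :
    canonIdeal S₁ ι L = secIdeal S₁ (hK.sec h) := by
  apply le_antisymm
  · rw [canonIdeal_le_iff]
    intro w hw
    have hw' : w = algebraMap R S₁ (lcH0 (ι := ι) h 0 ⟨w, hw⟩) • hK.sec h := by
      rw [algebraMap_smul]
      exact hK.eq_smul_sec h ⟨w, hw⟩
    exact le_of_eq_of_le (congrArg (secIdeal S₁) hw') (secIdeal_smul_le _ _)
  · exact secIdeal_le_canonIdeal (hK.sec_mem h)

omit [Module.Invertible S₁ W] in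
/-- any generator of `H⁰` computes the ideal -/
theorem KrichBij.canonIdeal_eq_secIdeal_of_isUnit (hK : KrichBij ι L) (h : IsFilt R L b)
    (w : H0 ι L 0) (hw : IsUnit (lcH0 (ι := ι) h 0 w)) :
    canonIdeal S₁ ι L = secIdeal S₁ (w : W) := by
  rw [hK.canonIdeal_eq_secIdeal h, hK.eq_smul_sec h w,
    ← algebraMap_smul S₁ (lcH0 (ι := ι) h 0 w) (hK.sec h)]
  exact (secIdeal_smul_of_isUnit (hw.map (algebraMap R S₁)) _).symm

variable {B' : Subalgebra R S} {z : Sˣ} (ρ : S₁ →ₐ[R] S)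

/-- `a ↦ a • s`, as an `R`-linear map `S₁ → W` -/
def smulSecR (R : Type*) [CommRing R] {S₁ : Type*} [CommRing S₁] [Algebra R S₁] {W : Type*}
    [AddCommGroup W] [Module R W] [Module S₁ W] [IsScalarTower R S₁ W] (s : W) : S₁ →ₗ[R] W :=
  (LinearMap.toSpanSingleton S₁ W s).restrictScalars R

omit [Module.Invertible S₁ W] in
theorem range_smulSecR (s : W) :
    LinearMap.range (smulSecR R (S₁ := S₁) s) = (Submodule.span S₁ {s}).restrictScalars R := by
  ext w
  rw [LinearMap.mem_range, Submodule.restrictScalars_mem, Submodule.mem_span_singleton]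
  rfl

/-- **(K5)**: `W ⧸ S₁ ∙ s ≃ H¹(O(-e))` -/
def KrichBij.quotSpanSecEquiv (hK : KrichBij ι L) (h : IsFilt R L b) (hO : IsOData B' z)
    (hS : IsSFilt B' z L b) (hι : ∀ (a : S₁) (w : W), ι (a • w) = ρ a • ι w) :
    (W ⧸ Submodule.span S₁ {hK.sec h}) ≃ₗ[R] H1 ρ.toLinearMap (LO B' z) (-1) :=
  (Submodule.Quotient.restrictScalarsEquiv R (Submodule.span S₁ {hK.sec h})).symm ≪≫ₗ
    Submodule.quotEquivOfEq _ _ (range_smulSecR (hK.sec h)).symm ≪≫ₗ
    quotRangeEquivO hO hS h hK ρ.toLinearMap (smulSecR R (hK.sec h)) (hK.sec h) (hK.sec_spec h)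
      (fun a => hι a (hK.sec h))

variable (hK : KrichBij ι L) (h : IsFilt R L b) (hO : IsOData B' z) (hS : IsSFilt B' z L b)
  (hι : ∀ (a : S₁) (w : W), ι (a • w) = ρ a • ι w)

include hK h hO hS hι

theorem KrichBij.finite_quot_canonIdeal [Module.Finite R (H1 ρ.toLinearMap (LO B' z) (-1))] :
    Module.Finite R (S₁ ⧸ canonIdeal S₁ ι L) := by
  rw [hK.canonIdeal_eq_secIdeal h]
  have : Module.Finite R (W ⧸ Submodule.span S₁ {hK.sec h}) :=
    Module.Finite.equiv (hK.quotSpanSecEquiv ρ h hO hS hι).symm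
  exact finite_quot_secIdeal R (S := S₁) (hK.sec h)

theorem KrichBij.projective_quot_canonIdeal
    [Module.Projective R (H1 ρ.toLinearMap (LO B' z) (-1))] :
    Module.Projective R (S₁ ⧸ canonIdeal S₁ ι L) := by
  rw [hK.canonIdeal_eq_secIdeal h]
  have : Module.Projective R (W ⧸ Submodule.span S₁ {hK.sec h}) :=
    Module.Projective.of_equiv (hK.quotSpanSecEquiv ρ h hO hS hι).symm
  exact projective_quot_secIdeal R (S := S₁) (hK.sec h)

theorem KrichBij.rankAtStalk_quot_canonIdeal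
    [Module.Finite R (H1 ρ.toLinearMap (LO B' z) (-1))]
    [Module.Projective R (H1 ρ.toLinearMap (LO B' z) (-1))] (p : PrimeSpectrum R) :
    Module.rankAtStalk (R := R) (S₁ ⧸ canonIdeal S₁ ι L) p =
      Module.rankAtStalk (R := R) (H1 ρ.toLinearMap (LO B' z) (-1)) p := by
  rw [hK.canonIdeal_eq_secIdeal h]
  have e := hK.quotSpanSecEquiv ρ h hO hS hι
  have : Module.Finite R (W ⧸ Submodule.span S₁ {hK.sec h}) := Module.Finite.equiv e.symm
  have : Module.Projective R (W ⧸ Submodule.span S₁ {hK.sec h}) :=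
    Module.Projective.of_equiv e.symm
  rw [rankAtStalk_quot_secIdeal R (S := S₁) (hK.sec h) p, Module.rankAtStalk_eq_of_equiv e]

end Main

section Regular

variable {R : Type*} [CommRing R] {S₁ : Type*} [CommRing S₁] [Algebra R S₁]
  {W V : Type*} [AddCommGroup W] [Module R W] [Module S₁ W] [IsScalarTower R S₁ W]
  [Module.Invertible S₁ W] [AddCommGroup V] [Module R V]
  {ι : W →ₗ[R] V} {L : ℤ → Submodule R V} {b : ℤ → V}

omit [Module.Invertible S₁ W] in
/-- a section whose ideal is faithful is regular -/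
theorem regular_of_faithful_secIdeal (s : W)
    (hJ : ∀ a : S₁, (∀ x ∈ secIdeal S₁ s, a * x = 0) → a = 0) :
    Function.Injective fun a : S₁ => a • s := by
  intro a a' haa'
  have h0 : (a - a') • s = 0 := by
    rw [sub_smul]
    exact sub_eq_zero.2 haa'
  have : a - a' = 0 := by
    apply hJ
    intro x hx
    obtain ⟨φ, rfl⟩ := mem_secIdeal.1 hx
    rw [← smul_eq_mul, ← map_smul, h0, map_zero]
  exact sub_eq_zero.1 this

variable (hK : KrichBij ι L) (h : IsFilt R L b)
  (hJ : ∀ a : S₁, (∀ x ∈ canonIdeal S₁ ι L, a * x = 0) → a = 0)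

omit [Module.Invertible S₁ W] in
include hJ in
theorem KrichBij.sec_regular : Function.Injective fun a : S₁ => a • hK.sec h := by
  apply regular_of_faithful_secIdeal
  rw [← hK.canonIdeal_eq_secIdeal h]
  exact hJ

/-- **(D2)** for the canonical section: `(canonIdeal)^∨ ≃ W` -/
def KrichBij.dualCanonEquiv : Module.Dual S₁ (secIdeal S₁ (hK.sec h)) ≃ₗ[S₁] W :=
  (equivDualSecIdeal (hK.sec_regular h hJ)).symm

theorem KrichBij.dualCanonEquiv_subtype :
    hK.dualCanonEquiv h hJ (Submodule.subtype _) = hK.sec h := by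
  unfold KrichBij.dualCanonEquiv
  rw [LinearEquiv.symm_apply_eq, equivDualSecIdeal_self]

end Regular

section BC

variable {R : Type*} [CommRing R] {R' : Type*} [CommRing R'] [Algebra R R']
  {S₁ : Type*} [CommRing S₁] [Algebra R S₁] {S₁' : Type*} [CommRing S₁'] [Algebra R' S₁']
  [Algebra S₁ S₁']
  {W V : Type*} [AddCommGroup W] [Module R W] [Module S₁ W] [IsScalarTower R S₁ W]
  [Module.Invertible S₁ W] [AddCommGroup V] [Module R V]
  {W' V' : Type*} [AddCommGroup W'] [Module R W'] [Module R' W'] [IsScalarTower R R' W']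
  [Module S₁' W'] [IsScalarTower R' S₁' W'] [Module S₁ W'] [IsScalarTower S₁ S₁' W']
  [AddCommGroup V'] [Module R V'] [Module R' V'] [IsScalarTower R R' V']
  {ι : W →ₗ[R] V} {L : ℤ → Submodule R V} {b : ℤ → V}
  {ι' : W' →ₗ[R'] V'} {L' : ℤ → Submodule R' V'} {b' : ℤ → V'}
  {fW : W →ₗ[R] W'} {fV : V →ₗ[R] V'}

/-- **base change of the ideal**: if `W' = S₁' ⊗[S₁] W` through `fW`, the ideal of the base-changed
complex is the extension of the ideal -/
theorem IsBC.canonIdeal_map (hbc : IsBC ι L b ι' L' b' fW fV) (h : IsFilt R L b)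
    (hK : KrichBij ι L) (fWS : W →ₗ[S₁] W') (hfWS : ∀ w, fWS w = fW w)
    (hbcS : IsBaseChange S₁' fWS) :
    canonIdeal S₁' ι' L' = (canonIdeal S₁ ι L).map (algebraMap S₁ S₁') := by
  have h' := hbc.isFilt h
  have hK' := hbc.krichBij h hK
  rw [hK'.canonIdeal_eq_secIdeal h', hK.canonIdeal_eq_secIdeal h]
  have hsec : hK'.sec h' = fWS (hK.sec h) := by
    symm
    apply hK'.eq_sec h'
    rw [hfWS, ← hbc.comm, ← hbc.map_b, ← map_sub]
    exact hbc.map_mem_L (hK.sec_spec h)
  rw [hsec]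
  exact secIdeal_baseChange hbcS (hK.sec h)

end BC

end Fermat.Agent.S25lib.Krich
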