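/-
S25lib / Krich / DictPt  (helper3)  --  Project L (S25), block (ii) "the dictionary", part (D3'):
the ideal of a section is a point of helper5's functor of ideals `Hilb.IsPt g`.
`W` an invertible `R ⊗[k] A`-module, `s : W`; if `W ⧸ (R ⊗[k] A) ∙ s` is a finite flat `R`-module of
constant rank `g`, then `Hilb.IsPt g (secIdeal (R ⊗[k] A) s)`.
-/
import Fermat.Agent.S25lib.Krich.DictB
import Fermat.Agent.S25lib.Hilb.Local

set_option autoImplicit false

noncomputable section

namespace Fermat.Agent.S25lib.Krich

open TensorProduct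

universe u v w₁ w₂

variable {k : Type u} [CommRing k] {A : Type v} [CommRing A] [Algebra k A]
  {R : Type w₁} [CommRing R] [Algebra k R] {W : Type w₂} [AddCommGroup W] [Module (R ⊗[k] A) W]
  [Module R W] [IsScalarTower R (R ⊗[k] A) W] [Module.Invertible (R ⊗[k] A) W]

/-- **(D3)** the ideal of a section `s` of an invertible `A_R`-module `W` with `W ⧸ A_R ∙ s`
finite flat of rank `g` over `R` is a point of the functor of ideals of colength `g`. -/
theorem isPt_secIdeal {g : ℕ} (s : W)
    [Module.Finite R (W ⧸ Submodule.span (R ⊗[k] A) {s})]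
    [Module.Flat R (W ⧸ Submodule.span (R ⊗[k] A) {s})]
    (hr : ∀ p : PrimeSpectrum R,
      Module.rankAtStalk (R := R) (W ⧸ Submodule.span (R ⊗[k] A) {s}) p = g) :
    Hilb.IsPt g (secIdeal (R ⊗[k] A) s) where
  finite := finite_quot_secIdeal R (S := R ⊗[k] A) s
  flat := flat_quot_secIdeal R (S := R ⊗[k] A) s
  rank p := by rw [rankAtStalk_quot_secIdeal R (S := R ⊗[k] A) s p, hr p]

end Fermat.Agent.S25lib.Krich
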