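/-
S25lib / Krich / CanonPt  (helper3)  --  Project L (S25): the ideal of a bundle with the Krichever
condition is a point of the functor of ideals (block (A)).

`τ : R ⊗[k] A ≃ₐ[R] S₁` identifies the functions on `U₁ × T` with `A_R`.  With the notation of
`Krich/Canon`, if `H¹(O(-e)) = H1 ρ (LO B' z) (-1)` is free of rank `g` over `R`:
* `KrichBij.isPt_canonIdeal : Hilb.IsPt g ((canonIdeal S₁ ι L).comap τ)`;
* `KrichBij.faithful_canonIdeal` (through helper1's `invertible_of_isPt'`): no non-zero element of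
  `S₁` kills `canonIdeal`, hence the canonical section is regular (`KrichBij.sec_regular`) and
  `KrichBij.dualCanonEquiv : (canonIdeal)^∨ ≃ W` is available.
-/
import Fermat.Agent.S25lib.Krich.Canon
import Fermat.Agent.S25lib.Krich.DictPt
import Fermat.Agent.S25lib.Ideal.Invertible

set_option autoImplicit false

noncomputable section

namespace Fermat.Agent.S25lib.Krich

open TensorProduct

universe u v w w₁

section Transport

variable {k : Type u} [CommRing k] {A : Type v} [CommRing A] [Algebra k A]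
  {R : Type w} [CommRing R] [Algebra k R] {S₁ : Type w₁} [CommRing S₁] [Algebra R S₁]
  (τ : (R ⊗[k] A) ≃ₐ[R] S₁)

/-- the quotient by the transported ideal -/
def quotComapEquiv (J : Ideal S₁) :
    ((R ⊗[k] A) ⧸ J.comap (τ : (R ⊗[k] A) →+* S₁)) ≃ₗ[R] S₁ ⧸ J :=
  (Ideal.quotientEquivAlg (J.comap (τ : (R ⊗[k] A) →+* S₁)) J τ
    (Ideal.map_comap_of_surjective _ τ.surjective J).symm).toLinearEquiv

/-- transport of `IsPt` along `τ` -/
theorem isPt_comap {g : ℕ} (J : Ideal S₁) [Module.Finite R (S₁ ⧸ J)]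
    [Module.Projective R (S₁ ⧸ J)]
    (hr : ∀ p : PrimeSpectrum R, Module.rankAtStalk (R := R) (S₁ ⧸ J) p = g) :
    Hilb.IsPt g (J.comap (τ : (R ⊗[k] A) →+* S₁)) where
  finite := Module.Finite.equiv (quotComapEquiv τ J).symm
  flat := Module.Flat.of_linearEquiv (quotComapEquiv τ J)
  rank p := by rw [Module.rankAtStalk_eq_of_equiv (quotComapEquiv τ J), hr p]

end Transport

section Main

variable {k : Type u} [Field k] {A : Type v} [CommRing A] [Algebra k A]
  {R : Type w} [CommRing R] [Algebra k R] {S₁ : Type w₁} [CommRing S₁] [Algebra R S₁]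
  (τ : (R ⊗[k] A) ≃ₐ[R] S₁)
  {S : Type*} [CommRing S] [Algebra R S]
  {W V : Type*} [AddCommGroup W] [Module R W] [Module S₁ W] [IsScalarTower R S₁ W]
  [Module.Invertible S₁ W]
  [AddCommGroup V] [Module R V] [Module S V] [IsScalarTower R S V]
  {ι : W →ₗ[R] V} {L : ℤ → Submodule R V} {b : ℤ → V}
  {B' : Subalgebra R S} {z : Sˣ} (ρ : S₁ →ₐ[R] S)
  (hK : KrichBij ι L) (h : IsFilt R L b) (hO : IsOData B' z) (hS : IsSFilt B' z L b)
  (hι : ∀ (a : S₁) (w : W), ι (a • w) = ρ a • ι w)
  [Module.Free R (H1 ρ.toLinearMap (LO B' z) (-1))]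
  [Module.Finite R (H1 ρ.toLinearMap (LO B' z) (-1))]

include hK h hO hS hι

/-- **(A)**: the ideal of a bundle with the Krichever condition is a point of the functor of
ideals of colength `g = rank H¹(O(-e))` -/
theorem KrichBij.isPt_canonIdeal {g : ℕ}
    (hg : Nontrivial R → Module.finrank R (H1 ρ.toLinearMap (LO B' z) (-1)) = g) :
    Hilb.IsPt g ((canonIdeal S₁ ι L).comap (τ : (R ⊗[k] A) →+* S₁)) := by
  have := hK.finite_quot_canonIdeal ρ h hO hS hι
  have := hK.projective_quot_canonIdeal ρ h hO hS hι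
  refine isPt_comap τ _ fun p => ?_
  rw [hK.rankAtStalk_quot_canonIdeal ρ h hO hS hι p]
  have : Nontrivial R := p.nontrivial
  rw [Module.rankAtStalk_eq_finrank_of_free, hg this]
  rfl

include τ in
/-- the ideal of a bundle with the Krichever condition is faithful -/
theorem KrichBij.faithful_canonIdeal [Algebra.FiniteType k A] (hA : ¬ Module.Finite k A)
    (hD : ∀ (K : Type w) [Field K] [Algebra k K], IsDedekindDomain (K ⊗[k] A)) {g : ℕ}
    (hg : Nontrivial R → Module.finrank R (H1 ρ.toLinearMap (LO B' z) (-1)) = g)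
    (a : S₁) (ha : ∀ x ∈ canonIdeal S₁ ι L, a * x = 0) : a = 0 := by
  have hpt := hK.isPt_canonIdeal τ ρ h hO hS hι hg
  have hinv := Ideal.invertible_of_isPt' hA hD hpt
  obtain ⟨a', rfl⟩ := τ.surjective a
  have h0 : a' = 0 := by
    have hf : FaithfulSMul (R ⊗[k] A)
        ((canonIdeal S₁ ι L).comap (τ : (R ⊗[k] A) →+* S₁)) := inferInstance
    apply hf.eq_of_smul_eq_smul
    intro x
    rw [zero_smul]
    apply Subtype.ext
    apply τ.injective
    have hx : τ (x : R ⊗[k] A) ∈ canonIdeal S₁ ι L := x.2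
    have := ha _ hx
    rw [← map_mul] at this
    show τ (a' * (x : R ⊗[k] A)) = τ 0
    rw [map_zero]
    exact this
  rw [h0, map_zero]

end Main

end Fermat.Agent.S25lib.Krich
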