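/-
S25lib / Krich / Fibre  (helper3)  --  Project L (S25), brick (I2): the fibre criteria.

Where `H¹(M) = 0` (`Kmap ι L n` surjective) and `W` is projective:
* `H0_eq_bot_of_forall_mem_smul` + `IsBC.H0_le_smul`: if `H⁰` of every closed fibre vanishes, `H⁰(M) = 0`;
* `lcH0_bijective` + `IsBC.exists_lcH0_ne_zero`, `IsBC.mem_smul_of_lcH0`: if on every closed fibre the
  leading coefficient `H⁰ → 𝕂` is bijective, `lcH0 : H⁰(M) → R` is bijective (the canonical section);
* `exists_pow_smul_eq_zero_of_tensor_field`, `IsBC.exists_pow_smul_H1_eq_zero`: openness of `H¹ = 0`.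
-/
import Fermat.Agent.S25lib.Krich.BaseChange

set_option autoImplicit false
set_option linter.style.haveILetI false

namespace Fermat.Agent.S25lib.Krich

open Submodule TensorProduct

variable {R : Type*} [CommRing R] {R' : Type*} [CommRing R'] [Algebra R R']
  {W V : Type*} [AddCommGroup W] [Module R W] [AddCommGroup V] [Module R V]
  {W' V' : Type*} [AddCommGroup W'] [Module R W'] [Module R' W'] [IsScalarTower R R' W']
  [AddCommGroup V'] [Module R V'] [Module R' V'] [IsScalarTower R R' V']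
  {ι : W →ₗ[R] V} {L : ℤ → Submodule R V} {b : ℤ → V}

/-- an element of a submodule `N` which lies in `I • N`, seen inside `N` -/
theorem mem_smul_top_of_coe_mem_smul (I : Ideal R) (N : Submodule R W) (x : N)
    (hx : (x : W) ∈ I • N) : x ∈ (I • ⊤ : Submodule R N) := by
  have h1 : Submodule.map N.subtype (I • ⊤ : Submodule R N) = I • N := by
    rw [Submodule.map_smul'', Submodule.map_top, Submodule.range_subtype]
  rw [← h1] at hx
  obtain ⟨y, hy, hyx⟩ := hx
  have : y = x := Subtype.ext hyx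
  rwa [← this]

/-- the retraction onto `H⁰` maps `I • ⊤` into `I • H⁰` -/
theorem mem_smul_H0_of_mem_smul_top (h : IsFilt R L b) {n : ℤ}
    (hs : Function.Surjective (Kmap ι L n)) (I : Ideal R) {w : W} (hw : w ∈ H0 ι L n)
    (hwI : w ∈ (I • ⊤ : Submodule R W)) : w ∈ I • H0 ι L n := by
  obtain ⟨π, hπ⟩ := exists_retraction h hs
  have h1 : π w = ⟨w, hw⟩ := by
    have := congrArg (fun g => g ⟨w, hw⟩) hπ
    simpa using this
  have h2 := Submodule.mem_map_of_mem (f := π) hwI
  rw [Submodule.map_smul'', h1] at h2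
  have h3 : (⟨w, hw⟩ : H0 ι L n) ∈ (I • ⊤ : Submodule R (H0 ι L n)) :=
    Submodule.smul_mono le_rfl le_top h2
  have h4 := Submodule.mem_map_of_mem (f := (H0 ι L n).subtype) h3
  rwa [Submodule.map_smul'', Submodule.map_top, Submodule.range_subtype] at h4

/-- **if `H⁰` of every closed fibre vanishes, `H⁰(M) = 0`** (intrinsic form) -/
theorem H0_eq_bot_of_forall_mem_smul [Module.Projective R W] (h : IsFilt R L b) {n : ℤ}
    (hs : Function.Surjective (Kmap ι L n))
    (hyp : ∀ 𝔪 : Ideal R, 𝔪.IsMaximal → H0 ι L n ≤ 𝔪 • H0 ι L n) : H0 ι L n = ⊥ := by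
  have := projective_H0 h hs
  rw [eq_bot_iff]
  intro w hw
  have h0 : (⟨w, hw⟩ : H0 ι L n) = 0 := by
    refine eq_zero_of_projective_of_fibres (R := R) (fun 𝔪 h𝔪 => ?_) _
    rw [eq_top_iff]
    rintro x -
    exact mem_smul_top_of_coe_mem_smul 𝔪 _ x (hyp 𝔪 h𝔪 x.2)
  exact congrArg Subtype.val h0

/-- **if the leading coefficient is bijective on every closed fibre, it is bijective**
(intrinsic form): `H⁰(M)` is free of rank one on the section with leading coefficient `1` -/
theorem lcH0_bijective [Module.Projective R W] (h : IsFilt R L b) {n : ℤ}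
    (hs : Function.Surjective (Kmap ι L n))
    (hsurj : ∀ 𝔪 : Ideal R, 𝔪.IsMaximal → ∃ p : H0 ι L n, lcH0 (ι := ι) h n p ∉ 𝔪)
    (hinj : ∀ 𝔪 : Ideal R, 𝔪.IsMaximal → ∀ p : H0 ι L n, lcH0 (ι := ι) h n p ∈ 𝔪 →
      (p : W) ∈ 𝔪 • H0 ι L n) : Function.Bijective (lcH0 (ι := ι) h n) := by
  have := projective_H0 h hs
  exact bijective_of_projective_of_fibres (lcH0 (ι := ι) h n) hsurj fun 𝔪 h𝔪 p hp =>
    mem_smul_top_of_coe_mem_smul 𝔪 _ p (hinj 𝔪 h𝔪 p hp)

/-- **openness**: a finite module whose fibre at a field-valued point vanishes is killed by an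
element which does not vanish at that point -/
theorem exists_smul_eq_zero_of_tensor_field (H : Type*) [AddCommGroup H] [Module R H]
    [Module.Finite R H] (𝕂 : Type*) [Field 𝕂] [Algebra R 𝕂] (h0 : Subsingleton (𝕂 ⊗[R] H)) :
    ∃ f : R, algebraMap R 𝕂 f ≠ 0 ∧ ∀ x : H, f • x = 0 := by
  classical
  set 𝔭 : Ideal R := RingHom.ker (algebraMap R 𝕂) with h𝔭
  haveI : 𝔭.IsPrime := RingHom.ker_isPrime _
  -- the residue field of `𝔭` maps to `𝕂`
  let φ : 𝔭.ResidueField →+* 𝕂 := Ideal.ResidueField.lift 𝔭 (algebraMap R 𝕂) le_rfl (by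
    intro r hr
    rw [Submonoid.mem_comap]
    exact IsUnit.mk0 _ hr)
  letI : Algebra 𝔭.ResidueField 𝕂 := φ.toAlgebra
  haveI : IsScalarTower R 𝔭.ResidueField 𝕂 := IsScalarTower.of_algebraMap_eq fun r =>
    (Ideal.ResidueField.lift_algebraMap 𝔭 (algebraMap R 𝕂) le_rfl _ r).symm
  have e := AlgebraTensorModule.cancelBaseChange R 𝔭.ResidueField 𝕂 𝕂 H
  haveI : Subsingleton (𝕂 ⊗[𝔭.ResidueField] (𝔭.ResidueField ⊗[R] H)) := e.toEquiv.subsingleton
  have hκ : Subsingleton (𝔭.ResidueField ⊗[R] H) :=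
    (Module.FaithfullyFlat.subsingleton_tensorProduct_iff_right 𝔭.ResidueField 𝕂).mp inferInstance
  -- `𝔭` is not in the support
  have hsupp : (⟨𝔭, inferInstance⟩ : PrimeSpectrum R) ∉ Module.support R H := by
    rw [Module.mem_support_iff_nontrivial_residueField_tensorProduct, not_nontrivial_iff_subsingleton]
    exact hκ
  rw [Module.notMem_support_iff'] at hsupp
  obtain ⟨S, hS⟩ := (Module.Finite.fg_top : (⊤ : Submodule R H).FG)
  choose r hr hr0 using hsupp
  refine ⟨∏ s ∈ S, r s, ?_, ?_⟩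
  · rw [map_prod]
    refine Finset.prod_ne_zero_iff.mpr fun s _ => ?_
    intro h1
    exact hr s h1
  · intro x
    have hx : x ∈ span R (S : Set H) := by rw [hS]; trivial
    induction hx using Submodule.span_induction with
    | mem x hx =>
      rw [← Finset.mul_prod_erase S r hx, mul_comm, mul_smul, hr0, smul_zero]
    | zero => exact smul_zero _
    | add x y _ _ hx hy => rw [smul_add, hx, hy, add_zero]
    | smul a x _ hx => rw [smul_comm, hx, smul_zero]

namespace IsBC

variable {ι' : W' →ₗ[R'] V'} {L' : ℤ → Submodule R' V'} {b' : ℤ → V'}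
  {fW : W →ₗ[R] W'} {fV : V →ₗ[R] V'} (hbc : IsBC ι L b ι' L' b' fW fV)

include hbc

/-- (A1) a fibre with `H⁰ = 0` -/
theorem H0_le_smul [Module.Projective R W] (h : IsFilt R L b) {n : ℤ}
    (hs : Function.Surjective (Kmap ι L n)) (h0' : H0 ι' L' n = ⊥) :
    H0 ι L n ≤ RingHom.ker (algebraMap R R') • H0 ι L n := by
  intro w hw
  have h1 : fW w = 0 := by
    have := hbc.map_mem_H0 hw
    rwa [h0', Submodule.mem_bot] at this
  exact mem_smul_H0_of_mem_smul_top h hs _ hw (mem_ker_smul_top_of_isBaseChange hbc.bcW h1)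

/-- (B1, surjectivity) a fibre on which the leading coefficient is onto -/
theorem exists_lcH0_ne_zero [Nontrivial R'] (h : IsFilt R L b) (h' : IsFilt R' L' b') {n : ℤ}
    (hs : Function.Surjective (Kmap ι L n)) (hsurj' : Function.Surjective (lcH0 (ι := ι') h' n)) :
    ∃ p : H0 ι L n, algebraMap R R' (lcH0 (ι := ι) h n p) ≠ 0 := by
  by_contra hne
  simp only [not_exists, not_not] at hne
  obtain ⟨p', hp'⟩ := hsurj' 1
  have hspan := hbc.H0_eq_span h h' hs
  have key : ∀ x (hx : x ∈ H0 ι' L' n), x ∈ span R' (fW '' (H0 ι L n : Set W)) →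
      lcH0 (ι := ι') h' n ⟨x, hx⟩ = 0 := by
    intro x hx hxs
    induction hxs using Submodule.span_induction with
    | mem x hx' =>
      obtain ⟨w, hw, rfl⟩ := hx'
      have := hbc.lcH0_map h h' n ⟨w, hw⟩
      rw [hne] at this
      exact this
    | zero => exact map_zero _
    | add x y hx' hy' ihx ihy =>
      have hx0 : x ∈ H0 ι' L' n := by rw [hspan]; exact hx'
      have hy0 : y ∈ H0 ι' L' n := by rw [hspan]; exact hy'
      have : (⟨x + y, hx⟩ : H0 ι' L' n) = ⟨x, hx0⟩ + ⟨y, hy0⟩ := rfl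
      rw [this, map_add, ihx hx0, ihy hy0, add_zero]
    | smul a x hx' ihx =>
      have hx0 : x ∈ H0 ι' L' n := by rw [hspan]; exact hx'
      have : (⟨a • x, hx⟩ : H0 ι' L' n) = a • ⟨x, hx0⟩ := rfl
      rw [this, map_smul, ihx hx0, smul_zero]
  have := key p'.1 p'.2 (by rw [← hspan]; exact p'.2)
  rw [Subtype.coe_eta, hp'] at this
  exact one_ne_zero this

/-- (B1, injectivity) a fibre on which the leading coefficient is injective -/
theorem mem_smul_of_lcH0 [Module.Projective R W] (h : IsFilt R L b) (h' : IsFilt R' L' b')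
    {n : ℤ} (hs : Function.Surjective (Kmap ι L n))
    (hinj' : Function.Injective (lcH0 (ι := ι') h' n)) (p : H0 ι L n)
    (hp : algebraMap R R' (lcH0 (ι := ι) h n p) = 0) :
    (p : W) ∈ RingHom.ker (algebraMap R R') • H0 ι L n := by
  have h1 : hbc.H0map n p = 0 := by
    apply hinj'
    rw [hbc.lcH0_map h h', hp, map_zero]
  have h2 : fW p = 0 := congrArg Subtype.val h1
  exact mem_smul_H0_of_mem_smul_top h hs _ p.2 (mem_ker_smul_top_of_isBaseChange hbc.bcW h2)

end IsBC

/-- **openness of `H¹ = 0`**: if `H¹` of the fibre at a field-valued point `R → 𝕂` vanishes, then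
`H¹(M)` is killed by an `f` with `f ≠ 0` in `𝕂`; hence (`Kmap_surjective_of_isUnit`) `H¹ = 0` after
every base change which inverts `f` -/
theorem IsBC.exists_smul_H1_eq_zero {𝕂 : Type*} [Field 𝕂] [Algebra R 𝕂]
    {W' V' : Type*} [AddCommGroup W'] [Module R W'] [Module 𝕂 W'] [IsScalarTower R 𝕂 W']
    [AddCommGroup V'] [Module R V'] [Module 𝕂 V'] [IsScalarTower R 𝕂 V']
    {ι' : W' →ₗ[𝕂] V'} {L' : ℤ → Submodule 𝕂 V'} {b' : ℤ → V'}
    {fW : W →ₗ[R] W'} {fV : V →ₗ[R] V'} (hbc : IsBC ι L b ι' L' b' fW fV)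
    (h : IsFilt R L b) {N : ℤ} (hN : LinearMap.range ι ⊔ L N = ⊤) {n : ℤ}
    (hs : Function.Surjective (Kmap ι' L' n)) :
    ∃ f : R, algebraMap R 𝕂 f ≠ 0 ∧ ∀ x : H1 ι L n, f • x = 0 := by
  have := finite_H1 h hN n
  exact exists_smul_eq_zero_of_tensor_field (H1 ι L n) 𝕂 (hbc.subsingleton_tensor_H1 hs)

end Fermat.Agent.S25lib.Krich
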