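/-
S25lib / Krich / GlueGen  (helper3)  --  Project L (S25): two geometric bricks of the recognition
theorem (A), over an affine base `T`, for a `ZChart` at `e`:
* `isLocGen_of_gen_mod` (Nakayama): a section of a finite faithful module which generates modulo `z`
  generates after inverting some `a` comaximal with `z`;
* `mem_basicOpen_of_comax`: the points over `e` lie in `D(a)` for `a` comaximal with `z`;
* `exists_glue_box`: a section over `U₁ × T` and a section over `U₂ × T` which agree over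
  `D(z) × T` glue to a global section.
-/
import Fermat.Agent.S25lib.Sec.ODI
import Fermat.Agent.S25lib.Mod.SheafGlue

set_option autoImplicit false

noncomputable section

universe u

open AlgebraicGeometry CategoryTheory CategoryTheory.Limits TopologicalSpace

namespace Fermat.Agent.S25lib.Krich

open Fermat.Agent.S26lib.ProdAff Fermat.Agent.S25lib.AffBC Fermat.Agent.S25lib.Sec

section Nakayama

variable {S₂ : Type*} [CommRing S₂] {W₂ : Type*} [AddCommGroup W₂] [Module S₂ W₂]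

open Pointwise in
/-- **Nakayama**: a section which generates modulo `z` generates after inverting some `a` with
`(a, z) = 1` -/
theorem isLocGen_of_gen_mod [Module.Finite S₂ W₂] [FaithfulSMul S₂ W₂] (z : S₂) (l : W₂)
    (h : ∀ w : W₂, ∃ (b : S₂) (w' : W₂), w = b • l + z • w') :
    ∃ a : S₂, Ideal.span {a, z} = ⊤ ∧ IsLocGen a l := by
  have hle : (⊤ : Submodule S₂ W₂) ≤
      Submodule.span S₂ {l} ⊔ (Ideal.span {z}) • (⊤ : Submodule S₂ W₂) := by
    intro w _
    obtain ⟨b, w', rfl⟩ := h w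
    exact Submodule.add_mem_sup
      (Submodule.smul_mem _ _ (Submodule.mem_span_singleton_self l))
      (Submodule.smul_mem_smul (Ideal.mem_span_singleton_self z) trivial)
  obtain ⟨a, ha1, hale⟩ := Submodule.exists_sub_one_mem_and_smul_le_of_fg_of_le_sup
    (Module.Finite.fg_top (R := S₂) (M := W₂)) le_rfl hle
  have hgen : ∀ x : W₂, ∃ b : S₂, a • x = b • l := by
    intro x
    have hx : a • x ∈ a • (⊤ : Submodule S₂ W₂) :=
      Submodule.smul_mem_pointwise_smul x a ⊤ trivial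
    obtain ⟨b, hb⟩ := Submodule.mem_span_singleton.1 (hale hx)
    exact ⟨b, hb.symm⟩
  refine ⟨a, ?_, ⟨fun x => ?_, fun b hb => ⟨1, ?_⟩⟩⟩
  · rw [Ideal.eq_top_iff_one, Ideal.mem_span_pair]
    obtain ⟨c, hc⟩ := Ideal.mem_span_singleton'.1 ha1
    exact ⟨1, -c, by rw [neg_mul, hc]; ring⟩
  · obtain ⟨b, hb⟩ := hgen x
    exact ⟨1, b, by rw [pow_one, hb]⟩
  · rw [pow_one]
    apply FaithfulSMul.eq_of_smul_eq_smul (α := W₂)
    intro x
    obtain ⟨c, hc⟩ := hgen x
    rw [zero_smul, mul_comm, mul_smul, hc, smul_comm, hb, smul_zero]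

end Nakayama

variable {k : Type u} [Field k] {C T : Scheme.{u}} {c : C ⟶ Spec (CommRingCat.of k)}
  {t : T ⟶ Spec (CommRingCat.of k)} {e : C} {Z : Curve.ZChart e}

section Comax

variable [IsAffine T]

/-- the points over `e` lie in `D(a)` if `a` is comaximal with the local parameter -/
theorem mem_basicOpen_of_comax {a : Γ(pullback c t, box c t Z.U₂ ⊤)}
    (ha : Ideal.span {a, zB c t Z} = ⊤) {x : ↥(pullback c t)}
    (hx : (pullback.fst c t) x = e) : x ∈ (pullback c t).basicOpen a := by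
  have h2 : x ∈ box c t Z.U₂ ⊤ :=
    ⟨by change (pullback.fst c t) x ∈ Z.U₂; rw [hx]; exact Z.mem₂, trivial⟩
  have hle : box c t Z.U₂ ⊤ ≤
      (pullback c t).basicOpen a ⊔ (pullback c t).basicOpen (zB c t Z) := by
    have h := (Adm.isAffineOpen_box₂ (c := c) (t := t) (Z := Z)).self_le_iSup_basicOpen_iff
      (s := ({a, zB c t Z} : Set Γ(pullback c t, box c t Z.U₂ ⊤)))
    refine (h.mpr ha).trans ?_
    apply iSup_le
    rintro ⟨g, hg⟩
    rcases hg with rfl | hg
    · exact le_sup_left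
    · rw [Set.mem_singleton_iff] at hg
      subst hg
      exact le_sup_right
  rcases hle h2 with h | h
  · exact h
  · rw [basicOpen_zB] at h
    exact absurd h.1 (not_mem_box₁ hx)

end Comax

section Glue

/-- `D(z) × T = (U₁ × T) ∩ (U₂ × T)` -/
theorem box_basicOpen_eq :
    box c t (C.basicOpen Z.z) ⊤ = box c t Z.U₁ ⊤ ⊓ box c t Z.U₂ ⊤ := by
  rw [← Z.inf_eq]
  ext x
  constructor
  · rintro ⟨⟨h1, h2⟩, _⟩
    exact ⟨⟨h1, trivial⟩, ⟨h2, trivial⟩⟩
  · rintro ⟨⟨h1, _⟩, ⟨h2, _⟩⟩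
    exact ⟨⟨h1, h2⟩, trivial⟩

/-- **gluing over the two boxes**: sections over `U₁ × T` and `U₂ × T` which agree over `D(z) × T`
come from a global section -/
theorem exists_glue_box (N : (pullback c t).Modules) (h₁ : C.basicOpen Z.z ≤ Z.U₁)
    (w₁ : Γ(N, box c t Z.U₁ ⊤)) (w₂ : Γ(N, box c t Z.U₂ ⊤))
    (h : Mod.res N (box_mono (c := c) (t := t) h₁ ⊤) w₁ =
      Mod.res N (box_mono (c := c) (t := t) (C.basicOpen_le Z.z) ⊤) w₂) :
    ∃ s : Γ(N, ⊤), Mod.res N le_top s = w₁ ∧ Mod.res N le_top s = w₂ := by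
  let Wb : Bool → (pullback c t).Opens := fun b => if b then box c t Z.U₂ ⊤ else box c t Z.U₁ ⊤
  let y : ∀ b : Bool, Γ(N, Wb b) := fun b =>
    match b with
    | true => w₂
    | false => w₁
  have hcov : (⊤ : (pullback c t).Opens) ≤ ⨆ b, Wb b := by
    rw [← box_sup_box c t Z]
    exact sup_le (le_iSup Wb false) (le_iSup Wb true)
  have hle : box c t Z.U₁ ⊤ ⊓ box c t Z.U₂ ⊤ ≤ box c t (C.basicOpen Z.z) ⊤ :=
    (box_basicOpen_eq (c := c) (t := t) (Z := Z)).ge
  have h12 : Mod.res N (inf_le_left : box c t Z.U₁ ⊤ ⊓ box c t Z.U₂ ⊤ ≤ box c t Z.U₁ ⊤) w₁ =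
      Mod.res N (inf_le_right : box c t Z.U₁ ⊤ ⊓ box c t Z.U₂ ⊤ ≤ box c t Z.U₂ ⊤) w₂ := by
    have := congrArg (Mod.res N hle) h
    rwa [Mod.res_res, Mod.res_res] at this
  have h21 : Mod.res N (inf_le_left : box c t Z.U₂ ⊤ ⊓ box c t Z.U₁ ⊤ ≤ box c t Z.U₂ ⊤) w₂ =
      Mod.res N (inf_le_right : box c t Z.U₂ ⊤ ⊓ box c t Z.U₁ ⊤ ≤ box c t Z.U₁ ⊤) w₁ := by
    have := congrArg (Mod.res N ((inf_comm _ _).le :
      box c t Z.U₂ ⊤ ⊓ box c t Z.U₁ ⊤ ≤ box c t Z.U₁ ⊤ ⊓ box c t Z.U₂ ⊤)) h12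
    rw [Mod.res_res, Mod.res_res] at this
    exact this.symm
  obtain ⟨s, hs, -⟩ := Mod.exists_unique_glue N Wb ⊤ (fun _ => le_top) hcov y (by
    intro i j
    cases i <;> cases j
    · rfl
    · exact h12
    · exact h21
    · rfl)
  exact ⟨s, hs false, hs true⟩

end Glue

end Fermat.Agent.S25lib.Krich
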