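/-
S25lib / Krich / LayerA  (helper3)  --  Project L (S25): **the recognition theorem (A)**.

`T` affine, `Z` a `ZChart` at the `k`-point `ε`, `N` a rigidified line bundle on `C ×_k T` with the
Krichever condition `Hub.KB Z t N.L`.  Then `N ≅ O(D_I)` (helper6's `Sec.ODI`) for the ideal
`I = (canonIdeal).comap boxEquiv` of `Γ(T,⊤) ⊗[k] Γ(C,U₁)`, which is a point of the functor of ideals.
-/
import Fermat.Agent.S25lib.Krich.GlueGen
import Fermat.Agent.S25lib.Krich.CanonPt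
import Fermat.Agent.S25lib.AffBC.HubKB
import Fermat.Agent.S25lib.AffBC.ZAdapt

set_option autoImplicit false

noncomputable section

universe u

open AlgebraicGeometry CategoryTheory CategoryTheory.Limits TopologicalSpace TensorProduct
  AlgebraicGeometry.RelPicard NeronModelInfra

namespace Fermat.Agent.S25lib.Krich

open Fermat.Agent.S25lib.Mod (resO)
open Fermat.Agent.S26lib Fermat.Agent.S26lib.ProdAff Fermat.Agent.S26lib.P5a
open Fermat.Agent.S25lib.AffBC Fermat.Agent.S25lib.Sec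

section Algebra

variable {S₁ : Type*} [CommRing S₁] {W : Type*} [AddCommGroup W] [Module S₁ W]
  [Module.Invertible S₁ W]

/-- **(D2)**, for an ideal equal to the ideal of a regular section -/
theorem exists_dualEquiv_of_eq_secIdeal (J : Ideal S₁) (s : W) (hJ : J = secIdeal S₁ s)
    (hs : Function.Injective fun a : S₁ => a • s) :
    ∃ σ : Module.Dual S₁ J ≃ₗ[S₁] W, σ (Submodule.subtype J) = s := by
  subst hJ
  exact ⟨(equivDualSecIdeal hs).symm, by rw [LinearEquiv.symm_apply_eq, equivDualSecIdeal_self]⟩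

end Algebra

variable {k : Type u} [Field k] {C T : Scheme.{u}} (c : C ⟶ Spec (CommRingCat.of k))
  (t : T ⟶ Spec (CommRingCat.of k)) {e : C} (Z : Curve.ZChart e) [IsAffine T]
  [Algebra k Γ(C, Z.U₁)] (hA : algebraMap k Γ(C, Z.U₁) = (constHomOpen c Z.U₁).hom)
  [Algebra k Γ(T, ⊤)] (hR : algebraMap k Γ(T, ⊤) = (constHomOpen t ⊤).hom)

/-- helper6's `boxEquiv`, as an isomorphism of `Γ(T, ⊤)`-algebras -/
def boxEquivA : (Γ(T, ⊤) ⊗[k] Γ(C, Z.U₁)) ≃ₐ[Γ(T, ⊤)] Γ(pullback c t, box c t Z.U₁ ⊤) :=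
  AlgEquiv.ofRingEquiv (f := boxEquiv c t Z hA hR) (fun r => by
    rw [Algebra.TensorProduct.algebraMap_apply, Algebra.algebraMap_self_apply, boxEquiv_tmul,
      map_one, mul_one]
    rfl)

theorem boxEquivA_coe :
    ((boxEquivA c t Z hA hR : (Γ(T, ⊤) ⊗[k] Γ(C, Z.U₁)) ≃ₐ[Γ(T, ⊤)] _) :
      (Γ(T, ⊤) ⊗[k] Γ(C, Z.U₁)) →+* Γ(pullback c t, box c t Z.U₁ ⊤)) =
    (boxEquiv c t Z hA hR : (Γ(T, ⊤) ⊗[k] Γ(C, Z.U₁)) →+* _) := rfl

section Recog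

variable {c t} (ε : Prod.KPt c) (Z : Curve.ZChart ε.pt)
  [Algebra k Γ(C, Z.U₁)] (hA : algebraMap k Γ(C, Z.U₁) = (constHomOpen c Z.U₁).hom)

theorem kPt_apply (y : Spec (CommRingCat.of k)) : ε.1 y = ε.pt :=
  congrArg ε.1 (Subsingleton.elim _ _)

variable (a : Γ(C, Z.U₁)) (ainv : Γ(C, Z.U₂))
  (hmul : resO (inf_le_left : Z.U₁ ⊓ Z.U₂ ≤ Z.U₁) a *
    resO (inf_le_right : Z.U₁ ⊓ Z.U₂ ≤ Z.U₂) ainv = 1)
  (hz : ainv ∈ Ideal.span {Z.z})

/-- **(A) the recognition theorem**: a rigidified line bundle with the Krichever condition over an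
affine base is `O(D_I)` for a point `I` of the functor of ideals -/
theorem exists_iso_ODI_of_KB (N : RigidifiedLineBundle c ε t)
    (hzreg : IsSMulRegular Γ(C, Z.U₂) Z.z)
    [Algebra.FiniteType k Γ(C, Z.U₁)] (hAfin : ¬ Module.Finite k Γ(C, Z.U₁))
    (hD : ∀ (K : Type u) [Field K] [Algebra k K], IsDedekindDomain (K ⊗[k] Γ(C, Z.U₁)))
    (hR1 : ∀ U : C.Opens, IsAffineOpen U →
      Module.Invertible Γ(pullback c t, box c t U ⊤) Γ(N.L, box c t U ⊤))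
    (hO : IsOData (kB' (c := c) (t := t) Z.z ⊤) (zUnit Z.z ⊤))
    [Module.Free Γ(T, ⊤) (H1 (boxRes (c := c) (t := t) (zChart_le₁ Z) ⊤).toLinearMap
      (LO (kB' (c := c) (t := t) Z.z ⊤) (zUnit Z.z ⊤)) (-1))]
    [Module.Finite Γ(T, ⊤) (H1 (boxRes (c := c) (t := t) (zChart_le₁ Z) ⊤).toLinearMap
      (LO (kB' (c := c) (t := t) Z.z ⊤) (zUnit Z.z ⊤)) (-1))]
    {γ : ℕ}
    (hγ : Nontrivial Γ(T, ⊤) →
      Module.finrank Γ(T, ⊤) (H1 (boxRes (c := c) (t := t) (zChart_le₁ Z) ⊤).toLinearMap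
        (LO (kB' (c := c) (t := t) Z.z ⊤) (zUnit Z.z ⊤)) (-1)) = γ)
    (hKB : Hub.KB Z t N.L) :
    ∃ (I : Ideal (Γ(T, ⊤) ⊗[k] Γ(C, Z.U₁))) (_ : Hilb.IsPt γ I) (hinv : IsInvIdeal I)
      (_ : Module.Finite Γ(T, ⊤) ((Γ(T, ⊤) ⊗[k] Γ(C, Z.U₁)) ⧸ I)),
      Nonempty (N.L ≅ (ODI c t Z hA hR a ainv hmul hz ε (kPt_apply ε) I hinv).L) := by
  classical
  obtain ⟨ρ⟩ := N.rigidified
  have hT : IsAffineOpen (⊤ : T.Opens) := isAffineOpen_top T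
  obtain ⟨σ₀, hev⟩ := exists_sigma_zChart ε Z N.L ρ N.isInvertible hT
  have hB := isBuild_zChart ε Z N.L ρ N.isInvertible hT hzreg σ₀ hev
  have h := hB.isFilt
  have hS := hB.isSFilt
  have hK := (hub_KB_iff Z N.L N.isInvertible hzreg).mp hKB
  have : Module.Invertible Γ(pullback c t, box c t Z.U₁ ⊤) (BoxSec N.L Z.U₁ ⊤) :=
    hR1 Z.U₁ Z.isAffineOpen₁
  have : Module.Invertible Γ(pullback c t, box c t Z.U₂ ⊤) (BoxSec N.L Z.U₂ ⊤) :=
    hR1 Z.U₂ Z.isAffineOpen₂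
  have hι : ∀ (x : Γ(pullback c t, box c t Z.U₁ ⊤)) (w : BoxSec N.L Z.U₁ ⊤),
      BoxSec.res (zChart_le₁ Z) (x • w) =
        boxRes (zChart_le₁ Z) ⊤ x • BoxSec.res (zChart_le₁ Z) w :=
    fun x w => BoxSec.res_smul_box _ x w
  -- the ideal
  have hpt := hK.isPt_canonIdeal (boxEquivA c t Z hA hR) (boxRes (zChart_le₁ Z) ⊤) h hO hS hι hγ
  have hfaith := hK.faithful_canonIdeal (boxEquivA c t Z hA hR) (boxRes (zChart_le₁ Z) ⊤) h hO hS
    hι hAfin hD hγ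
  have hJs := hK.canonIdeal_eq_secIdeal (S₁ := Γ(pullback c t, box c t Z.U₁ ⊤)) h
  have hreg := hK.sec_regular h hfaith
  have hboxI : boxIdeal c t Z hA hR
      ((canonIdeal Γ(pullback c t, box c t Z.U₁ ⊤)
        (BoxSec.res (N := N.L) (T' := ⊤) (zChart_le₁ Z))
        (bL (zUnit (c := c) (t := t) Z.z ⊤) (kL0 N.L Z.z ⊤))).comap
        ((boxEquivA c t Z hA hR : (Γ(T, ⊤) ⊗[k] Γ(C, Z.U₁)) ≃ₐ[Γ(T, ⊤)] _) :
          (Γ(T, ⊤) ⊗[k] Γ(C, Z.U₁)) →+* Γ(pullback c t, box c t Z.U₁ ⊤))) =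
      canonIdeal Γ(pullback c t, box c t Z.U₁ ⊤)
        (BoxSec.res (N := N.L) (T' := ⊤) (zChart_le₁ Z))
        (bL (zUnit (c := c) (t := t) Z.z ⊤) (kL0 N.L Z.z ⊤)) :=
    Ideal.map_comap_of_surjective _ (boxEquivA c t Z hA hR).surjective _
  have hinvM := Ideal.invertible_of_isPt' hAfin hD hpt
  have hinv := isInvIdeal_of_invertible (I := (canonIdeal Γ(pullback c t, box c t Z.U₁ ⊤)
        (BoxSec.res (N := N.L) (T' := ⊤) (zChart_le₁ Z))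
        (bL (zUnit (c := c) (t := t) Z.z ⊤) (kL0 N.L Z.z ⊤))).comap
        ((boxEquivA c t Z hA hR : (Γ(T, ⊤) ⊗[k] Γ(C, Z.U₁)) ≃ₐ[Γ(T, ⊤)] _) :
          (Γ(T, ⊤) ⊗[k] Γ(C, Z.U₁)) →+* Γ(pullback c t, box c t Z.U₁ ⊤)))
  have hfin := hpt.finite
  refine ⟨_, hpt, hinv, hfin, ?_⟩
  obtain ⟨σ, hσ⟩ := exists_dualEquiv_of_eq_secIdeal _ (hK.sec h) (hboxI.trans hJs) hreg
  -- the section over `U₂ × T`
  have hzsmul : ∀ w : BoxSec N.L Z.U₂ ⊤,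
      BoxSec.res (C.basicOpen_le Z.z) (fstφ c t Z.U₂ ⊤ Z.z • w) =
        (zUnit (c := c) (t := t) Z.z ⊤ : Γ(pullback c t, box c t (C.basicOpen Z.z) ⊤)) •
          BoxSec.res (C.basicOpen_le Z.z) w := by
    intro w
    rw [BoxSec.res_smul_box, boxRes_fstφ_z, zUnit_val]
  have hspec := hK.sec_spec h
  rw [mem_bL] at hspec
  obtain ⟨w', hw'⟩ := hspec
  have hl : BoxSec.res (C.basicOpen_le Z.z) (BoxSec.of σ₀ + fstφ c t Z.U₂ ⊤ Z.z • w') =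
      BoxSec.res (zChart_le₁ Z) (hK.sec h) := by
    rw [map_add, hzsmul, hw']
    have e1 := zpow_smul_zpow_neg_smul (zUnit (c := c) (t := t) Z.z ⊤) 1
      (BoxSec.res (zChart_le₁ Z) (hK.sec h) -
        bb (zUnit (c := c) (t := t) Z.z ⊤) (BoxSec.res (C.basicOpen_le Z.z) (BoxSec.of σ₀)) 0)
    rw [zpow_one] at e1
    rw [e1]
    unfold bb
    rw [neg_zero, zpow_zero, Units.val_one, one_smul]
    abel
  -- the global section
  obtain ⟨s, hs₁, hs₂⟩ := exists_glue_box N.L (zChart_le₁ Z) (BoxSec.val (hK.sec h))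
    (BoxSec.val (BoxSec.of σ₀ + fstφ c t Z.U₂ ⊤ Z.z • w')) hl.symm
  -- it generates near `e × T`
  have hsplit := (rig_split c t ε N.L ρ N.isInvertible Z.isAffineOpen₂ hT (ZAdapt.mem₂ ε Z) Z.z
    (ZAdapt.split ε Z) (ZAdapt.z_vanish ε Z) σ₀ hev).1
  have hmod : ∀ w : BoxSec N.L Z.U₂ ⊤, ∃ (b : Γ(pullback c t, box c t Z.U₂ ⊤))
      (w'' : BoxSec N.L Z.U₂ ⊤),
      w = b • (BoxSec.of σ₀ + fstφ c t Z.U₂ ⊤ Z.z • w') + zB c t Z • w'' := by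
    intro w
    obtain ⟨r, w'', hw⟩ := hsplit (BoxSec.val w)
    refine ⟨boxφ c t Z.U₂ ⊤ r, BoxSec.of w'' - boxφ c t Z.U₂ ⊤ r • w', ?_⟩
    have hw2 : w = boxφ c t Z.U₂ ⊤ r • BoxSec.of σ₀ + fstφ c t Z.U₂ ⊤ Z.z • BoxSec.of w'' := hw
    rw [hw2, smul_add, smul_sub, smul_comm (zB c t Z) (boxφ c t Z.U₂ ⊤ r) w']
    abel
  obtain ⟨f₀, hcomax, hlg⟩ := isLocGen_of_gen_mod (zB c t Z)
    (BoxSec.of σ₀ + fstφ c t Z.U₂ ⊤ Z.z • w') hmod
  have hgen := isGen_of_isLocGen N.isInvertible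
    (Adm.isAffineOpen_box₂ (c := c) (t := t) (Z := Z)) hlg
  have hσs : Mod.res N.L le_top s = σ (Submodule.subtype _) := hs₁.trans hσ.symm
  obtain ⟨e, -, -⟩ := ODf.exists_iso_of_section (isInvIdeal_boxIdeal hA hR hinv)
    (ODI.adm hA hR a ainv hmul hz _) N.L N.isInvertible σ.toLinearMap.toAddMonoidHom
    (fun x ψ => map_smul σ x ψ) σ.bijective s hσs ((pullback c t).basicOpen f₀)
    (fun x hx => mem_basicOpen_of_comax hcomax hx) (by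
      have e2 := congrArg (Mod.res N.L ((pullback c t).basicOpen_le f₀)) hs₂
      rw [Mod.res_res] at e2
      rw [e2]
      exact hgen)
  exact ⟨e.symm⟩

end Recog

end Fermat.Agent.S25lib.Krich
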