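/-
S25lib / Krich / Local  (helper3)  --  Project L (S25), brick (I2): local-to-global and domains.

* `exists_sub_one_mem_and_smul_eq_zero_of_projective`: a projective module with `P = 𝔞 P` is killed
  elementwise by elements of `1 + 𝔞` (no finiteness);
* `eq_zero_of_projective_of_fibre_of_isDomain`: over a DOMAIN, a projective module with ONE zero fibre
  `P = 𝔞 P` (`𝔞 ≠ ⊤`) is zero  [degree constancy on integral test schemes];
* `eq_zero_of_forall_maximal_exists_smul`, `Kmap_surjective_of_forall_maximal`: `H¹ = 0` if it is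
  killed by an element outside every maximal ideal;
* `Kmap_surjective_of_fibres`: `H¹ = 0` as soon as `H¹` of the fibre at every maximal ideal vanishes.
-/
import Fermat.Agent.S25lib.Krich.Fibre

set_option autoImplicit false

namespace Fermat.Agent.S25lib.Krich

open Submodule

section Proj

variable {R : Type*} [CommRing R] {P : Type*} [AddCommGroup P] [Module R P]

/-- the coefficients of an element of `𝔞 P` in a projective coordinate system: there is `r ∈ 1 + 𝔞` killing
all the coordinates of `x` -/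
theorem exists_sub_one_mem_and_mul_coord_eq_zero [Module.Projective R P] (𝔞 : Ideal R)
    (h : (𝔞 • ⊤ : Submodule R P) = ⊤) (s : P →ₗ[R] P →₀ R)
    (hs : Finsupp.linearCombination R id ∘ₗ s = LinearMap.id) (x : P) :
    ∃ r : R, r - 1 ∈ 𝔞 ∧ ∀ q, r * s x q = 0 := by
  classical
  have hx : Finsupp.linearCombination R id (s x) = x := by
    have := congrArg (fun g => g x) hs
    simpa using this
  set c := s x with hc
  set I : Ideal R := Ideal.span (Set.range c) with hIdef
  have hIfg : I.FG := by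
    refine ⟨c.support.image c ∪ {0}, ?_⟩
    apply le_antisymm
    · apply Ideal.span_le.mpr
      intro r hr
      rcases Finset.mem_union.mp (Finset.mem_coe.mp hr) with hr | hr
      · obtain ⟨p, _, rfl⟩ := Finset.mem_image.mp hr
        exact Ideal.subset_span ⟨p, rfl⟩
      · rw [Finset.mem_singleton.mp hr]
        exact I.zero_mem
    · apply Ideal.span_le.mpr
      rintro _ ⟨p, rfl⟩
      by_cases hp : p ∈ c.support
      · exact Ideal.subset_span
          (Finset.mem_coe.mpr (Finset.mem_union_left _ (Finset.mem_image_of_mem c hp)))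
      · rw [Finsupp.notMem_support_iff.mp hp]
        exact Submodule.zero_mem _
  have hle : I ≤ 𝔞 • I := by
    apply Ideal.span_le.mpr
    rintro _ ⟨q, rfl⟩
    have h1 : c = c.sum fun p r => r • s p := by
      conv_lhs => rw [hc, ← hx]
      rw [Finsupp.linearCombination_apply, map_finsuppSum]
      simp only [id, map_smul]
    have h2 : c q = c.sum fun p r => r * (s p) q := by
      conv_lhs => rw [h1]
      rw [Finsupp.sum_apply]
      simp only [Finsupp.smul_apply, smul_eq_mul]
    rw [SetLike.mem_coe, h2]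
    refine Ideal.sum_mem _ fun p _ => ?_
    have hp : s p ∈ (𝔞 • ⊤ : Submodule R (P →₀ R)) := by
      have hp' : p ∈ (𝔞 • ⊤ : Submodule R P) := by rw [h]; trivial
      have := Submodule.mem_map_of_mem (f := s) hp'
      rw [Submodule.map_smul''] at this
      exact Submodule.smul_mono le_rfl le_top this
    have hq := coeff_mem_of_mem_smul_top 𝔞 hp q
    have hcp : c p ∈ I := Ideal.subset_span (s := Set.range c) ⟨p, rfl⟩
    have := Ideal.mul_mem_mul hq hcp
    rw [smul_eq_mul]
    show c p * (s p) q ∈ 𝔞 * I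
    rw [mul_comm (c p)]
    exact this
  obtain ⟨r, hr1, hr⟩ :=
    Submodule.exists_sub_one_mem_and_smul_eq_zero_of_fg_of_le_smul 𝔞 I hIfg hle
  refine ⟨r, hr1, fun q => ?_⟩
  have := hr (c q) (Ideal.subset_span ⟨q, rfl⟩)
  simpa using this

/-- **a projective module with `P = 𝔞 P` is killed elementwise by `1 + 𝔞`** (no finiteness) -/
theorem exists_sub_one_mem_and_smul_eq_zero_of_projective [Module.Projective R P] (𝔞 : Ideal R)
    (h : (𝔞 • ⊤ : Submodule R P) = ⊤) (x : P) : ∃ r : R, r - 1 ∈ 𝔞 ∧ r • x = 0 := by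
  obtain ⟨s, hs⟩ := (Module.projective_def' (R := R) (P := P)).mp inferInstance
  obtain ⟨r, hr1, hr⟩ := exists_sub_one_mem_and_mul_coord_eq_zero 𝔞 h s hs x
  refine ⟨r, hr1, ?_⟩
  have hx : Finsupp.linearCombination R id (s x) = x := by
    have := congrArg (fun g => g x) hs
    simpa using this
  have h0 : r • s x = 0 := by
    ext q
    simpa using hr q
  rw [← hx, ← map_smul, h0, map_zero]

/-- **over a domain, a projective module with one vanishing fibre is zero** (no finiteness) -/
theorem eq_zero_of_projective_of_fibre_of_isDomain [IsDomain R] [Module.Projective R P]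
    (𝔞 : Ideal R) (h𝔞 : 𝔞 ≠ ⊤) (h : (𝔞 • ⊤ : Submodule R P) = ⊤) (x : P) : x = 0 := by
  obtain ⟨s, hs⟩ := (Module.projective_def' (R := R) (P := P)).mp inferInstance
  obtain ⟨r, hr1, hr⟩ := exists_sub_one_mem_and_mul_coord_eq_zero 𝔞 h s hs x
  have hx : Finsupp.linearCombination R id (s x) = x := by
    have := congrArg (fun g => g x) hs
    simpa using this
  have hr0 : r ≠ 0 := by
    rintro rfl
    apply h𝔞
    rw [Ideal.eq_top_iff_one]
    have : (1 : R) = -(0 - 1) := by ring
    rw [this]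
    exact 𝔞.neg_mem hr1
  have h0 : s x = 0 := by
    ext q
    rcases mul_eq_zero.mp (hr q) with h' | h'
    · exact absurd h' hr0
    · simpa using h'
  rw [← hx, h0, map_zero]

/-- an element killed by an element outside every maximal ideal is zero -/
theorem eq_zero_of_forall_maximal_exists_smul (x : P)
    (h : ∀ 𝔪 : Ideal R, 𝔪.IsMaximal → ∃ f : R, f ∉ 𝔪 ∧ f • x = 0) : x = 0 := by
  by_contra hne
  have hann : (Submodule.span R {x}).annihilator ≠ ⊤ := by
    intro htop
    apply hne
    have h1 : (1 : R) ∈ (Submodule.span R {x}).annihilator := by rw [htop]; trivial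
    have := Submodule.mem_annihilator.mp h1 x (Submodule.subset_span rfl)
    simpa using this
  obtain ⟨𝔪, h𝔪, hle⟩ := Ideal.exists_le_maximal _ hann
  obtain ⟨f, hf, hfx⟩ := h 𝔪 h𝔪
  apply hf
  apply hle
  rw [Submodule.mem_annihilator_span_singleton]
  exact hfx

end Proj

section H1

variable {R : Type*} [CommRing R] {W V : Type*} [AddCommGroup W] [Module R W]
  [AddCommGroup V] [Module R V] {ι : W →ₗ[R] V} {L : ℤ → Submodule R V} {b : ℤ → V}

/-- `H¹ = 0` if it is killed by an element outside every maximal ideal -/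
theorem Kmap_surjective_of_forall_maximal {n : ℤ}
    (h : ∀ 𝔪 : Ideal R, 𝔪.IsMaximal → ∃ f : R, f ∉ 𝔪 ∧ ∀ x : H1 ι L n, f • x = 0) :
    Function.Surjective (Kmap ι L n) := by
  rw [Kmap_surjective_iff, ← subsingleton_H1_iff]
  refine ⟨fun x y => ?_⟩
  have hx := eq_zero_of_forall_maximal_exists_smul x fun 𝔪 h𝔪 => by
    obtain ⟨f, hf, hfx⟩ := h 𝔪 h𝔪
    exact ⟨f, hf, hfx x⟩
  have hy := eq_zero_of_forall_maximal_exists_smul y fun 𝔪 h𝔪 => by
    obtain ⟨f, hf, hfx⟩ := h 𝔪 h𝔪
    exact ⟨f, hf, hfx y⟩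
  rw [hx, hy]

/-- the fibre at a maximal ideal `𝔪` (a field `𝕂` with `𝔪 ≤ ker (R → 𝕂)`) with vanishing `H¹` gives an
element outside `𝔪` which kills `H¹(M)` -/
theorem IsBC.exists_notMem_smul_H1_eq_zero {𝕂 : Type*} [Field 𝕂] [Algebra R 𝕂]
    {W' V' : Type*} [AddCommGroup W'] [Module R W'] [Module 𝕂 W'] [IsScalarTower R 𝕂 W']
    [AddCommGroup V'] [Module R V'] [Module 𝕂 V'] [IsScalarTower R 𝕂 V']
    {ι' : W' →ₗ[𝕂] V'} {L' : ℤ → Submodule 𝕂 V'} {b' : ℤ → V'}
    {fW : W →ₗ[R] W'} {fV : V →ₗ[R] V'} (hbc : IsBC ι L b ι' L' b' fW fV)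
    (h : IsFilt R L b) {N : ℤ} (hN : LinearMap.range ι ⊔ L N = ⊤) {n : ℤ}
    (hs : Function.Surjective (Kmap ι' L' n)) (𝔪 : Ideal R)
    (h𝔪 : 𝔪 ≤ RingHom.ker (algebraMap R 𝕂)) :
    ∃ f : R, f ∉ 𝔪 ∧ ∀ x : H1 ι L n, f • x = 0 := by
  obtain ⟨f, hf, hfx⟩ := hbc.exists_smul_H1_eq_zero h hN hs
  exact ⟨f, fun hfm => hf (h𝔪 hfm), hfx⟩

/-- **`H¹ = 0` as soon as `H¹` of the fibre at every maximal ideal vanishes**, in the form: for every
maximal ideal there is an element outside it killing `H¹` (supplied fibre by fibre by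
`IsBC.exists_notMem_smul_H1_eq_zero`) -/
theorem Kmap_surjective_of_fibres {n : ℤ}
    (h : ∀ 𝔪 : Ideal R, 𝔪.IsMaximal → ∃ f : R, f ∉ 𝔪 ∧ ∀ x : H1 ι L n, f • x = 0) :
    Function.Surjective (Kmap ι L n) :=
  Kmap_surjective_of_forall_maximal h

end H1

end Fermat.Agent.S25lib.Krich
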